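/-
S24, piece JQ-BRIDGE (part 1): the formal Euler product `∏ (1 - X ^ (n + 1))` of the Prelude
(`ModularCurve.etaProd`, a power series over `ℤ` defined in the Pi topology) sums, at every
point `q` of the open unit disc, to the analytic infinite product `∏' (1 - q ^ (n + 1))`.
-/
import Mathlib
import Fermat.Prelude.Def_ModularCurve_X0

set_option autoImplicit false

noncomputable section

open Polynomial Filter Topology
open scoped PowerSeries.WithPiTopology

namespace Fermat.Agent.S24.JqBridge

/-- The partial products of the Euler product, as integer polynomials. -/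
def partPoly (s : Finset ℕ) : ℤ[X] := ∏ n ∈ s, (1 - X ^ (n + 1))

theorem aeval_partPoly (s : Finset ℕ) (q : ℂ) :
    aeval q (partPoly s) = ∏ n ∈ s, (1 - q ^ (n + 1)) := by
  simp [partPoly, map_prod]

theorem coe_partPoly (s : Finset ℕ) :
    ((partPoly s : ℤ[X]) : PowerSeries ℤ) = ∏ n ∈ s, (1 - PowerSeries.X ^ (n + 1)) := by
  rw [← Polynomial.coeToPowerSeries.ringHom_apply, partPoly, map_prod]
  refine Finset.prod_congr rfl fun n _ => ?_
  simp

theorem iteratedDeriv_aeval (p : ℤ[X]) (m : ℕ) :
    iteratedDeriv m (fun q : ℂ => aeval q p) = fun q => aeval q (derivative^[m] p) := by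
  induction m with
  | zero => simp
  | succ m ih =>
    rw [iteratedDeriv_succ, ih]
    funext q
    rw [Polynomial.deriv_aeval, Function.iterate_succ_apply']

theorem iteratedDeriv_aeval_zero (p : ℤ[X]) (m : ℕ) :
    iteratedDeriv m (fun q : ℂ => aeval q p) 0 = (m.factorial : ℂ) * ((p.coeff m : ℤ) : ℂ) := by
  rw [iteratedDeriv_aeval]
  simp only
  rw [← Polynomial.coeff_zero_eq_aeval_zero', Polynomial.coeff_iterate_derivative, zero_add,
    Nat.descFactorial_self]
  simp

/-- The coefficients of the partial products converge to those of the formal Euler product. -/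
theorem tendsto_coeff_partPoly (m : ℕ) :
    Tendsto (fun s : Finset ℕ => (((partPoly s).coeff m : ℤ) : ℂ)) atTop
      (𝓝 ((PowerSeries.coeff m ModularCurve.etaProd : ℤ) : ℂ)) := by
  have h1 : HasProd (fun n : ℕ => (1 - PowerSeries.X ^ (n + 1) : PowerSeries ℤ))
      ModularCurve.etaProd :=
    (PowerSeries.WithPiTopology.multipliable_one_sub_X_pow ℤ).hasProd
  have h2 : Tendsto (fun s : Finset ℕ => PowerSeries.coeff m
      (∏ n ∈ s, (1 - PowerSeries.X ^ (n + 1) : PowerSeries ℤ))) atTop
      (𝓝 (PowerSeries.coeff m ModularCurve.etaProd)) :=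
    ((PowerSeries.WithPiTopology.continuous_coeff ℤ m).tendsto _).comp h1
  have h3 : Continuous (fun k : ℤ => (k : ℂ)) := continuous_of_discreteTopology
  refine ((h3.tendsto _).comp h2).congr fun s => ?_
  simp only [Function.comp_apply]
  rw [← coe_partPoly, Polynomial.coeff_coe]

/-- The Taylor coefficients at `0` of the analytic Euler product are the coefficients of the
formal Euler product. -/
theorem iteratedDeriv_tprod_zero (m : ℕ) :
    iteratedDeriv m (fun q : ℂ => ∏' n : ℕ, (1 - q ^ (n + 1))) 0 =
      (m.factorial : ℂ) * ((PowerSeries.coeff m ModularCurve.etaProd : ℤ) : ℂ) := by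
  have hloc : TendstoLocallyUniformlyOn (fun (s : Finset ℕ) (q : ℂ) => aeval q (partPoly s))
      (fun q : ℂ => ∏' n : ℕ, (1 - q ^ (n + 1))) atTop (Metric.ball 0 1) := by
    have := hasProdLocallyUniformlyOn_iff_tendstoLocallyUniformlyOn.mp
      ModularForm.multipliableLocallyUniformlyOn_one_sub_pow.hasProdLocallyUniformlyOn
    simpa only [aeval_partPoly] using this
  have key : ∀ k : ℕ, TendstoLocallyUniformlyOn
      (fun (s : Finset ℕ) => iteratedDeriv k (fun q : ℂ => aeval q (partPoly s)))
      (iteratedDeriv k (fun q : ℂ => ∏' n : ℕ, (1 - q ^ (n + 1)))) atTop (Metric.ball 0 1) := by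
    intro k
    induction k with
    | zero => simpa using hloc
    | succ k ih =>
      have hd : ∀ᶠ s : Finset ℕ in atTop, DifferentiableOn ℂ
          (iteratedDeriv k (fun q : ℂ => aeval q (partPoly s))) (Metric.ball 0 1) := by
        refine Eventually.of_forall fun s => ?_
        rw [iteratedDeriv_aeval]
        exact (Polynomial.differentiable_aeval _).differentiableOn
      have := ih.deriv hd Metric.isOpen_ball
      simpa only [iteratedDeriv_succ, Function.comp_def] using this
  have h1 := (key m).tendsto_at (Metric.mem_ball_self one_pos)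
  simp only [iteratedDeriv_aeval_zero] at h1
  exact tendsto_nhds_unique h1 ((tendsto_coeff_partPoly m).const_mul _)

/-- **Euler product as a power series**: on the open unit disc the formal Euler product of the
Prelude sums to the analytic infinite product. -/
theorem hasSum_etaProd {q : ℂ} (hq : ‖q‖ < 1) :
    HasSum (fun m : ℕ => ((PowerSeries.coeff m ModularCurve.etaProd : ℤ) : ℂ) * q ^ m)
      (∏' n : ℕ, (1 - q ^ (n + 1))) := by
  have hmem : q ∈ Metric.ball (0 : ℂ) 1 := by simpa using hq
  have h := Complex.hasSum_taylorSeries_on_ball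
    ModularForm.differentiableOn_tprod_one_sub_pow hmem
  refine h.congr_fun fun m => ?_
  rw [iteratedDeriv_tprod_zero, sub_zero, smul_eq_mul, smul_eq_mul]
  have hm : (m.factorial : ℂ) ≠ 0 := Nat.cast_ne_zero.mpr m.factorial_ne_zero
  field_simp

end Fermat.Agent.S24.JqBridge

end
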