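/-
S24, piece JQ-BRIDGE (part 2): the Prelude's formal `q`-series `jNum = E₄³ / ∏ (1 - qⁿ)²⁴`
(so that `jq = q⁻¹ * jNum`) is the `q`-expansion of the analytic function `q * j`,
`j = E₄³ / Δ` (`JN.jFun`).
-/
import Mathlib
import Fermat.Prelude.Def_ModularCurve_X0
import Fermat.Agent.S23.QCalc
import Fermat.Agent.S23.JN
import Fermat.Agent.S24.JqProduct

set_option autoImplicit false

noncomputable section

open UpperHalfPlane ModularForm EisensteinSeries Function
open scoped MatrixGroups ModularForm Manifold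

namespace Fermat.Agent.S24.JqBridge

open Fermat.Agent.S23.QCalc Fermat.Agent.S23.JN

local notation "Δ" => ModularForm.discriminant

/-- The coefficient-wise embedding `ℤ⟦X⟧ → ℂ⟦X⟧`. -/
abbrev toC : PowerSeries ℤ →+* PowerSeries ℂ := PowerSeries.map (Int.castRingHom ℂ)

/-- A holomorphic function on the unit disc, composed with `q`, is the sum of its Taylor
series. -/
theorem hasQ_of_differentiableOn (g : ℂ → ℂ) (hg : DifferentiableOn ℂ g (Metric.ball 0 1)) :
    HasQ (fun z => g (Periodic.qParam 1 (z : ℂ)))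
      (PowerSeries.mk fun m => (m.factorial : ℂ)⁻¹ * iteratedDeriv m g 0) := by
  intro z
  have hq : Periodic.qParam 1 (z : ℂ) ∈ Metric.ball (0 : ℂ) 1 := by
    simpa using Periodic.norm_qParam_lt_one one_pos z.im_pos
  have h := Complex.hasSum_taylorSeries_on_ball hg hq
  refine h.congr_fun fun m => ?_
  rw [PowerSeries.coeff_mk, sub_zero, smul_eq_mul, smul_eq_mul]
  ring

/-- The analytic Euler product, as a function on the upper half plane. -/
def eulerFun (z : ℍ) : ℂ := ∏' n : ℕ, (1 - Periodic.qParam 1 (z : ℂ) ^ (n + 1))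

theorem hasQ_eulerFun : HasQ eulerFun (toC ModularCurve.etaProd) := by
  intro z
  have hq : ‖Periodic.qParam 1 (z : ℂ)‖ < 1 := Periodic.norm_qParam_lt_one one_pos z.im_pos
  refine (hasSum_etaProd hq).congr_fun fun m => ?_
  simp [toC]

theorem discriminant_eq_q_mul_eulerFun_pow (z : ℍ) :
    Δ z = Periodic.qParam 1 (z : ℂ) * eulerFun z ^ 24 := by
  rw [discriminant_eq_q_prod, eulerFun]
  congr 1
  exact (multipliableLocallyUniformlyOn_eta.multipliable z.2).tprod_pow 24

theorem eulerFun_ne_zero (z : ℍ) : eulerFun z ≠ 0 := by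
  intro h
  have := discriminant_eq_q_mul_eulerFun_pow z
  rw [h] at this
  exact discriminant_ne_zero z (by simpa using this)

theorem hasQ_eulerFun_pow :
    HasQ (fun z => eulerFun z ^ 24) (toC ModularCurve.dedekindEtaUnit) := by
  have h := hasQ_eulerFun.pow 24
  rw [← map_pow] at h
  exact h

/-- The `q`-expansion of `Δ` is `q ∏ (1 - qⁿ)²⁴`, with the formal product of the Prelude. -/
theorem hasQ_discriminant : HasQ Δ (PowerSeries.X * toC ModularCurve.dedekindEtaUnit) := by
  have hX : HasQ (fun z : ℍ => Periodic.qParam 1 (z : ℂ)) PowerSeries.X := by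
    intro z
    have h := hasSum_ite_eq (1 : ℕ) (Periodic.qParam 1 (z : ℂ))
    refine h.congr_fun fun n => ?_
    rw [PowerSeries.coeff_X]
    split_ifs with hn
    · subst hn; simp
    · simp
  exact (hX.mul hasQ_eulerFun_pow).congr fun z => (discriminant_eq_q_mul_eulerFun_pow z).symm

theorem qExpansion_discriminant :
    qExpansion 1 Δ = PowerSeries.X * toC ModularCurve.dedekindEtaUnit :=
  (HasQ.eq_qExpansion one_mem_strictPeriods_SL CuspForm.discriminant hasQ_discriminant).symm

/-- The analytic Euler product on the disc does not vanish. -/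
theorem tprod_ne_zero_of_norm_lt_one {q : ℂ} (hq : ‖q‖ < 1) :
    ∏' n : ℕ, (1 - q ^ (n + 1)) ≠ 0 := by
  refine tprod_one_add_ne_zero_of_summable (f := fun n => -q ^ (n + 1)) ?_ ?_
  · intro n
    have h1 : ‖q ^ (n + 1)‖ < 1 := by
      rw [norm_pow]
      exact pow_lt_one₀ (norm_nonneg _) hq (Nat.succ_ne_zero n)
    intro h
    have h2 : q ^ (n + 1) = 1 := by
      have : (1 : ℂ) - q ^ (n + 1) = 0 := by simpa [sub_eq_add_neg] using h
      exact (sub_eq_zero.mp this).symm
    rw [h2, norm_one] at h1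
    exact lt_irrefl _ h1
  · simpa using (summable_nat_add_iff 1).mpr (summable_geometric_of_lt_one (norm_nonneg _) hq)

/-- The inverse of the 24-th power of the Euler product is the sum of the inverse formal
series. -/
theorem hasQ_eulerFun_pow_inv :
    HasQ (fun z => (eulerFun z ^ 24)⁻¹) (toC ModularCurve.dedekindEtaUnitInv) := by
  set g : ℂ → ℂ := fun q => ((∏' n : ℕ, (1 - q ^ (n + 1))) ^ 24)⁻¹ with hg
  have hdiff : DifferentiableOn ℂ g (Metric.ball 0 1) := by
    refine DifferentiableOn.inv (differentiableOn_tprod_one_sub_pow.pow 24) fun q hq => ?_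
    exact pow_ne_zero _ (tprod_ne_zero_of_norm_lt_one (by simpa using hq))
  have h1 := hasQ_of_differentiableOn g hdiff
  set T : PowerSeries ℂ := PowerSeries.mk fun m => (m.factorial : ℂ)⁻¹ * iteratedDeriv m g 0
    with hT
  have h2 : HasQ (fun z => (eulerFun z ^ 24)⁻¹) T := h1
  -- `T` is the inverse of the image of `dedekindEtaUnit`
  have h3 : HasQ 1 (T * toC ModularCurve.dedekindEtaUnit) :=
    (h2.mul hasQ_eulerFun_pow).congr fun z => by
      simp only [Pi.mul_apply, Pi.one_apply]
      exact inv_mul_cancel₀ (pow_ne_zero _ (eulerFun_ne_zero z))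
  have h4 : T * toC ModularCurve.dedekindEtaUnit = 1 := h3.series_unique hasQ_one
  have h5 : toC ModularCurve.dedekindEtaUnit * toC ModularCurve.dedekindEtaUnitInv = 1 := by
    rw [← map_mul, ModularCurve.dedekindEtaUnit_mul_inv, map_one]
  have h6 : T = toC ModularCurve.dedekindEtaUnitInv := by
    calc T = T * (toC ModularCurve.dedekindEtaUnit * toC ModularCurve.dedekindEtaUnitInv) := by
          rw [h5, mul_one]
      _ = toC ModularCurve.dedekindEtaUnitInv := by rw [← mul_assoc, h4, one_mul]
  rw [← h6]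
  exact h2

/-- The `q`-expansion of `E₄` is the Prelude's `eisenstein4`. -/
theorem qExpansion_E₄ : qExpansion 1 E₄ = toC ModularCurve.eisenstein4 := by
  ext m
  rw [show (E₄ : ModularForm 𝒮ℒ 4) = E (by norm_num : 3 ≤ 4) from rfl,
    E_qExpansion_coeff (by norm_num : 3 ≤ 4) ⟨2, rfl⟩ m]
  simp only [toC, PowerSeries.coeff_map, ModularCurve.eisenstein4, PowerSeries.coeff_mk]
  split_ifs with hm
  · simp
  · have hb : bernoulli 4 = -1 / 30 := by
      rw [bernoulli_eq_bernoulli'_of_ne_one (by norm_num), bernoulli'_four]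
    rw [hb, ArithmeticFunction.sigma_apply, eq_intCast]
    push_cast
    ring

theorem hasQ_E₄ : HasQ E₄ (toC ModularCurve.eisenstein4) := by
  have h := hasQ_modularForm (Γ := 𝒮ℒ) (k := 4) one_mem_strictPeriods_SL E₄
  rwa [qExpansion_E₄] at h

/-- **The bridge**: `q * j` is the sum of the Prelude's formal series `jNum`. -/
theorem hasQ_jFun_mul_q :
    HasQ (fun z => jFun z * Periodic.qParam 1 (z : ℂ)) (toC ModularCurve.jNum) := by
  have h := (hasQ_E₄.pow 3).mul hasQ_eulerFun_pow_inv
  rw [← map_pow, ← map_mul] at h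
  refine h.congr fun z => ?_
  have hq : Periodic.qParam 1 (z : ℂ) ≠ 0 := Periodic.qParam_ne_zero _
  have he : eulerFun z ^ 24 ≠ 0 := pow_ne_zero _ (eulerFun_ne_zero z)
  simp only [Pi.mul_apply, Pi.pow_apply, jFun]
  rw [discriminant_eq_q_mul_eulerFun_pow]
  field_simp

end Fermat.Agent.S24.JqBridge

end
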