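/-
S24, piece BRIDGE (part 1): the formal `q`-series of the Prelude (`ModularCurve.eisenstein4`,
`ModularCurve.etaProd`, `ModularCurve.dedekindEtaUnit`) are the `q`-expansions of the analytic
objects of Mathlib (`E₄`, `Δ`).
-/
import Mathlib
import Fermat.Prelude.Def_ModularCurve_X0

set_option autoImplicit false

noncomputable section

open UpperHalfPlane ModularForm ModularFormClass EisensteinSeries Filter Topology
open scoped MatrixGroups ModularForm Manifold Nat PowerSeries.WithPiTopology

namespace Fermat.Agent.S24.Bridge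

/-! ### Taylor series at `0` as a formal power series -/

/-- The Taylor series at `0` of a function `ℂ → ℂ`, as a formal power series. -/
def taylor (f : ℂ → ℂ) : PowerSeries ℂ :=
  PowerSeries.mk fun m => (m.factorial : ℂ)⁻¹ * iteratedDeriv m f 0

theorem coeff_taylor (f : ℂ → ℂ) (m : ℕ) :
    (taylor f).coeff m = (m.factorial : ℂ)⁻¹ * iteratedDeriv m f 0 := by
  simp [taylor]

theorem qExpansion_eq_taylor (h : ℝ) (f : ℍ → ℂ) : qExpansion h f = taylor (cuspFunction h f) := by
  ext m
  rw [qExpansion_coeff, coeff_taylor]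

theorem taylor_congr {f g : ℂ → ℂ} (h : f =ᶠ[𝓝 0] g) : taylor f = taylor g := by
  ext m
  rw [coeff_taylor, coeff_taylor, h.iteratedDeriv_eq m]

theorem taylor_mul {f g : ℂ → ℂ} (hf : AnalyticAt ℂ f 0) (hg : AnalyticAt ℂ g 0) :
    taylor (f * g) = taylor f * taylor g := by
  ext m
  simp only [coeff_taylor, iteratedDeriv_mul hf.contDiffAt hg.contDiffAt, Finset.mul_sum,
    PowerSeries.coeff_mul, Finset.Nat.sum_antidiagonal_eq_sum_range_succ_mk, Nat.succ_eq_add_one]
  refine Finset.sum_congr rfl fun i hi ↦ ?_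
  rw [Nat.cast_choose _ (by grind)]
  field_simp [Nat.factorial_ne_zero]

theorem taylor_one : taylor (1 : ℂ → ℂ) = 1 := by
  ext m
  have h2 : iteratedDeriv m (1 : ℂ → ℂ) 0 = if m = 0 then 1 else 0 := by
    simpa [ite_apply] using! iteratedDeriv_const
  simp +contextual [coeff_taylor, h2, PowerSeries.coeff_one]

theorem taylor_pow {f : ℂ → ℂ} (hf : AnalyticAt ℂ f 0) (n : ℕ) :
    taylor (f ^ n) = taylor f ^ n := by
  induction n with
  | zero => simpa using taylor_one
  | succ n ih =>
    rw [pow_succ, pow_succ, taylor_mul (hf.pow n) hf, ih]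


theorem iteratedDeriv_polynomial (p : Polynomial ℂ) (m : ℕ) :
    iteratedDeriv m (fun x => p.eval x) = fun x => (Polynomial.derivative^[m] p).eval x := by
  induction m with
  | zero => simp
  | succ m ih =>
    rw [iteratedDeriv_succ, ih]
    funext x
    rw [Polynomial.deriv, Function.iterate_succ_apply']

theorem taylor_polynomial (p : Polynomial ℂ) :
    taylor (fun x => p.eval x) = (p : PowerSeries ℂ) := by
  ext m
  rw [coeff_taylor, iteratedDeriv_polynomial, Polynomial.coeff_coe]
  show (m.factorial : ℂ)⁻¹ * (Polynomial.derivative^[m] p).eval 0 = p.coeff m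
  rw [← Polynomial.coeff_zero_eq_eval_zero, Polynomial.coeff_iterate_derivative]
  simp only [zero_add, Nat.descFactorial_self, nsmul_eq_mul]
  have hm : (m.factorial : ℂ) ≠ 0 := Nat.cast_ne_zero.mpr (Nat.factorial_ne_zero m)
  field_simp

/-- Locally uniform convergence of holomorphic functions implies convergence of all iterated
derivatives. -/
theorem tendstoLocallyUniformlyOn_iteratedDeriv {ι : Type*} {l : Filter ι} {F : ι → ℂ → ℂ}
    {f : ℂ → ℂ} {U : Set ℂ} (hU : IsOpen U) (hf : TendstoLocallyUniformlyOn F f l U)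
    (hF : ∀ n, DifferentiableOn ℂ (F n) U) (m : ℕ) :
    TendstoLocallyUniformlyOn (fun n => iteratedDeriv m (F n)) (iteratedDeriv m f) l U ∧
      ∀ n, DifferentiableOn ℂ (iteratedDeriv m (F n)) U := by
  induction m with
  | zero =>
    simp only [iteratedDeriv_zero]
    exact ⟨hf, hF⟩
  | succ m ih =>
    obtain ⟨h1, h2⟩ := ih
    constructor
    · have := h1.deriv (Eventually.of_forall h2) hU
      simp only [iteratedDeriv_succ]
      exact this
    · intro n
      rw [iteratedDeriv_succ]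
      exact (h2 n).deriv hU

/-- The Taylor series of the Euler product `∏ (1 - q ^ (n + 1))` is the formal Euler product. -/
theorem taylor_tprod :
    taylor (fun q : ℂ => ∏' n : ℕ, (1 - q ^ (n + 1))) =
      PowerSeries.map (Int.castRingHom ℂ) ModularCurve.etaProd := by
  ext m
  rw [coeff_taylor, PowerSeries.coeff_map]
  -- analytic side
  have hU : IsOpen (Metric.ball (0 : ℂ) 1) := Metric.isOpen_ball
  have h0 : (0 : ℂ) ∈ Metric.ball (0 : ℂ) 1 := Metric.mem_ball_self one_pos
  have hloc : TendstoLocallyUniformlyOn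
      (fun (s : Finset ℕ) (q : ℂ) => ∏ n ∈ s, (1 - q ^ (n + 1)))
      (fun q : ℂ => ∏' n : ℕ, (1 - q ^ (n + 1))) atTop (Metric.ball (0 : ℂ) 1) :=
    ModularForm.multipliableLocallyUniformlyOn_one_sub_pow.hasProdLocallyUniformlyOn
  have hdiff : ∀ s : Finset ℕ, DifferentiableOn ℂ (fun q : ℂ => ∏ n ∈ s, (1 - q ^ (n + 1)))
      (Metric.ball (0 : ℂ) 1) := by
    intro s
    simpa [Finset.prod_fn] using
      DifferentiableOn.finsetProd (u := s) (f := fun (n : ℕ) (q : ℂ) => 1 - q ^ (n + 1))
        (s := Metric.ball (0 : ℂ) 1) (fun _ _ ↦ by fun_prop)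
  have han := ((tendstoLocallyUniformlyOn_iteratedDeriv hU hloc hdiff m).1.tendsto_at h0)
  have han' : Tendsto (fun s : Finset ℕ => (m.factorial : ℂ)⁻¹ *
      iteratedDeriv m (fun q : ℂ => ∏ n ∈ s, (1 - q ^ (n + 1))) 0) atTop
      (𝓝 ((m.factorial : ℂ)⁻¹ * iteratedDeriv m (fun q : ℂ => ∏' n : ℕ, (1 - q ^ (n + 1))) 0)) :=
    han.const_mul _
  -- formal side
  have hform : Tendsto (fun s : Finset ℕ => ∏ n ∈ s, ((1 : PowerSeries ℤ) - PowerSeries.X ^ (n + 1)))
      atTop (𝓝 ModularCurve.etaProd) :=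
    (PowerSeries.WithPiTopology.multipliable_one_sub_X_pow ℤ).hasProd
  have hcoeff := ((PowerSeries.WithPiTopology.continuous_coeff ℤ m).tendsto _).comp hform
  have hcast : Tendsto (fun s : Finset ℕ =>
      (((∏ n ∈ s, ((1 : PowerSeries ℤ) - PowerSeries.X ^ (n + 1))).coeff m : ℤ) : ℂ)) atTop
      (𝓝 ((ModularCurve.etaProd.coeff m : ℤ) : ℂ)) :=
    ((continuous_of_discreteTopology (f := fun k : ℤ => (k : ℂ))).tendsto _).comp hcoeff
  -- identification of the two nets
  have heq : ∀ s : Finset ℕ, (m.factorial : ℂ)⁻¹ *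
      iteratedDeriv m (fun q : ℂ => ∏ n ∈ s, (1 - q ^ (n + 1))) 0 =
      (((∏ n ∈ s, ((1 : PowerSeries ℤ) - PowerSeries.X ^ (n + 1))).coeff m : ℤ) : ℂ) := by
    intro s
    have h1 : (fun q : ℂ => ∏ n ∈ s, (1 - q ^ (n + 1))) =
        fun q : ℂ => (∏ n ∈ s, ((1 : Polynomial ℂ) - Polynomial.X ^ (n + 1))).eval q := by
      funext q
      simp [Polynomial.eval_prod]
    rw [← coeff_taylor, h1, taylor_polynomial]
    have h2 : ((∏ n ∈ s, ((1 : Polynomial ℂ) - Polynomial.X ^ (n + 1)) : Polynomial ℂ) :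
        PowerSeries ℂ) = PowerSeries.map (Int.castRingHom ℂ)
          (∏ n ∈ s, ((1 : PowerSeries ℤ) - PowerSeries.X ^ (n + 1))) := by
      rw [map_prod]
      have h3 : ((∏ n ∈ s, ((1 : Polynomial ℂ) - Polynomial.X ^ (n + 1)) : Polynomial ℂ) :
          PowerSeries ℂ) = ∏ n ∈ s, (((1 : Polynomial ℂ) - Polynomial.X ^ (n + 1) : Polynomial ℂ) :
            PowerSeries ℂ) :=
        map_prod (Polynomial.coeToPowerSeries.ringHom (R := ℂ)) _ _
      rw [h3]
      refine Finset.prod_congr rfl (fun n _ => ?_)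
      simp
    rw [h2, PowerSeries.coeff_map]
    rfl
  exact tendsto_nhds_unique (han'.congr heq) hcast


theorem taylor_id : taylor (fun q : ℂ => q) = PowerSeries.X := by
  have h := taylor_polynomial (Polynomial.X : Polynomial ℂ)
  simpa using h

/-! ### (B1) and (B2): the `q`-expansions of `E₄` and `Δ` -/

/-- (B1) The `q`-expansion of `E₄` is the formal series `ModularCurve.eisenstein4`. -/
theorem qExpansion_E4 :
    qExpansion 1 E₄ = PowerSeries.map (Int.castRingHom ℂ) ModularCurve.eisenstein4 := by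
  ext m
  rw [show (E₄ : ModularForm 𝒮ℒ 4) = E (by norm_num : 3 ≤ 4) from rfl,
    E_qExpansion_coeff (k := 4) (by norm_num) ⟨2, rfl⟩ m, PowerSeries.coeff_map,
    ModularCurve.eisenstein4, PowerSeries.coeff_mk]
  split_ifs with hm
  · simp
  · have hb : bernoulli 4 = -1 / 30 := by decide +kernel
    rw [hb, ArithmeticFunction.sigma_apply]
    push_cast
    norm_num

/-- (B2) The `q`-expansion of `Δ` is `q` times the formal series `ModularCurve.dedekindEtaUnit`. -/
theorem qExpansion_discriminant :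
    qExpansion 1 ModularForm.discriminant =
      PowerSeries.X * PowerSeries.map (Int.castRingHom ℂ) ModularCurve.dedekindEtaUnit := by
  have hball : Metric.ball (0 : ℂ) 1 ∈ 𝓝 (0 : ℂ) := Metric.ball_mem_nhds 0 one_pos
  have hG : AnalyticAt ℂ (fun q : ℂ => ∏' n : ℕ, (1 - q ^ (n + 1))) 0 :=
    ModularForm.differentiableOn_tprod_one_sub_pow.analyticAt hball
  have hid : AnalyticAt ℂ (fun q : ℂ => q) 0 := analyticAt_id
  have h1 : cuspFunction 1 ModularForm.discriminant =ᶠ[𝓝 0]
      (fun q : ℂ => q) * (fun q : ℂ => ∏' n : ℕ, (1 - q ^ (n + 1))) ^ 24 := by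
    filter_upwards [hball] with q hq
    rw [ModularForm.discriminant_cuspFunction_eqOn hq]
    simp only [Pi.mul_apply, Pi.pow_apply]
    rw [(ModularForm.multipliable_one_sub_pow (by simpa using hq)).tprod_pow 24]
  rw [qExpansion_eq_taylor, taylor_congr h1, taylor_mul hid (hG.pow 24), taylor_pow hG,
    taylor_id, taylor_tprod, ModularCurve.dedekindEtaUnit, map_pow]

end Fermat.Agent.S24.Bridge

end
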