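import Mathlib
import Fermat.Prelude.Def_AlgebraicCurve_DivisorClassGroup

set_option autoImplicit false

open AlgebraicCurve IsDedekindDomain

namespace Fermat.Agent.S24.Places

noncomputable section

section OrdBasics

variable {K F : Type*} [Field K] [Field F] [Algebra K F] (v : Place K F)

/-- Membership in the valuation ring in terms of `ord`. -/
theorem mem_iff_ord_nonneg {f : F} (hf : f ≠ 0) : f ∈ v.toValuationSubring ↔ 0 ≤ v.ord f := by
  obtain ⟨ϖ, hϖ⟩ := IsDiscreteValuationRing.exists_irreducible v.toValuationSubring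
  obtain ⟨u, hu⟩ := v.exists_unit_mul_zpow hf hϖ
  have hϖ0 : (ϖ : F) ≠ 0 := by
    simpa [ne_eq, ZeroMemClass.coe_eq_zero] using hϖ.ne_zero
  constructor
  · intro hmem
    by_contra hneg
    rw [not_le] at hneg
    -- `f * ϖ ^ (-ord f) = u`, but the left side is in the maximal ideal
    obtain ⟨n, hn⟩ : ∃ n : ℕ, v.ord f = -((n : ℤ) + 1) := ⟨(-(v.ord f) - 1).toNat, by omega⟩
    have hF : f * (ϖ : F) ^ (n + 1) = ((u : v.toValuationSubring) : F) := by
      have h := hu
      rw [hn] at h
      have hz : (ϖ : F) ^ ((n : ℤ) + 1) = (ϖ : F) ^ (n + 1) := by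
        rw [← zpow_natCast]; push_cast; rfl
      rw [h, mul_assoc, zpow_neg, hz, inv_mul_cancel₀ (pow_ne_zero _ hϖ0), mul_one]
    have h1 : (⟨f, hmem⟩ : v.toValuationSubring) * ϖ ^ (n + 1) = (u : v.toValuationSubring) := by
      apply Subtype.ext
      rw [MulMemClass.coe_mul, SubmonoidClass.coe_pow]
      exact hF
    have h2 : IsUnit ((⟨f, hmem⟩ : v.toValuationSubring) * ϖ ^ (n + 1)) := h1 ▸ u.isUnit
    have h3 : IsUnit (ϖ ^ (n + 1)) := isUnit_of_mul_isUnit_right h2
    exact hϖ.not_isUnit (isUnit_of_mul_isUnit_left (pow_succ' ϖ n ▸ h3))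
  · intro hnn
    obtain ⟨n, hn⟩ : ∃ n : ℕ, v.ord f = (n : ℤ) := ⟨(v.ord f).toNat, by omega⟩
    rw [hu, hn, zpow_natCast]
    exact mul_mem (Subtype.mem _) (pow_mem (Subtype.mem _) n)

theorem mem_of_ord_pos {f : F} (hf : 0 < v.ord f) : f ∈ v.toValuationSubring := by
  have hf0 : f ≠ 0 := by
    rintro rfl
    simp at hf
  exact (mem_iff_ord_nonneg v hf0).mpr hf.le

end OrdBasics

section Generic

variable {K F : Type*} [Field K] [Field F] [Algebra K F]
variable {B : Type*} [CommRing B] [IsDedekindDomain B] [Algebra B F] [IsFractionRing B F]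

theorem isPrincipalIdealRing_valuationSubring (P : HeightOneSpectrum B) :
    IsPrincipalIdealRing ((P.valuation F).valuationSubring) := by
  rw [← HeightOneSpectrum.valuationSubringAtPrime_eq_valuationSubring (K := F) P]
  have : IsDiscreteValuationRing (HeightOneSpectrum.valuationSubringAtPrime F P) :=
    IsLocalization.AtPrime.isDiscreteValuationRing_of_dedekind_domain B P.ne_bot
      (HeightOneSpectrum.valuationSubringAtPrime F P)
  infer_instance

theorem valuationSubring_ne_top (P : HeightOneSpectrum B) :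
    (P.valuation F).valuationSubring ≠ ⊤ := by
  intro h
  obtain ⟨π, hπ⟩ := P.valuation_exists_uniformizer F
  have hmem : π⁻¹ ∈ (P.valuation F).valuationSubring := by rw [h]; trivial
  have h1 : P.valuation F π⁻¹ ≤ 1 := hmem
  rw [map_inv₀, hπ, ← WithZero.exp_neg, neg_neg, ← WithZero.exp_zero, WithZero.exp_le_exp] at h1
  exact absurd h1 (by norm_num)

/-- The place of `F` attached to a nonzero prime of a Dedekind domain `B` with fraction field `F`
containing the constants. -/
def ofPrime (hK : ∀ a : K, ∃ b : B, algebraMap B F b = algebraMap K F a)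
    (P : HeightOneSpectrum B) : Place K F where
  toValuationSubring := (P.valuation F).valuationSubring
  algebraMap_mem' := fun a => by
    obtain ⟨b, hb⟩ := hK a
    rw [← hb]
    exact P.valuation_le_one b
  ne_top' := valuationSubring_ne_top P
  isPrincipalIdealRing' := isPrincipalIdealRing_valuationSubring P

variable (hK : ∀ a : K, ∃ b : B, algebraMap B F b = algebraMap K F a) (P : HeightOneSpectrum B)

@[simp]
theorem ofPrime_toValuationSubring :
    (ofPrime hK P).toValuationSubring = (P.valuation F).valuationSubring := rfl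

theorem mem_ofPrime_iff (f : F) :
    f ∈ (ofPrime hK P).toValuationSubring ↔ P.valuation F f ≤ 1 := Iff.rfl

/-- A unit of the valuation ring has valuation one. -/
theorem valuation_unit (u : ((ofPrime hK P).toValuationSubring)ˣ) :
    P.valuation F ((u : (ofPrime hK P).toValuationSubring) : F) = 1 := by
  have h1 : P.valuation F ((u : (ofPrime hK P).toValuationSubring) : F) ≤ 1 :=
    (u : (ofPrime hK P).toValuationSubring).2
  have h2 : P.valuation F (((u⁻¹ : ((ofPrime hK P).toValuationSubring)ˣ) :
      (ofPrime hK P).toValuationSubring) : F) ≤ 1 :=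
    ((u⁻¹ : ((ofPrime hK P).toValuationSubring)ˣ) : (ofPrime hK P).toValuationSubring).2
  have h3 : ((u : (ofPrime hK P).toValuationSubring) : F) *
      (((u⁻¹ : ((ofPrime hK P).toValuationSubring)ˣ) : (ofPrime hK P).toValuationSubring) : F)
        = 1 := by
    have := congrArg (Subtype.val) (Units.mul_inv u)
    rw [MulMemClass.coe_mul, OneMemClass.coe_one] at this
    exact this
  have h4 := congrArg (P.valuation F) h3
  rw [map_mul, map_one] at h4
  refine le_antisymm h1 ?_
  by_contra hlt
  rw [not_le] at hlt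
  have : P.valuation F ((u : (ofPrime hK P).toValuationSubring) : F) *
      P.valuation F (((u⁻¹ : ((ofPrime hK P).toValuationSubring)ˣ) :
        (ofPrime hK P).toValuationSubring) : F) < 1 := by
    calc _ ≤ P.valuation F ((u : (ofPrime hK P).toValuationSubring) : F) * 1 :=
          mul_le_mul_right h2 _
      _ < 1 := by rw [mul_one]; exact hlt
  exact absurd h4 (ne_of_lt this)

/-- An irreducible element of the valuation ring has valuation `exp (-1)`. -/
theorem valuation_irreducible {ϖ : (ofPrime hK P).toValuationSubring} (hϖ : Irreducible ϖ) :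
    P.valuation F (ϖ : F) = WithZero.exp (-1 : ℤ) := by
  obtain ⟨π, hπ⟩ := P.valuation_exists_uniformizer F
  have hπ0 : π ≠ 0 := by
    rintro rfl
    rw [map_zero] at hπ
    exact WithZero.exp_ne_zero.symm hπ |>.elim
  have hπmem : π ∈ (ofPrime hK P).toValuationSubring := by
    rw [mem_ofPrime_iff, hπ, ← WithZero.exp_zero, WithZero.exp_le_exp]; norm_num
  have hϖ0 : (ϖ : F) ≠ 0 := by
    simpa [ne_eq, ZeroMemClass.coe_eq_zero] using hϖ.ne_zero
  -- `ϖ` is not a unit, so its valuation is `< 1`, i.e. `≤ exp (-1)`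
  have hlt : P.valuation F (ϖ : F) < 1 := by
    refine lt_of_le_of_ne ϖ.2 ?_
    intro h1
    apply hϖ.not_isUnit
    have hinv : (ϖ : F)⁻¹ ∈ (ofPrime hK P).toValuationSubring := by
      rw [mem_ofPrime_iff, map_inv₀, h1, inv_one]
    refine IsUnit.of_mul_eq_one ⟨(ϖ : F)⁻¹, hinv⟩ (Subtype.ext ?_)
    rw [MulMemClass.coe_mul, OneMemClass.coe_one]
    exact mul_inv_cancel₀ hϖ0
  have hle : P.valuation F (ϖ : F) ≤ WithZero.exp (-1 : ℤ) := by
    have hne : P.valuation F (ϖ : F) ≠ 0 := (Valuation.ne_zero_iff _).mpr hϖ0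
    rw [← WithZero.exp_log hne, ← WithZero.exp_zero, WithZero.exp_lt_exp] at hlt
    rw [← WithZero.exp_log hne, WithZero.exp_le_exp]
    omega
  -- `ϖ = π * (ϖ / π)` with `ϖ / π` integral
  have hq : (ϖ : F) / π ∈ (ofPrime hK P).toValuationSubring := by
    rw [mem_ofPrime_iff, map_div₀, hπ]
    exact div_le_one_of_le₀ hle zero_le
  have hfac : ϖ = ⟨π, hπmem⟩ * ⟨(ϖ : F) / π, hq⟩ := by
    apply Subtype.ext
    rw [MulMemClass.coe_mul]
    field_simp
  have hπnu : ¬ IsUnit (⟨π, hπmem⟩ : (ofPrime hK P).toValuationSubring) := by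
    intro hu
    have := valuation_unit hK P hu.unit
    rw [IsUnit.unit_spec] at this
    simp only at this
    rw [hπ, ← WithZero.exp_zero, WithZero.exp_inj] at this
    omega
  rcases hϖ.isUnit_or_isUnit hfac with h | h
  · exact absurd h hπnu
  · have h1 := valuation_unit hK P h.unit
    rw [IsUnit.unit_spec] at h1
    simp only at h1
    rw [map_div₀, hπ] at h1
    have hne : WithZero.exp (-1 : ℤ) ≠ 0 := WithZero.exp_ne_zero
    field_simp at h1
    exact h1

/-- The order function of `ofPrime hK P` is the `P`-adic valuation. -/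
theorem ord_ofPrime (f : F) :
    (ofPrime hK P).ord f = - WithZero.log (P.valuation F f) := by
  rcases eq_or_ne f 0 with rfl | hf
  · simp
  obtain ⟨ϖ, hϖ⟩ := IsDiscreteValuationRing.exists_irreducible (ofPrime hK P).toValuationSubring
  obtain ⟨u, hu⟩ := (ofPrime hK P).exists_unit_mul_zpow hf hϖ
  conv_rhs => rw [hu]
  rw [map_mul, map_zpow₀, valuation_unit hK P u, valuation_irreducible hK P hϖ, one_mul,
    WithZero.log_zpow, WithZero.log_exp]
  simp


theorem ord_algebraMap_eq_multiplicity {b : B} (hb : b ≠ 0) :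
    (ofPrime hK P).ord (algebraMap B F b) = (multiplicity P.asIdeal (Ideal.span {b}) : ℤ) := by
  rw [ord_ofPrime, HeightOneSpectrum.valuation_of_algebraMap,
    HeightOneSpectrum.intValuation_eq_exp_neg_multiplicity P hb, WithZero.log_exp, neg_neg]

theorem ord_pos_iff_mem {b : B} (hb : b ≠ 0) :
    0 < (ofPrime hK P).ord (algebraMap B F b) ↔ b ∈ P.asIdeal := by
  rw [ord_ofPrime, ← HeightOneSpectrum.valuation_lt_one_iff_mem (K := F)]
  have hne : P.valuation F (algebraMap B F b) ≠ 0 :=
    (Valuation.ne_zero_iff _).mpr (by simpa using hb)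
  constructor
  · intro h
    rw [← WithZero.exp_log hne, ← WithZero.exp_zero, WithZero.exp_lt_exp]
    omega
  · intro h
    rw [← WithZero.exp_log hne, ← WithZero.exp_zero, WithZero.exp_lt_exp] at h
    omega

theorem ofPrime_injective : Function.Injective (ofPrime (K := K) (F := F) (B := B) hK) := by
  intro P Q h
  apply HeightOneSpectrum.ext
  ext b
  rcases eq_or_ne b 0 with rfl | hb
  · simp
  · rw [← ord_pos_iff_mem hK P hb, ← ord_pos_iff_mem hK Q hb, h]

/-- Every place whose valuation ring contains `B` comes from a unique prime of `B`. -/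
theorem exists_eq_ofPrime (v : Place K F)
    (hB : ∀ b : B, algebraMap B F b ∈ v.toValuationSubring) :
    ∃ P : HeightOneSpectrum B, v = ofPrime hK P := by
  let φ : B →+* v.toValuationSubring :=
    (algebraMap B F).codRestrict v.toValuationSubring.toSubring hB
  have hφ : ∀ b, ((φ b : v.toValuationSubring) : F) = algebraMap B F b := fun b => rfl
  let I : Ideal B := (IsLocalRing.maximalIdeal v.toValuationSubring).comap φ
  have hIprime : I.IsPrime := Ideal.comap_isPrime φ _
  -- elements outside `I` are invertible in the valuation ring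
  have hunit : ∀ b : B, b ∉ I → (algebraMap B F b)⁻¹ ∈ v.toValuationSubring := by
    intro b hb
    have hu : IsUnit (φ b) := by
      by_contra hnu
      exact hb ((IsLocalRing.mem_maximalIdeal _).mpr hnu)
    obtain ⟨u, hu'⟩ := hu
    have h1 : ((u⁻¹ : (v.toValuationSubring)ˣ) : v.toValuationSubring) * φ b = 1 := by
      rw [← hu']; exact Units.inv_mul u
    have h2 := congrArg Subtype.val h1
    rw [MulMemClass.coe_mul, OneMemClass.coe_one, hφ] at h2
    have h3 : (algebraMap B F b)⁻¹ =
        (((u⁻¹ : (v.toValuationSubring)ˣ) : v.toValuationSubring) : F) :=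
      (eq_inv_of_mul_eq_one_left h2).symm
    rw [h3]
    exact Subtype.mem _
  have hIne : I ≠ ⊥ := by
    intro hI
    apply v.ne_top'
    refine SetLike.ext fun f => ⟨fun _ => ValuationSubring.mem_top f, fun _ => ?_⟩
    obtain ⟨a, s, hs, rfl⟩ := IsFractionRing.div_surjective (A := B) f
    have hs0 : s ≠ 0 := nonZeroDivisors.ne_zero hs
    have hsI : s ∉ I := by rw [hI]; simpa using hs0
    rw [div_eq_mul_inv]
    exact mul_mem (hB a) (hunit s hsI)
  let P : HeightOneSpectrum B := ⟨I, hIprime, hIne⟩
  refine ⟨P, ?_⟩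
  apply Place.ext
  rw [ofPrime_toValuationSubring]
  have hle : (P.valuation F).valuationSubring ≤ v.toValuationSubring := by
    intro f hf
    obtain ⟨n, d, hnd⟩ := P.exists_primeCompl_mul_eq_of_integer f hf
    have hd : (d : B) ∉ I := d.2
    have hd0 : algebraMap B F (d : B) ≠ 0 := by
      intro h0
      apply hd
      have : (d : B) = 0 := by
        simpa using h0
      rw [this]; exact I.zero_mem
    have hf' : f = algebraMap B F n * (algebraMap B F (d : B))⁻¹ := by
      rw [← hnd]; field_simp
    rw [hf']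
    exact mul_mem (hB n) (hunit _ hd)
  have : IsPrincipalIdealRing ((P.valuation F).valuationSubring) :=
    isPrincipalIdealRing_valuationSubring P
  exact (ValuationSubring.eq_of_le_of_ne_top _ hle v.ne_top').symm

end Generic

section AbstractSum

variable {K F : Type*} [Field K] [Field F] [Algebra K F] [IsAlgClosed K]
variable {A B : Type*} [CommRing A] [IsDomain A] [CommRing B] [IsDedekindDomain B]
  [Algebra K A] [Algebra A B] [Algebra B F] [IsFractionRing B F]
  [Module.Finite A B] [Module.Flat A B] [FaithfulSMul A B]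

/-- Inertia degree one: the residue fields are `K`. -/
theorem inertiaDeg_eq_one (t : A) [hmax : (Ideal.span {t}).IsMaximal]
    (hconst : ∀ a : A, ∃ c : K, a - algebraMap K A c ∈ Ideal.span {t})
    (q : Ideal B) [q.IsPrime] [hl : q.LiesOver (Ideal.span {t})] :
    q.inertiaDeg A = 1 := by
  have hqmax : q.IsMaximal := Ideal.IsMaximal.of_liesOver_isMaximal q (Ideal.span {t})
  rw [Ideal.inertiaDeg_eq_of_isMaximal (Ideal.span {t}) q]
  letI : Field (A ⧸ Ideal.span {t}) := Ideal.Quotient.field _
  letI : Field (B ⧸ q) := Ideal.Quotient.field _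
  let f₁ : K →+* A ⧸ Ideal.span {t} := (Ideal.Quotient.mk _).comp (algebraMap K A)
  have hf₁ : Function.Surjective f₁ := by
    intro y
    obtain ⟨a, rfl⟩ := Ideal.Quotient.mk_surjective y
    obtain ⟨c, hc⟩ := hconst a
    refine ⟨c, ?_⟩
    show Ideal.Quotient.mk _ (algebraMap K A c) = Ideal.Quotient.mk _ a
    rw [eq_comm, Ideal.Quotient.eq]
    exact hc
  let f₂ : A ⧸ Ideal.span {t} →+* B ⧸ q := algebraMap _ _
  have hf₂ : f₂.IsIntegral := by
    have : Algebra.IsIntegral (A ⧸ Ideal.span {t}) (B ⧸ q) := inferInstance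
    exact fun y => Algebra.IsIntegral.isIntegral y
  have hcomp : (f₂.comp f₁).IsIntegral :=
    RingHom.IsIntegral.trans _ _ (RingHom.isIntegral_of_surjective _ hf₁) hf₂
  have hbij := IsAlgClosed.ringHom_bijective_of_isIntegral (f₂.comp f₁) hcomp
  have hsurj : Function.Surjective f₂ := fun y => by
    obtain ⟨c, hc⟩ := hbij.2 y
    exact ⟨f₁ c, hc⟩
  rw [finrank_eq_one_iff_of_nonzero' (1 : B ⧸ q) one_ne_zero]
  intro w
  obtain ⟨c, hc⟩ := hsurj w
  exact ⟨c, by rw [Algebra.smul_def, mul_one]; exact hc⟩


/-- Abstract sum formula: the places with `0 < ord t` correspond to the primes of `B` over `(t)`,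
and their orders add up to the rank of `B` over `A`. -/
theorem sum_ord_zeros_abstract (t : A) [hmax : (Ideal.span {t}).IsMaximal] (ht0 : t ≠ 0)
    (hconst : ∀ a : A, ∃ c : K, a - algebraMap K A c ∈ Ideal.span {t})
    (hK : ∀ a : K, ∃ b : B, algebraMap B F b = algebraMap K F a)
    (hle : ∀ v : Place K F, algebraMap B F (algebraMap A B t) ∈ v.toValuationSubring →
      ∀ b : B, algebraMap B F b ∈ v.toValuationSubring)
    [Fintype ((Ideal.span {t}).primesOver B)] :
    {v : Place K F | 0 < v.ord (algebraMap B F (algebraMap A B t))}.Finite ∧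
      ∑ᶠ v ∈ {v : Place K F | 0 < v.ord (algebraMap B F (algebraMap A B t))},
        v.ord (algebraMap B F (algebraMap A B t)) = (Module.finrank A B : ℤ) := by
  classical
  set p : Ideal A := Ideal.span {t} with hp
  set tB : B := algebraMap A B t with htB
  have hp0 : p ≠ ⊥ := by
    rw [hp, Ne, Ideal.span_singleton_eq_bot]; exact ht0
  have hmap : p.map (algebraMap A B) = Ideal.span {tB} := by
    rw [hp, Ideal.map_span, Set.image_singleton]
  have htB0 : tB ≠ 0 := by
    rw [htB, Ne, FaithfulSMul.algebraMap_eq_zero_iff]; exact ht0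
  have hmap0 : p.map (algebraMap A B) ≠ ⊥ := by
    rw [hmap, Ne, Ideal.span_singleton_eq_bot]; exact htB0
  let toP : p.primesOver B → HeightOneSpectrum B :=
    fun q => ⟨q.1, q.2.1, Ideal.ne_bot_of_mem_primesOver hp0 q.2⟩
  let g : p.primesOver B → Place K F := fun q => ofPrime hK (toP q)
  have hg_inj : Function.Injective g := fun q q' h =>
    Subtype.ext (congrArg HeightOneSpectrum.asIdeal (ofPrime_injective hK h))
  have hg_ord : ∀ q, (g q).ord (algebraMap B F tB) = (q.1.ramificationIdx A : ℤ) := by
    intro q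
    have h1 := ord_algebraMap_eq_multiplicity hK (toP q) htB0
    have h2 := Ideal.IsDedekindDomain.ramificationIdx_eq_multiplicity p q.1 hmap0
    rw [hmap] at h2
    rw [h2]
    exact h1
  have hrange : Set.range g = {v : Place K F | 0 < v.ord (algebraMap B F tB)} := by
    ext v
    constructor
    · rintro ⟨q, rfl⟩
      show 0 < (g q).ord (algebraMap B F tB)
      rw [hg_ord]
      exact_mod_cast Ideal.ramificationIdx_pos q.1 A
    · intro hv
      have hv' : 0 < v.ord (algebraMap B F tB) := hv
      have hmem : algebraMap B F tB ∈ v.toValuationSubring := mem_of_ord_pos v hv'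
      obtain ⟨P, rfl⟩ := exists_eq_ofPrime hK v (hle v hmem)
      have hxP : tB ∈ P.asIdeal := (ord_pos_iff_mem hK P htB0).mp hv'
      have hlies : P.asIdeal.LiesOver p := by
        constructor
        have hle' : p ≤ P.asIdeal.under A := by
          rw [hp, Ideal.span_singleton_le_iff_mem]
          exact hxP
        exact hmax.eq_of_le (Ideal.IsPrime.under _ _).ne_top hle'
      exact ⟨⟨P.asIdeal, P.isPrime, hlies⟩, rfl⟩
  have hf1 : ∀ q : p.primesOver B, q.1.inertiaDeg A = 1 :=
    fun q => inertiaDeg_eq_one t hconst q.1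
  have hsum := Ideal.sum_ramification_inertia_eq_finrank p B
  refine ⟨hrange ▸ Set.finite_range g, ?_⟩
  rw [← hrange, finsum_mem_range hg_inj, finsum_eq_sum_of_fintype]
  simp_rw [hg_ord]
  rw [← Nat.cast_sum]
  congr 1
  rw [← hsum]
  exact Finset.sum_congr rfl (fun q _ => by rw [hf1 q, mul_one])

end AbstractSum

end

end Fermat.Agent.S24.Places
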