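import Mathlib
import Fermat.Agent.S24.Places

set_option autoImplicit false

open AlgebraicCurve IsDedekindDomain IntermediateField
open scoped IntermediateField.algebraAdjoinAdjoin

namespace Fermat.Agent.S24.Places

noncomputable section



section Specific

variable {K F : Type*} [Field K] [Field F] [Algebra K F]
variable (x : F)

/-- The polynomial ring `K[x]` inside `F`. -/
abbrev polyRing : Subalgebra K F := Algebra.adjoin K {x}

/-- The integral closure of `K[x]` in `F`. -/
abbrev intRing : Subalgebra (polyRing (K := K) x) F := integralClosure (polyRing (K := K) x) F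

instance instPIRPolyRing : IsPrincipalIdealRing (polyRing (K := K) x) := by
  have h : (polyRing (K := K) x) = (Polynomial.aeval x : Polynomial K →ₐ[K] F).range :=
    Algebra.adjoin_singleton_eq_range_aeval K x
  have hs : Function.Surjective
      ((Polynomial.aeval x : Polynomial K →ₐ[K] F).rangeRestrict) :=
    AlgHom.rangeRestrict_surjective _
  have : IsPrincipalIdealRing (Polynomial.aeval x : Polynomial K →ₐ[K] F).range :=
    IsPrincipalIdealRing.of_surjective _ hs
  exact h ▸ this

/-- The generator `x` as an element of `K[x]`. -/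
def gen : polyRing (K := K) x := ⟨x, Algebra.self_mem_adjoin_singleton K x⟩

@[simp] theorem coe_gen : ((gen (K := K) x : polyRing (K := K) x) : F) = x := rfl

/-- Every element of `K[x]` is a constant modulo `x`. -/
theorem exists_const_sub_mem (a : polyRing (K := K) x) :
    ∃ c : K, a - algebraMap K (polyRing (K := K) x) c ∈ Ideal.span {gen (K := K) x} := by
  obtain ⟨a, ha⟩ := a
  have ha' : a ∈ (Polynomial.aeval x : Polynomial K →ₐ[K] F).range := by
    rw [← Algebra.adjoin_singleton_eq_range_aeval K x]; exact ha
  obtain ⟨f, rfl⟩ := ha'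
  have key : Polynomial.aeval x f - algebraMap K F (f.coeff 0) = Polynomial.aeval x f.divX * x := by
    conv_lhs => rw [← Polynomial.divX_mul_X_add f]
    simp
  have hmem : Polynomial.aeval x f.divX ∈ polyRing (K := K) x := by
    show _ ∈ Algebra.adjoin K {x}
    rw [Algebra.adjoin_singleton_eq_range_aeval K x]; exact ⟨_, rfl⟩
  refine ⟨f.coeff 0, ?_⟩
  rw [Ideal.mem_span_singleton']
  refine ⟨⟨Polynomial.aeval x f.divX, hmem⟩, ?_⟩
  apply Subtype.ext
  exact key.symm


theorem gen_not_isUnit (hx : Transcendental K x) : ¬ IsUnit (gen (K := K) x) := by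
  intro hu
  obtain ⟨g, hg⟩ := hu.exists_right_inv
  obtain ⟨g, hgmem⟩ := g
  have hg' : g ∈ (Polynomial.aeval x : Polynomial K →ₐ[K] F).range := by
    rw [← Algebra.adjoin_singleton_eq_range_aeval K x]; exact hgmem
  obtain ⟨q, rfl⟩ := hg'
  have h1 : x * Polynomial.aeval x q = 1 := by
    have := congrArg Subtype.val hg
    exact this
  have h2 : Polynomial.aeval x (Polynomial.X * q - 1) = 0 := by
    simp [h1]
  have h3 := (transcendental_iff.mp hx) _ h2
  have h4 := congrArg (fun r => Polynomial.coeff r 0) h3
  simp at h4

theorem gen_ne_zero (hx : Transcendental K x) : gen (K := K) x ≠ 0 := by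
  intro h
  apply hx
  have hx0 : x = 0 := congrArg Subtype.val h
  rw [hx0]
  exact isAlgebraic_zero

theorem span_gen_isMaximal (hx : Transcendental K x) :
    (Ideal.span {gen (K := K) x}).IsMaximal := by
  rw [Ideal.isMaximal_iff]
  refine ⟨?_, ?_⟩
  · intro h1
    rw [Ideal.mem_span_singleton'] at h1
    obtain ⟨g, hg⟩ := h1
    exact gen_not_isUnit x hx (IsUnit.of_mul_eq_one g (by rw [mul_comm]; exact hg))
  · intro J a hJ ha haJ
    obtain ⟨c, hc⟩ := exists_const_sub_mem (K := K) x a
    have hc0 : c ≠ 0 := by
      rintro rfl
      apply ha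
      simpa using hc
    have hcJ : algebraMap K (polyRing (K := K) x) c ∈ J := by
      have := J.sub_mem haJ (hJ hc)
      simpa using this
    have := J.mul_mem_left (algebraMap K (polyRing (K := K) x) c⁻¹) hcJ
    rwa [← map_mul, inv_mul_cancel₀ hc0, map_one] at this

theorem hK : ∀ a : K, ∃ b : intRing (K := K) x,
    algebraMap (intRing (K := K) x) F b = algebraMap K F a :=
  fun a => ⟨algebraMap (polyRing (K := K) x) (intRing (K := K) x)
    (algebraMap K (polyRing (K := K) x) a), rfl⟩

/-- The valuation ring of a place containing `x` contains the integral closure of `K[x]`. -/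
theorem intRing_le (v : Place K F) (hxv : x ∈ v.toValuationSubring) (b : intRing (K := K) x) :
    algebraMap (intRing (K := K) x) F b ∈ v.toValuationSubring := by
  let Ov : Subalgebra K F :=
    { v.toValuationSubring.toSubring with algebraMap_mem' := v.algebraMap_mem' }
  have hle : polyRing (K := K) x ≤ Ov :=
    Algebra.adjoin_le (Set.singleton_subset_iff.mpr hxv)
  let ψ : polyRing (K := K) x →+* v.toValuationSubring :=
    (algebraMap (polyRing (K := K) x) F).codRestrict v.toValuationSubring.toSubring
      (fun a => hle a.2)
  have hψ : (algebraMap v.toValuationSubring F).comp ψ = algebraMap (polyRing (K := K) x) F :=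
    rfl
  obtain ⟨f, hmonic, hf⟩ := b.2
  have hint : IsIntegral v.toValuationSubring ((b : F)) := by
    refine ⟨f.map ψ, hmonic.map ψ, ?_⟩
    rw [Polynomial.eval₂_map, hψ]
    exact hf
  obtain ⟨y, hy⟩ := IsIntegrallyClosed.isIntegral_iff.mp hint
  show (b : F) ∈ v.toValuationSubring
  rw [← hy]
  exact y.2


section Sum

variable [CharZero K] [FiniteDimensional K⟮x⟯ F]

theorem isDedekindDomain_intRing : IsDedekindDomain (intRing (K := K) x) :=
  integralClosure.isDedekindDomain (polyRing (K := K) x) K⟮x⟯ F

omit [CharZero K] in
theorem isFractionRing_intRing : IsFractionRing (intRing (K := K) x) F :=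
  integralClosure.isFractionRing_of_finite_extension K⟮x⟯ F

theorem finite_intRing : Module.Finite (polyRing (K := K) x) (intRing (K := K) x) :=
  IsIntegralClosure.finite (polyRing (K := K) x) K⟮x⟯ F (intRing (K := K) x)

attribute [local instance] isDedekindDomain_intRing isFractionRing_intRing finite_intRing

/-- A place whose valuation ring contains `x` comes from a prime of the integral closure of
`K[x]`. -/
theorem exists_prime_of_mem (v : Place K F) (hxv : x ∈ v.toValuationSubring) :
    ∃ P : HeightOneSpectrum (intRing (K := K) x), v = ofPrime (hK x) P :=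
  exists_eq_ofPrime (hK x) v (intRing_le x v hxv)

set_option synthInstance.maxHeartbeats 400000 in
set_option maxHeartbeats 1600000 in
/-- **Sum formula for zeros**: the places where `x` vanishes are finite in number and the orders of
vanishing add up to `[F : K(x)]`. -/
theorem sum_ord_zeros [IsAlgClosed K] (hx : Transcendental K x) :
    {v : Place K F | 0 < v.ord x}.Finite ∧
      ∑ᶠ v ∈ {v : Place K F | 0 < v.ord x}, v.ord x = (Module.finrank K⟮x⟯ F : ℤ) := by
  have hmax : (Ideal.span {gen (K := K) x}).IsMaximal := span_gen_isMaximal x hx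
  have h := sum_ord_zeros_abstract (K := K) (F := F) (A := polyRing (K := K) x)
    (B := intRing (K := K) x) (gen (K := K) x) (gen_ne_zero x hx) (exists_const_sub_mem x)
    (hK x) (fun v hv b => intRing_le x v hv b)
  rw [IsFractionRing.finrank_eq (polyRing (K := K) x) K⟮x⟯ (intRing (K := K) x) F]
  exact h

end Sum

end Specific

end

end Fermat.Agent.S24.Places
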