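/-
S24 (genus of X₀(N)): shared definitions for the team project.
Everything here is definitional glue; no proofs of substance.
-/
import Mathlib
import Fermat.Prelude.Def_ModularCurve_ArithmeticGalois
import Fermat.Prelude.Def_ModularCurve_GenusNumerics
import Fermat.Prelude.Def_AlgebraicCurve_CanonicalDivisor

set_option autoImplicit false

noncomputable section

open scoped MatrixGroups

namespace Fermat.Agent.S24

/-- Number of cycles (= orbits of the cyclic group generated by `σ`), fixed points included. -/
def cyc {I : Type*} (σ : Equiv.Perm I) : ℕ :=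
  Nat.card (MulAction.orbitRel.Quotient (Subgroup.zpowers σ) I)

/-- Local uniformisation datum for a function field `F/K` at the zero set of `y ∈ F`:
`#I` pairwise distinct embeddings of `F` into `L((u))`, all sending `y` to the same series of
order `m`, permuted by the substitution `u ↦ ζ u` (`ζ` a primitive `m`-th root of unity)
according to the permutation `σ`. -/
structure LocalDatum {K F : Type*} [Field K] [Field F] [Algebra K F] {L : Type*} [Field L]
    (ι : K →+* L) (y : F) {I : Type*} (σ : Equiv.Perm I) (m : ℕ) where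
  /-- the embeddings -/
  τ : I → F →+* LaurentSeries L
  τ_algebraMap : ∀ (i : I) (c : K), τ i (algebraMap K F c) = HahnSeries.C (ι c)
  τ_injective : Function.Injective τ
  τ_y : ∀ i j : I, τ i y = τ j y
  m_pos : 0 < m
  order_y : ∀ i : I, (τ i y).order = (m : ℤ)
  /-- the root of unity -/
  ζ : L
  ζ_prim : IsPrimitiveRoot ζ m
  rot : ∀ (i : I) (f : F) (k : ℤ), (τ (σ i) f).coeff k = ζ ^ k * (τ i f).coeff k

/-- Valued-field form of a local uniformisation datum (helper13's `ValDatum`): `#I` pairwise
distinct embeddings `τ i` of `F` into a field `Ω` carrying a `ℤ`-valued valuation `w`, agreeing on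
`K` and on `y`, with `w (τ i y) = exp (-m)`, permuted by `σ` compatibly with `w`, and such that the
`w`-orders of `τ i f` are divisible by `m / gcd m d` whenever `σ ^ d` fixes `i`. -/
structure ValDatum (K : Type*) {F : Type*} [Field K] [Field F] [Algebra K F] {I : Type*}
    {Ω : Type*} [Field Ω] (w : Valuation Ω (WithZero (Multiplicative ℤ))) (y : F)
    (σ : Equiv.Perm I) (m : ℕ) where
  /-- the embeddings -/
  τ : I → F →+* Ω
  τ_injective : Function.Injective τ
  τ_const : ∀ (i j : I) (c : K), τ i (algebraMap K F c) = τ j (algebraMap K F c)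
  w_const : ∀ (i : I) (c : K), c ≠ 0 → w (τ i (algebraMap K F c)) = 1
  τ_y : ∀ i j : I, τ i y = τ j y
  m_pos : 0 < m
  w_y : ∀ i : I, w (τ i y) = WithZero.exp (-(m : ℤ))
  w_σ : ∀ (i : I) (f : F), w (τ (σ i) f) = w (τ i f)
  dvd : ∀ (i : I) (d : ℕ), (σ ^ d) i = i → ∀ f : F, f ≠ 0 →
    ((m / Nat.gcd m d : ℕ) : ℤ) ∣ WithZero.log (w (τ i f))
  σ_pow : σ ^ m = 1

/-- The permutation of `SL(2, ℤ) ⧸ Γ₀(N)` given by left multiplication by `g`. -/
def cosetPerm (N : ℕ) (g : SL(2, ℤ)) :
    Equiv.Perm (SL(2, ℤ) ⧸ CongruenceSubgroup.Gamma0 N) :=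
  MulAction.toPerm g

end Fermat.Agent.S24

end
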