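import Mathlib
import Fermat.Agent.S24.PlacesInt

set_option autoImplicit false

open AlgebraicCurve IsDedekindDomain IntermediateField
open scoped IntermediateField.algebraAdjoinAdjoin

namespace Fermat.Agent.S24.Places

noncomputable section

section Exchange

variable {K F : Type*} [Field K] [Field F] [Algebra K F]

/-- `F` is algebraic over `K[x]` when it is finite over `K(x)`. -/
theorem isAlgebraic_adjoin_of_finite (x : F) [FiniteDimensional K⟮x⟯ F] :
    Algebra.IsAlgebraic (Algebra.adjoin K ({x} : Set F)) F := by
  have h1 : Algebra.IsAlgebraic K⟮x⟯ F := Algebra.IsAlgebraic.of_finite K⟮x⟯ F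
  exact Algebra.IsAlgebraic.trans (Algebra.adjoin K ({x} : Set F)) K⟮x⟯ F

theorem trdeg_le_one (x : F) [FiniteDimensional K⟮x⟯ F] : Algebra.trdeg K F ≤ 1 := by
  have := isAlgebraic_adjoin_of_finite (K := K) x
  have h := Algebra.IsAlgebraic.trdeg_le_cardinalMk K ({x} : Set F)
  simpa using h

theorem isAlgebraic_of_transcendental (x : F) [FiniteDimensional K⟮x⟯ F] {u : F}
    (hu : Transcendental K u) : Algebra.IsAlgebraic K⟮u⟯ F := by
  have hind : AlgebraicIndependent K (fun _ : Unit => u) := by
    rw [algebraicIndependent_unique_type_iff]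
    exact hu
  have hb := hind.isTranscendenceBasis_of_lift_trdeg_le_of_finite
    (by simpa using trdeg_le_one (K := K) x)
  have := hb.isAlgebraic_field
  rwa [Set.range_const] at this

theorem finiteDimensional_of_transcendental (x : F) [FiniteDimensional K⟮x⟯ F] {u : F}
    (hu : Transcendental K u) : FiniteDimensional K⟮u⟯ F := by
  have halg : Algebra.IsAlgebraic K⟮u⟯ F := isAlgebraic_of_transcendental x hu
  have h1 : Algebra.EssFiniteType K K⟮x⟯ := by
    rw [IntermediateField.essFiniteType_iff]
    exact ⟨{x}, by simp⟩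
  have h2 : Algebra.EssFiniteType K F := Algebra.EssFiniteType.comp K K⟮x⟯ F
  have h3 : Algebra.EssFiniteType K⟮u⟯ F := Algebra.EssFiniteType.of_comp K K⟮u⟯ F
  obtain ⟨s, hs⟩ := IntermediateField.fg_top K⟮u⟯ F
  have h4 : FiniteDimensional K⟮u⟯ (IntermediateField.adjoin K⟮u⟯ (s : Set F)) :=
    IntermediateField.finiteDimensional_adjoin (fun y _ => (halg.isAlgebraic y).isIntegral)
  rw [hs] at h4
  exact Module.Finite.equiv (IntermediateField.topEquiv (F := K⟮u⟯) (E := F)).toLinearEquiv

end Exchange

section Residue

variable {K F : Type*} [Field K] [Field F] [Algebra K F]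

/-- An algebraic element of an extension of an algebraically closed field is a constant. -/
theorem exists_algebraMap_eq_of_isAlgebraic [IsAlgClosed K] {L : Type*} [Field L] [Algebra K L]
    {y : L} (hy : IsAlgebraic K y) : ∃ c : K, algebraMap K L c = y := by
  have hint : IsIntegral K y := hy.isIntegral
  refine ⟨-(minpoly K y).coeff 0, ?_⟩
  have hq : (minpoly K y).leadingCoeff = 1 := minpoly.monic hint
  have h : (minpoly K y).degree = 1 :=
    IsAlgClosed.degree_eq_one_of_irreducible K (minpoly.irreducible hint)
  have : Polynomial.aeval y (minpoly K y) = 0 := minpoly.aeval K y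
  rw [Polynomial.eq_X_add_C_of_degree_eq_one h, hq, Polynomial.C_1, one_mul, Polynomial.aeval_add,
    Polynomial.aeval_X, Polynomial.aeval_C, add_eq_zero_iff_eq_neg] at this
  exact (map_neg (algebraMap K L) ((minpoly K y).coeff 0)).symm ▸ this.symm

/-- Positivity of `ord` is membership in the maximal ideal. -/
theorem ord_pos_iff_mem_maximalIdeal (v : Place K F) {a : v.toValuationSubring} (ha : a ≠ 0) :
    0 < v.ord (a : F) ↔ a ∈ IsLocalRing.maximalIdeal v.toValuationSubring := by
  have hne : v.adicValuation (a : F) ≠ 0 :=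
    v.adicValuation_ne_zero (by simpa using ha)
  rw [← v.heightOneSpectrum_asIdeal, ← HeightOneSpectrum.intValuation_lt_one_iff_mem,
    ← v.adicValuation_coe, Place.ord]
  constructor
  · intro h
    rw [← WithZero.exp_log hne, ← WithZero.exp_zero, WithZero.exp_lt_exp]
    omega
  · intro h
    rw [← WithZero.exp_log hne, ← WithZero.exp_zero, WithZero.exp_lt_exp] at h
    omega

/-- If the valuation ring of a place contains an intermediate field `E`, it contains every element
integral over `E`. -/
theorem mem_of_isIntegral_of_le (v : Place K F) (E : IntermediateField K F)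
    (hE : ∀ y ∈ E, y ∈ v.toValuationSubring) {g : F} (hg : IsIntegral E g) :
    g ∈ v.toValuationSubring := by
  let ψ : E →+* v.toValuationSubring :=
    (algebraMap E F).codRestrict v.toValuationSubring.toSubring (fun a => hE a a.2)
  have hψ : (algebraMap v.toValuationSubring F).comp ψ = algebraMap E F := rfl
  obtain ⟨p, hmonic, hp⟩ := hg
  have hint : IsIntegral v.toValuationSubring g := by
    refine ⟨p.map ψ, hmonic.map ψ, ?_⟩
    rw [Polynomial.eval₂_map, hψ]
    exact hp
  obtain ⟨y, hy⟩ := IsIntegrallyClosed.isIntegral_iff.mp hint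
  rw [← hy]
  exact y.2

variable [IsAlgClosed K]

/-- The residue field of every place is `K`. -/
theorem algebraMap_residueField_surjective (x : F) [FiniteDimensional K⟮x⟯ F] (v : Place K F) :
    Function.Surjective (algebraMap K v.ResidueField) := by
  intro w
  obtain ⟨⟨f, hf⟩, rfl⟩ := IsLocalRing.residue_surjective w
  set u : v.ResidueField := IsLocalRing.residue _ ⟨f, hf⟩ with hu
  by_cases halg : IsAlgebraic K u
  · exact exists_algebraMap_eq_of_isAlgebraic halg
  · exfalso
    have htr : Transcendental K u := halg
    -- `aeval f p` is a unit of the valuation ring for `p ≠ 0`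
    have haeval : ∀ p : Polynomial K, Polynomial.aeval f p ∈ v.toValuationSubring := by
      intro p
      have : Polynomial.aeval f p =
          ((Polynomial.aeval (⟨f, hf⟩ : v.toValuationSubring) p : v.toValuationSubring) : F) :=
        Polynomial.aeval_algebraMap_apply F (⟨f, hf⟩ : v.toValuationSubring) p
      rw [this]
      exact Subtype.mem _
    have hres : ∀ p : Polynomial K,
        IsLocalRing.residue v.toValuationSubring ⟨Polynomial.aeval f p, haeval p⟩ =
          Polynomial.aeval u p := by
      intro p
      have h1 : (⟨Polynomial.aeval f p, haeval p⟩ : v.toValuationSubring) =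
          Polynomial.aeval (⟨f, hf⟩ : v.toValuationSubring) p :=
        Subtype.ext (Polynomial.aeval_algebraMap_apply F (⟨f, hf⟩ : v.toValuationSubring) p)
      rw [h1]
      exact (Polynomial.aeval_algebraMap_apply v.ResidueField (⟨f, hf⟩ : v.toValuationSubring) p).symm
    have hunit : ∀ p : Polynomial K, p ≠ 0 → (Polynomial.aeval f p)⁻¹ ∈ v.toValuationSubring := by
      intro p hp
      have h1 : IsLocalRing.residue v.toValuationSubring ⟨Polynomial.aeval f p, haeval p⟩ ≠ 0 := by
        rw [hres]
        exact fun h0 => hp (transcendental_iff.mp htr p h0)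
      have h2 : IsUnit (⟨Polynomial.aeval f p, haeval p⟩ : v.toValuationSubring) := by
        by_contra hnu
        exact h1 ((IsLocalRing.residue_eq_zero_iff _).mpr hnu)
      obtain ⟨w, hw⟩ := h2
      have h3 : ((w⁻¹ : (v.toValuationSubring)ˣ) : v.toValuationSubring) *
          ⟨Polynomial.aeval f p, haeval p⟩ = 1 := by
        rw [← hw]; exact w.inv_mul
      have h4 : (((w⁻¹ : (v.toValuationSubring)ˣ) : v.toValuationSubring) : F) *
          Polynomial.aeval f p = 1 := congrArg Subtype.val h3
      have h5 : (Polynomial.aeval f p)⁻¹ =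
          (((w⁻¹ : (v.toValuationSubring)ˣ) : v.toValuationSubring) : F) :=
        (eq_inv_of_mul_eq_one_left h4).symm
      rw [h5]
      exact Subtype.mem _
    have hfield : ∀ y ∈ K⟮f⟯, y ∈ v.toValuationSubring := by
      intro y hy
      obtain ⟨r, s, rfl⟩ := IntermediateField.mem_adjoin_simple_iff K y |>.mp hy
      rcases eq_or_ne s 0 with rfl | hs
      · simp [v.toValuationSubring.zero_mem]
      · rw [div_eq_mul_inv]
        exact mul_mem (haeval r) (hunit s hs)
    have hftr : Transcendental K f := by
      intro hfalg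
      apply halg
      obtain ⟨p, hp0, hp⟩ := hfalg
      refine ⟨p, hp0, ?_⟩
      rw [← hres p]
      have h0 : (⟨Polynomial.aeval f p, haeval p⟩ : v.toValuationSubring) = 0 := Subtype.ext hp
      rw [h0, map_zero]
    have halgF : Algebra.IsAlgebraic K⟮f⟯ F := isAlgebraic_of_transcendental x hftr
    apply v.ne_top'
    rw [eq_top_iff]
    intro g _
    exact mem_of_isIntegral_of_le v K⟮f⟯ hfield (halgF.isAlgebraic g).isIntegral

/-- Every place has degree one. -/
theorem deg_one (x : F) [FiniteDimensional K⟮x⟯ F] (v : Place K F) : v.deg = 1 := by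
  rw [Place.deg, finrank_eq_one_iff_of_nonzero' (1 : v.ResidueField) one_ne_zero]
  intro w
  obtain ⟨c, hc⟩ := algebraMap_residueField_surjective x v w
  exact ⟨c, by rw [Algebra.smul_def, mul_one]; exact hc⟩

/-- **Residue field = constants**: every element of the valuation ring of a place is congruent to
a constant modulo the maximal ideal. (`v.ord 0 = 0`, hence the disjunction.) -/
theorem residue (x : F) [FiniteDimensional K⟮x⟯ F] (v : Place K F) {f : F}
    (hf : f ∈ v.toValuationSubring) :
    ∃ c : K, f = algebraMap K F c ∨ 0 < v.ord (f - algebraMap K F c) := by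
  obtain ⟨c, hc⟩ := algebraMap_residueField_surjective x v
    (IsLocalRing.residue _ (⟨f, hf⟩ : v.toValuationSubring))
  refine ⟨c, ?_⟩
  by_cases hfc : f = algebraMap K F c
  · exact Or.inl hfc
  · right
    have hmem : (⟨f, hf⟩ : v.toValuationSubring) - algebraMap K v.toValuationSubring c ∈
        IsLocalRing.maximalIdeal v.toValuationSubring := by
      rw [← IsLocalRing.residue_eq_zero_iff, map_sub, sub_eq_zero]
      exact hc.symm
    have hne : (⟨f, hf⟩ : v.toValuationSubring) - algebraMap K v.toValuationSubring c ≠ 0 := by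
      intro h0
      apply hfc
      have := congrArg Subtype.val h0
      simpa [sub_eq_zero] using this
    exact (ord_pos_iff_mem_maximalIdeal v hne).mpr hmem

omit [IsAlgClosed K] in
/-- Nonzero constants have order zero at every place. -/
theorem ord_algebraMap (v : Place K F) (c : K) : v.ord (algebraMap K F c) = 0 := by
  rcases eq_or_ne c 0 with rfl | hc
  · simp
  have hc' : algebraMap K F c ≠ 0 := by simpa using hc
  have h1 : 0 ≤ v.ord (algebraMap K F c) :=
    (mem_iff_ord_nonneg v hc').mp (v.algebraMap_mem' c)
  have h2 : 0 ≤ v.ord (algebraMap K F c⁻¹) :=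
    (mem_iff_ord_nonneg v (by simpa using hc)).mp (v.algebraMap_mem' c⁻¹)
  rw [map_inv₀, Place.ord_inv] at h2
  omega

end Residue

section Principal

variable {K F : Type*} [Field K] [Field F] [Algebra K F] [IsAlgClosed K] [CharZero K]

/-- Sum formula for zeros, with the field `K(x)` given up to equality. -/
theorem sum_ord_zeros_of_eq (x : F) (E : IntermediateField K F) [FiniteDimensional E F]
    (hE : E = K⟮x⟯) (hx : Transcendental K x) :
    {v : Place K F | 0 < v.ord x}.Finite ∧
      ∑ᶠ v ∈ {v : Place K F | 0 < v.ord x}, v.ord x = (Module.finrank E F : ℤ) := by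
  subst hE
  exact sum_ord_zeros x hx

omit [IsAlgClosed K] [CharZero K] in
theorem adjoin_inv_eq (x : F) : K⟮x⟯ = K⟮x⁻¹⟯ := by
  apply le_antisymm
  · rw [IntermediateField.adjoin_simple_le_iff]
    have h : x⁻¹ ∈ K⟮x⁻¹⟯ := IntermediateField.mem_adjoin_simple_self K x⁻¹
    simpa using inv_mem h
  · rw [IntermediateField.adjoin_simple_le_iff]
    exact inv_mem (IntermediateField.mem_adjoin_simple_self K x)

omit [IsAlgClosed K] [CharZero K] in
theorem adjoin_sub_eq (x : F) (a : K) : K⟮x⟯ = K⟮x - algebraMap K F a⟯ := by
  apply le_antisymm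
  · rw [IntermediateField.adjoin_simple_le_iff]
    have h : x - algebraMap K F a ∈ K⟮x - algebraMap K F a⟯ :=
      IntermediateField.mem_adjoin_simple_self K _
    have h2 := add_mem h (K⟮x - algebraMap K F a⟯.algebraMap_mem a)
    simpa using h2
  · rw [IntermediateField.adjoin_simple_le_iff]
    exact sub_mem (IntermediateField.mem_adjoin_simple_self K x) (K⟮x⟯.algebraMap_mem a)

omit [IsAlgClosed K] [CharZero K] in
theorem transcendental_inv {x : F} (hx : Transcendental K x) : Transcendental K x⁻¹ :=
  fun h => hx (by simpa using h.inv)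

omit [IsAlgClosed K] [CharZero K] in
theorem transcendental_sub {x : F} (hx : Transcendental K x) (a : K) :
    Transcendental K (x - algebraMap K F a) := by
  intro h
  apply hx
  have := h.add (isAlgebraic_algebraMap (R := K) (A := F) a)
  simpa using this

/-- **Sum formula for the zeros of `x - a`.** -/
theorem sum_ord_zeros_sub (x : F) [FiniteDimensional K⟮x⟯ F] (hx : Transcendental K x) (a : K) :
    {v : Place K F | 0 < v.ord (x - algebraMap K F a)}.Finite ∧
      ∑ᶠ v ∈ {v : Place K F | 0 < v.ord (x - algebraMap K F a)}, v.ord (x - algebraMap K F a) =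
        (Module.finrank K⟮x⟯ F : ℤ) :=
  sum_ord_zeros_of_eq (x - algebraMap K F a) K⟮x⟯ (adjoin_sub_eq x a) (transcendental_sub hx a)

/-- **Sum formula for poles**: the poles of `x` are finite in number and the pole orders add up to
`[F : K(x)]`. -/
theorem sum_ord_poles (x : F) [FiniteDimensional K⟮x⟯ F] (hx : Transcendental K x) :
    {v : Place K F | v.ord x < 0}.Finite ∧
      ∑ᶠ v ∈ {v : Place K F | v.ord x < 0}, v.ord x = -(Module.finrank K⟮x⟯ F : ℤ) := by
  have h := sum_ord_zeros_of_eq x⁻¹ K⟮x⟯ (adjoin_inv_eq x) (transcendental_inv hx)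
  have hset : {v : Place K F | 0 < v.ord x⁻¹} = {v : Place K F | v.ord x < 0} := by
    ext v
    simp only [Set.mem_ofPred_eq, Place.ord_inv]
    omega
  rw [hset] at h
  refine ⟨h.1, ?_⟩
  rw [← h.2]
  have : ∀ v : Place K F, v.ord x⁻¹ = - v.ord x := fun v => v.ord_inv x
  simp_rw [this]
  rw [finsum_mem_neg_distrib _ h.1, neg_neg]

/-- **Principal divisors have degree zero.** -/
theorem exists_principal_divisor (x : F) [FiniteDimensional K⟮x⟯ F] {f : F} (hf : f ≠ 0) :
    ∃ D : Divisor K F, (∀ v : Place K F, D v = v.ord f) ∧ Divisor.degree D = 0 := by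
  by_cases halg : IsAlgebraic K f
  · obtain ⟨c, rfl⟩ := exists_algebraMap_eq_of_isAlgebraic halg
    exact ⟨0, fun v => by rw [ord_algebraMap]; rfl, map_zero _⟩
  · have htr : Transcendental K f := halg
    have hfin : FiniteDimensional K⟮f⟯ F := finiteDimensional_of_transcendental x htr
    obtain ⟨hZ, hZsum⟩ := sum_ord_zeros f htr
    obtain ⟨hP, hPsum⟩ := sum_ord_poles f htr
    classical
    let D : Divisor K F := Finsupp.onFinset (hZ.toFinset ∪ hP.toFinset) (fun v => v.ord f)
      (fun v hv => by
        simp only [Finset.mem_union, Set.Finite.mem_toFinset, Set.mem_ofPred_eq]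
        omega)
    refine ⟨D, fun v => rfl, ?_⟩
    have hdeg : Divisor.degree D = ∑ v ∈ hZ.toFinset ∪ hP.toFinset, v.ord f := by
      show (Finsupp.liftAddHom fun v : Place K F => AddMonoidHom.mulRight (v.deg : ℤ)) D = _
      rw [Finsupp.liftAddHom_apply, Finsupp.onFinset_sum _ (fun v => by simp)]
      refine Finset.sum_congr rfl fun v _ => ?_
      simp [deg_one x v]
    have hdisj : Disjoint hZ.toFinset hP.toFinset := by
      rw [Finset.disjoint_left]
      intro v h1 h2
      simp only [Set.Finite.mem_toFinset, Set.mem_ofPred_eq] at h1 h2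
      omega
    rw [hdeg, Finset.sum_union hdisj, ← finsum_mem_eq_finite_toFinset_sum _ hZ,
      ← finsum_mem_eq_finite_toFinset_sum _ hP, hZsum, hPsum]
    ring

theorem hasPrincipalDivisors (x : F) [FiniteDimensional K⟮x⟯ F] : HasPrincipalDivisors K F :=
  ⟨fun _ hf => exists_principal_divisor x hf⟩

/-- A function without poles is constant. -/
theorem exists_const_of_ord_nonneg (x : F) [FiniteDimensional K⟮x⟯ F] {f : F}
    (h : ∀ v : Place K F, 0 ≤ v.ord f) : ∃ c : K, f = algebraMap K F c := by
  by_cases halg : IsAlgebraic K f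
  · obtain ⟨c, rfl⟩ := exists_algebraMap_eq_of_isAlgebraic halg
    exact ⟨c, rfl⟩
  · exfalso
    have htr : Transcendental K f := halg
    have hfin : FiniteDimensional K⟮f⟯ F := finiteDimensional_of_transcendental x htr
    obtain ⟨hP, hPsum⟩ := sum_ord_poles f htr
    have hempty : {v : Place K F | v.ord f < 0} = ∅ := by
      ext v
      simp only [Set.mem_ofPred_eq, Set.mem_empty_iff_false, iff_false, not_lt]
      exact h v
    rw [hempty, finsum_mem_empty] at hPsum
    have hpos : 0 < Module.finrank K⟮f⟯ F := Module.finrank_pos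
    omega

end Principal

end

end Fermat.Agent.S24.Places
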