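import Mathlib
import Fermat.Prelude.Def_ModularCurve_GenusNumerics

/-!
# Combinatorics of `SL(2, ℤ) ⧸ Γ₀(N)` (piece C2 of S24): cosets and elliptic fixed points

Left cosets `g Γ₀(N)` are classified by the first column of `g` in `ℙ¹(ℤ/N)`.
The fixed points of `S` (resp. `S * T`) under left multiplication are counted by
`nuTwo N` (resp. `nuThree N`).
-/

open CongruenceSubgroup
open scoped MatrixGroups

namespace Fermat.Agent.S24.Comb

variable {N : ℕ}

theorem inv_mul_apply_one_zero (g g' : SL(2, ℤ)) :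
    (g⁻¹ * g' : SL(2, ℤ)) 1 0 = g 0 0 * g' 1 0 - g 1 0 * g' 0 0 := by
  rw [Matrix.SpecialLinearGroup.coe_mul, Matrix.SpecialLinearGroup.coe_inv,
    Matrix.adjugate_fin_two, Matrix.mul_apply, Fin.sum_univ_two]
  simp
  ring

/-- Two left cosets of `Γ₀(N)` agree iff the first columns are proportional mod `N`. -/
theorem mk_eq_mk_iff (g g' : SL(2, ℤ)) :
    ((g : SL(2, ℤ) ⧸ Gamma0 N) = (g' : SL(2, ℤ) ⧸ Gamma0 N)) ↔
      ((g 0 0 * g' 1 0 - g 1 0 * g' 0 0 : ℤ) : ZMod N) = 0 := by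
  rw [QuotientGroup.eq, Gamma0_mem, inv_mul_apply_one_zero]

/-- The matrix `[[0, -1], [1, e]]`; `e = 0` is `S`, `e = 1` is `S * T`. -/
def ell (e : ℤ) : SL(2, ℤ) := ⟨!![0, -1; 1, e], by simp [Matrix.det_fin_two]⟩

theorem coe_ell (e : ℤ) : (ell e : Matrix (Fin 2) (Fin 2) ℤ) = !![0, -1; 1, e] := rfl

theorem ell_zero : ell 0 = ModularGroup.S := rfl

theorem ell_one : ell 1 = ModularGroup.S * ModularGroup.T := by
  ext i j
  rw [Matrix.SpecialLinearGroup.coe_mul, coe_ell, ModularGroup.coe_S, ModularGroup.coe_T]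
  fin_cases i <;> fin_cases j <;> simp [Matrix.mul_apply, Fin.sum_univ_two]

theorem ell_mul_apply_zero_zero (e : ℤ) (g : SL(2, ℤ)) : (ell e * g) 0 0 = -g 1 0 := by
  rw [Matrix.SpecialLinearGroup.coe_mul, coe_ell]
  simp [Matrix.mul_apply, Fin.sum_univ_two]

theorem ell_mul_apply_one_zero (e : ℤ) (g : SL(2, ℤ)) : (ell e * g) 1 0 = g 0 0 + e * g 1 0 := by
  rw [Matrix.SpecialLinearGroup.coe_mul, coe_ell]
  simp [Matrix.mul_apply, Fin.sum_univ_two]

/-- Fixed point criterion for `ell e` acting on `SL(2, ℤ) ⧸ Γ₀(N)`. -/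
theorem ell_smul_mk_eq_iff (e : ℤ) (g : SL(2, ℤ)) :
    (ell e • (g : SL(2, ℤ) ⧸ Gamma0 N) = (g : SL(2, ℤ) ⧸ Gamma0 N)) ↔
      ((g 0 0 ^ 2 + e * g 0 0 * g 1 0 + g 1 0 ^ 2 : ℤ) : ZMod N) = 0 := by
  rw [MulAction.Quotient.smul_mk, smul_eq_mul, mk_eq_mk_iff, ell_mul_apply_zero_zero,
    ell_mul_apply_one_zero]
  have : (-g 1 0 * g 1 0 - (g 0 0 + e * g 1 0) * g 0 0 : ℤ) =
      -(g 0 0 ^ 2 + e * g 0 0 * g 1 0 + g 1 0 ^ 2) := by ring
  rw [this, Int.cast_neg, neg_eq_zero]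

/-- The matrix `[[a, -1], [1, 0]]` with first column `(a, 1)`. -/
def colMat (a : ℤ) : SL(2, ℤ) := ⟨!![a, -1; 1, 0], by simp [Matrix.det_fin_two]⟩

@[simp] theorem colMat_apply_zero_zero (a : ℤ) : colMat a 0 0 = a := rfl
@[simp] theorem colMat_apply_one_zero (a : ℤ) : colMat a 1 0 = 1 := rfl

theorem det_eq_one' (g : SL(2, ℤ)) : g 0 0 * g 1 1 - g 0 1 * g 1 0 = 1 := by
  have := g.det_coe
  rwa [Matrix.det_fin_two] at this

/-- If the first column `(a, c)` of `g` satisfies `a² + e a c + c² ≡ 0`, then `c` is a unit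
mod `N`, with an explicit inverse. -/
theorem exists_inv_of_fixed (e : ℤ) (g : SL(2, ℤ))
    (h : ((g 0 0 ^ 2 + e * g 0 0 * g 1 0 + g 1 0 ^ 2 : ℤ) : ZMod N) = 0) :
    ∃ w : ZMod N, (g 1 0 : ZMod N) * w = 1 := by
  have hdet := det_eq_one' g
  set a := g 0 0
  set b := g 0 1
  set c := g 1 0
  set d := g 1 1
  -- t = -((e a + c) d + a b), a ≡ c t
  refine ⟨((-((e * a + c) * d + a * b) * d - b : ℤ) : ZMod N), ?_⟩
  have hdet' : ((a * d - b * c : ℤ) : ZMod N) = 1 := by rw [hdet]; simp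
  push_cast at h hdet' ⊢
  linear_combination ((a : ZMod N) * d + 1) * hdet' - (d : ZMod N) ^ 2 * h

/-- The fixed points of `ell e` on `SL(2, ℤ) ⧸ Γ₀(N)` are in bijection with the roots of
`x² + e x + 1` in `ZMod N`. -/
noncomputable def fixedEquiv (N : ℕ) [NeZero N] (e : ℤ) :
    {x : ZMod N // x ^ 2 + (e : ZMod N) * x + 1 = 0} ≃
      MulAction.fixedBy (SL(2, ℤ) ⧸ Gamma0 N) (ell e) := by
  refine Equiv.ofBijective
    (fun x => ⟨(colMat (x.1.val : ℤ) : SL(2, ℤ) ⧸ Gamma0 N), ?_⟩) ⟨?_, ?_⟩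
  · rw [MulAction.mem_fixedBy, ell_smul_mk_eq_iff]
    have hx := x.2
    simp only [colMat_apply_zero_zero, colMat_apply_one_zero]
    push_cast
    rw [ZMod.natCast_zmod_val]
    linear_combination hx
  · intro x y hxy
    have h := congrArg Subtype.val hxy
    simp only at h
    rw [mk_eq_mk_iff] at h
    simp only [colMat_apply_zero_zero, colMat_apply_one_zero] at h
    push_cast at h
    rw [ZMod.natCast_zmod_val, ZMod.natCast_zmod_val] at h
    apply Subtype.ext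
    linear_combination h
  · rintro ⟨q, hq⟩
    induction q using QuotientGroup.induction_on with
    | H g =>
      rw [MulAction.mem_fixedBy, ell_smul_mk_eq_iff] at hq
      obtain ⟨w, hw⟩ := exists_inv_of_fixed e g hq
      have hroot : ((g 0 0 : ZMod N) * w) ^ 2 + (e : ZMod N) * ((g 0 0 : ZMod N) * w) + 1 = 0 := by
        push_cast at hq
        linear_combination w ^ 2 * hq +
          (-((e : ZMod N) * (g 0 0 : ZMod N) * w) - (1 + (g 1 0 : ZMod N) * w)) * hw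
      refine ⟨⟨(g 0 0 : ZMod N) * w, hroot⟩, ?_⟩
      apply Subtype.ext
      simp only
      rw [mk_eq_mk_iff]
      simp only [colMat_apply_zero_zero, colMat_apply_one_zero]
      push_cast
      rw [ZMod.natCast_zmod_val]
      linear_combination (g 0 0 : ZMod N) * hw

theorem card_fixedBy_ell (N : ℕ) [NeZero N] (e : ℤ) :
    Nat.card (MulAction.fixedBy (SL(2, ℤ) ⧸ Gamma0 N) (ell e)) =
      Nat.card {x : ZMod N // x ^ 2 + (e : ZMod N) * x + 1 = 0} :=
  (Nat.card_congr (fixedEquiv N e)).symm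

/-- **C2 (order 2)**: the number of cosets of `Γ₀(N)` fixed by `S` is `nuTwo N`. -/
theorem card_fixedBy_S (N : ℕ) [NeZero N] :
    Nat.card (MulAction.fixedBy (SL(2, ℤ) ⧸ Gamma0 N) ModularGroup.S) = ModularCurve.nuTwo N := by
  rw [← ell_zero, card_fixedBy_ell, ModularCurve.nuTwo]
  refine Nat.card_congr (Equiv.subtypeEquivRight fun x => ?_)
  simp

/-- **C2 (order 3)**: the number of cosets of `Γ₀(N)` fixed by `S * T` is `nuThree N`. -/
theorem card_fixedBy_ST (N : ℕ) [NeZero N] :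
    Nat.card (MulAction.fixedBy (SL(2, ℤ) ⧸ Gamma0 N) (ModularGroup.S * ModularGroup.T)) =
      ModularCurve.nuThree N := by
  rw [← ell_one, card_fixedBy_ell, ModularCurve.nuThree]
  refine Nat.card_congr (Equiv.subtypeEquivRight fun x => ?_)
  simp

end Fermat.Agent.S24.Comb
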