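import Mathlib
import Fermat.Prelude.Def_ModularCurve_GenusNumerics
import Fermat.Agent.S24.CombBasic

/-!
# The index of `Γ₀(N)` in `SL(2, ℤ)` is `dedekindPsi N` (piece C1 of S24)

Induction on the prime factors of `N` via `[Γ₀(N) : Γ₀(N p)] = p` or `p + 1`.
-/

open CongruenceSubgroup
open scoped MatrixGroups

namespace Fermat.Agent.S24.Comb

/-- Coset criterion inside `Γ₀(N)`. -/
theorem mk_eq_mk_iff_sub (N M : ℕ) (h h' : Gamma0 N) :
    ((h : Gamma0 N ⧸ (Gamma0 M).subgroupOf (Gamma0 N)) = h') ↔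
      (((h : SL(2, ℤ)) 0 0 * (h' : SL(2, ℤ)) 1 0 - (h : SL(2, ℤ)) 1 0 * (h' : SL(2, ℤ)) 0 0 : ℤ) :
        ZMod M) = 0 := by
  rw [QuotientGroup.eq, Subgroup.mem_subgroupOf, Gamma0_mem, Subgroup.coe_mul, Subgroup.coe_inv,
    inv_mul_apply_one_zero]

/-- The matrix `[[1, 0], [N y, 1]]`. -/
def lowMatSL (N : ℕ) (y : ℤ) : SL(2, ℤ) :=
  ⟨!![1, 0; (N : ℤ) * y, 1], by simp [Matrix.det_fin_two]⟩

theorem lowMatSL_mem (N : ℕ) (y : ℤ) : lowMatSL N y ∈ Gamma0 N := by
  rw [Gamma0_mem]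
  show (((N : ℤ) * y : ℤ) : ZMod N) = 0
  simp

/-- The matrix `[[1, 0], [N y, 1]]` as an element of `Γ₀(N)`. -/
def lowMat (N : ℕ) (y : ℤ) : Gamma0 N := ⟨lowMatSL N y, lowMatSL_mem N y⟩

@[simp] theorem lowMat_apply_zero_zero (N : ℕ) (y : ℤ) : (lowMat N y : SL(2, ℤ)) 0 0 = 1 := rfl
@[simp] theorem lowMat_apply_one_zero (N : ℕ) (y : ℤ) :
    (lowMat N y : SL(2, ℤ)) 1 0 = (N : ℤ) * y := rfl

theorem Gamma0_dvd {N : ℕ} (h : Gamma0 N) : (N : ℤ) ∣ (h : SL(2, ℤ)) 1 0 :=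
  (ZMod.intCast_zmod_eq_zero_iff_dvd _ N).mp (Gamma0_mem.mp h.2)

/-- Coset criterion for `Γ₀(N) / Γ₀(N p)` in terms of the lower-left entries divided by `N`. -/
theorem mk_eq_mk_iff_prime (N : ℕ) [NeZero N] (p : ℕ) (h h' : Gamma0 N) (c c' : ℤ)
    (hc : (h : SL(2, ℤ)) 1 0 = N * c) (hc' : (h' : SL(2, ℤ)) 1 0 = N * c') :
    ((h : Gamma0 N ⧸ (Gamma0 (N * p)).subgroupOf (Gamma0 N)) = h') ↔
      (p : ℤ) ∣ (h : SL(2, ℤ)) 0 0 * c' - c * (h' : SL(2, ℤ)) 0 0 := by
  rw [mk_eq_mk_iff_sub, ZMod.intCast_zmod_eq_zero_iff_dvd, hc, hc']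
  have hN : (N : ℤ) ≠ 0 := by exact_mod_cast NeZero.ne N
  have : ((h : SL(2, ℤ)) 0 0 * (N * c') - N * c * (h' : SL(2, ℤ)) 0 0 : ℤ) =
      N * ((h : SL(2, ℤ)) 0 0 * c' - c * (h' : SL(2, ℤ)) 0 0) := by ring
  rw [this]
  push_cast
  exact mul_dvd_mul_iff_left hN

theorem Gamma0_le_of_dvd {M N : ℕ} (h : N ∣ M) : Gamma0 M ≤ Gamma0 N := by
  intro g hg
  rw [Gamma0_mem] at hg ⊢
  rw [ZMod.intCast_zmod_eq_zero_iff_dvd] at hg ⊢
  exact (Int.natCast_dvd_natCast.mpr h).trans hg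

/-- `[Γ₀(N) : Γ₀(N p)] = p` when `p ∣ N`. -/
theorem relIndex_of_dvd (N : ℕ) [NeZero N] {p : ℕ} (hp : p.Prime) (hpN : p ∣ N) :
    (Gamma0 (N * p)).relIndex (Gamma0 N) = p := by
  have : Fact p.Prime := ⟨hp⟩
  have : NeZero p := ⟨hp.ne_zero⟩
  have hcard : Nat.card (ZMod p) = p := Nat.card_zmod p
  rw [Subgroup.relIndex, Subgroup.index]
  refine Eq.trans (Nat.card_congr (Equiv.ofBijective
    (fun y : ZMod p => ((lowMat N (y.val : ℤ) : Gamma0 N) :
      Gamma0 N ⧸ (Gamma0 (N * p)).subgroupOf (Gamma0 N))) ⟨?_, ?_⟩)).symm hcard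
  · intro y y' hyy
    simp only at hyy
    rw [mk_eq_mk_iff_prime N p _ _ (y.val : ℤ) (y'.val : ℤ) (lowMat_apply_one_zero N _)
      (lowMat_apply_one_zero N _)] at hyy
    simp only [lowMat_apply_zero_zero] at hyy
    have := (ZMod.intCast_zmod_eq_zero_iff_dvd _ p).mpr hyy
    push_cast at this
    rw [ZMod.natCast_zmod_val, ZMod.natCast_zmod_val] at this
    linear_combination -this
  · intro q
    induction q using QuotientGroup.induction_on with
    | H h =>
      obtain ⟨c, hc⟩ := Gamma0_dvd h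
      have hdet := det_eq_one' (h : SL(2, ℤ))
      have ha : ((h : SL(2, ℤ)) 0 0 : ZMod p) ≠ 0 := by
        intro h0
        rw [ZMod.intCast_zmod_eq_zero_iff_dvd] at h0
        have h1 : (p : ℤ) ∣ (h : SL(2, ℤ)) 1 0 := by
          rw [hc]; exact Dvd.dvd.mul_right (Int.natCast_dvd_natCast.mpr hpN) c
        have : (p : ℤ) ∣ 1 := by
          rw [← hdet]
          exact dvd_sub (Dvd.dvd.mul_right h0 _) (Dvd.dvd.mul_left h1 _)
        exact hp.not_dvd_one (Int.natCast_dvd_natCast.mp (by simpa using this))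
      set y0 : ZMod p := (c : ZMod p) / ((h : SL(2, ℤ)) 0 0 : ZMod p) with hy0
      refine ⟨y0, ?_⟩
      simp only
      rw [mk_eq_mk_iff_prime N p _ _ (y0.val : ℤ) c (lowMat_apply_one_zero N _) hc]
      simp only [lowMat_apply_zero_zero]
      rw [← ZMod.intCast_zmod_eq_zero_iff_dvd]
      push_cast
      rw [ZMod.natCast_zmod_val, hy0]
      field_simp
      ring

/-- `[Γ₀(N) : Γ₀(N p)] = p + 1` when `p ∤ N`. -/
theorem relIndex_of_not_dvd (N : ℕ) [NeZero N] {p : ℕ} (hp : p.Prime) (hpN : ¬ p ∣ N) :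
    (Gamma0 (N * p)).relIndex (Gamma0 N) = p + 1 := by
  have : Fact p.Prime := ⟨hp⟩
  have : NeZero p := ⟨hp.ne_zero⟩
  have hcard : Nat.card (Option (ZMod p)) = p + 1 := by
    rw [Finite.card_option, Nat.card_zmod]
  -- a matrix in `Γ₀(N)` whose upper-left entry is `p`
  obtain ⟨m0, hm00, hm10⟩ : ∃ m0 : Gamma0 N, (m0 : SL(2, ℤ)) 0 0 = p ∧ (m0 : SL(2, ℤ)) 1 0 = N := by
    have hcop : IsCoprime (p : ℤ) (N : ℤ) := by
      rw [Int.isCoprime_iff_gcd_eq_one, Int.gcd_natCast_natCast]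
      exact (Nat.Prime.coprime_iff_not_dvd hp).mpr hpN
    obtain ⟨u, v, huv⟩ := hcop
    have hdet : Matrix.det !![(p : ℤ), -v; (N : ℤ), u] = 1 := by
      rw [Matrix.det_fin_two_of]; linear_combination huv
    set m : SL(2, ℤ) := ⟨!![(p : ℤ), -v; (N : ℤ), u], hdet⟩ with hm
    have hmem : m ∈ Gamma0 N := by
      rw [Gamma0_mem]
      show ((N : ℤ) : ZMod N) = 0
      simp
    exact ⟨⟨m, hmem⟩, rfl, rfl⟩
  rw [Subgroup.relIndex, Subgroup.index]
  refine Eq.trans (Nat.card_congr (Equiv.ofBijective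
    (fun y : Option (ZMod p) => ((Option.elim y m0 (fun y => lowMat N (y.val : ℤ)) : Gamma0 N) :
      Gamma0 N ⧸ (Gamma0 (N * p)).subgroupOf (Gamma0 N))) ⟨?_, ?_⟩)).symm hcard
  · have key : ∀ y : ZMod p, ((m0 : Gamma0 N) :
        Gamma0 N ⧸ (Gamma0 (N * p)).subgroupOf (Gamma0 N)) ≠ (lowMat N (y.val : ℤ) : Gamma0 N) := by
      intro y hy
      rw [mk_eq_mk_iff_prime N p _ _ 1 (y.val : ℤ) (by rw [hm10]; ring)
        (lowMat_apply_one_zero N _)] at hy
      rw [hm00, lowMat_apply_zero_zero] at hy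
      have : (p : ℤ) ∣ 1 := by
        have h2 : (p : ℤ) ∣ (p : ℤ) * (y.val : ℤ) := dvd_mul_right _ _
        have := dvd_sub h2 hy
        simpa using this
      exact hp.not_dvd_one (Int.natCast_dvd_natCast.mp (by simpa using this))
    rintro (_ | y) (_ | y') hyy
    · rfl
    · exact absurd hyy (key y')
    · exact absurd hyy.symm (key y)
    · simp only [Option.elim] at hyy
      rw [mk_eq_mk_iff_prime N p _ _ (y.val : ℤ) (y'.val : ℤ) (lowMat_apply_one_zero N _)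
      (lowMat_apply_one_zero N _)] at hyy
      simp only [lowMat_apply_zero_zero] at hyy
      have := (ZMod.intCast_zmod_eq_zero_iff_dvd _ p).mpr hyy
      push_cast at this
      rw [ZMod.natCast_zmod_val, ZMod.natCast_zmod_val] at this
      congr 1
      linear_combination -this
  · intro q
    induction q using QuotientGroup.induction_on with
    | H h =>
      obtain ⟨c, hc⟩ := Gamma0_dvd h
      by_cases ha : ((h : SL(2, ℤ)) 0 0 : ZMod p) = 0
      · refine ⟨none, ?_⟩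
        simp only [Option.elim]
        rw [mk_eq_mk_iff_prime N p _ _ 1 c (by rw [hm10]; ring) hc, hm00]
        rw [ZMod.intCast_zmod_eq_zero_iff_dvd] at ha
        exact dvd_sub (dvd_mul_right _ _) (Dvd.dvd.mul_left ha _)
      · set y0 : ZMod p := (c : ZMod p) / ((h : SL(2, ℤ)) 0 0 : ZMod p) with hy0
        refine ⟨some y0, ?_⟩
        simp only [Option.elim]
        rw [mk_eq_mk_iff_prime N p _ _ (y0.val : ℤ) c (lowMat_apply_one_zero N _) hc]
        simp only [lowMat_apply_zero_zero]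
        rw [← ZMod.intCast_zmod_eq_zero_iff_dvd]
        push_cast
        rw [ZMod.natCast_zmod_val, hy0]
        field_simp
        ring

/-! ### The recursion for `dedekindPsi` -/

theorem sqf_dvd_of_dvd_mul {N p d : ℕ} (hp : p.Prime) (hpN : p ∣ N) (hd : Squarefree d)
    (h : d ∣ N * p) : d ∣ N := by
  by_cases hpd : p ∣ d
  · obtain ⟨k, rfl⟩ := hpd
    have hk : k ∣ N := by
      rw [mul_comm p k] at h
      exact (Nat.mul_dvd_mul_iff_right hp.pos).mp h
    have hcop : p.Coprime k := (Nat.squarefree_mul_iff.mp hd).1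
    exact Nat.Coprime.mul_dvd_of_dvd_of_dvd hcop hpN hk
  · have hcop : d.Coprime p := ((Nat.Prime.coprime_iff_not_dvd hp).mpr hpd).symm
    exact Nat.Coprime.dvd_of_dvd_mul_right hcop h

theorem dedekindPsi_mul_of_dvd {N p : ℕ} (hN : N ≠ 0) (hp : p.Prime) (hpN : p ∣ N) :
    ModularCurve.dedekindPsi (N * p) = ModularCurve.dedekindPsi N * p := by
  unfold ModularCurve.dedekindPsi
  have hset : (N * p).divisors.filter Squarefree = N.divisors.filter Squarefree := by
    ext d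
    simp only [Finset.mem_filter, Nat.mem_divisors]
    constructor
    · rintro ⟨⟨hd, -⟩, hsq⟩
      exact ⟨⟨sqf_dvd_of_dvd_mul hp hpN hsq hd, hN⟩, hsq⟩
    · rintro ⟨⟨hd, -⟩, hsq⟩
      exact ⟨⟨Dvd.dvd.mul_right hd p, Nat.mul_ne_zero hN hp.ne_zero⟩, hsq⟩
  rw [hset, Finset.sum_mul]
  refine Finset.sum_congr rfl fun d hd => ?_
  rw [Finset.mem_filter, Nat.mem_divisors] at hd
  exact (Nat.div_mul_right_comm hd.1.1 p).symm

theorem dedekindPsi_mul_of_not_dvd {N p : ℕ} (hN : N ≠ 0) (hp : p.Prime) (hpN : ¬ p ∣ N) :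
    ModularCurve.dedekindPsi (N * p) = ModularCurve.dedekindPsi N * (p + 1) := by
  unfold ModularCurve.dedekindPsi
  set S := N.divisors.filter Squarefree with hS
  have hmemS : ∀ d, d ∈ S ↔ d ∣ N ∧ Squarefree d := by
    intro d
    rw [hS, Finset.mem_filter, Nat.mem_divisors]
    exact ⟨fun h => ⟨h.1.1, h.2⟩, fun h => ⟨⟨h.1, hN⟩, h.2⟩⟩
  have hset : (N * p).divisors.filter Squarefree = S ∪ S.image (· * p) := by
    ext d
    simp only [Finset.mem_filter, Nat.mem_divisors, Finset.mem_union, Finset.mem_image, hmemS]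
    constructor
    · rintro ⟨⟨hd, -⟩, hsq⟩
      by_cases hpd : p ∣ d
      · right
        obtain ⟨k, rfl⟩ := hpd
        refine ⟨k, ⟨?_, (Nat.squarefree_mul_iff.mp hsq).2.2⟩, mul_comm k p⟩
        rw [mul_comm p k] at hd
        exact (Nat.mul_dvd_mul_iff_right hp.pos).mp hd
      · left
        have hcop : d.Coprime p := ((Nat.Prime.coprime_iff_not_dvd hp).mpr hpd).symm
        exact ⟨Nat.Coprime.dvd_of_dvd_mul_right hcop hd, hsq⟩
    · rintro (⟨hd, hsq⟩ | ⟨k, ⟨hk, hsq⟩, rfl⟩)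
      · exact ⟨⟨Dvd.dvd.mul_right hd p, Nat.mul_ne_zero hN hp.ne_zero⟩, hsq⟩
      · refine ⟨⟨Nat.mul_dvd_mul_right hk p, Nat.mul_ne_zero hN hp.ne_zero⟩, ?_⟩
        rw [Nat.squarefree_mul_iff]
        refine ⟨?_, hsq, hp.prime.squarefree⟩
        refine ((Nat.Prime.coprime_iff_not_dvd hp).mpr fun hpk => hpN (hpk.trans hk)).symm
  have hdisj : Disjoint S (S.image (· * p)) := by
    rw [Finset.disjoint_left]
    intro d hd hd'
    rw [Finset.mem_image] at hd'
    obtain ⟨k, -, rfl⟩ := hd'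
    exact hpN ((Dvd.intro_left k rfl).trans ((hmemS _).mp hd).1)
  have hinj : Set.InjOn (· * p) (S : Set ℕ) := fun a _ b _ hab =>
    Nat.eq_of_mul_eq_mul_right hp.pos hab
  rw [hset, Finset.sum_union hdisj, Finset.sum_image hinj, mul_add, mul_one, Finset.sum_mul]
  congr 1
  · refine Finset.sum_congr rfl fun d hd => ?_
    exact (Nat.div_mul_right_comm ((hmemS d).mp hd).1 p).symm
  · refine Finset.sum_congr rfl fun d _ => ?_
    exact Nat.mul_div_mul_right N d hp.pos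

theorem Gamma0_one : Gamma0 1 = ⊤ := by
  rw [eq_top_iff]
  intro g _
  rw [Gamma0_mem]
  exact Subsingleton.elim _ _

/-- **C1**: the index of `Γ₀(N)` in `SL(2, ℤ)` is `dedekindPsi N`. -/
theorem index_Gamma0 (N : ℕ) [NeZero N] : (Gamma0 N).index = ModularCurve.dedekindPsi N := by
  have key : ∀ n : ℕ, n ≠ 0 → (Gamma0 n).index = ModularCurve.dedekindPsi n := by
    intro n
    induction n using Nat.strong_induction_on with
    | _ n ih =>
      intro hn
      by_cases h1 : n = 1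
      · subst h1
        rw [Gamma0_one, Subgroup.index_top, ModularCurve.dedekindPsi_one]
      · obtain ⟨p, hp, hpn⟩ := Nat.exists_prime_and_dvd h1
        obtain ⟨M, rfl⟩ := hpn
        have hM : M ≠ 0 := fun h => hn (by rw [h, mul_zero])
        have hlt : M < p * M := by
          have := hp.two_le
          have hMpos : 0 < M := Nat.pos_of_ne_zero hM
          nlinarith
        have : NeZero M := ⟨hM⟩
        have ihM := ih M hlt hM
        rw [mul_comm p M,
          ← Subgroup.relIndex_mul_index (Gamma0_le_of_dvd (Dvd.intro p rfl : M ∣ M * p)), ihM]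
        by_cases hpM : p ∣ M
        · rw [relIndex_of_dvd M hp hpM, dedekindPsi_mul_of_dvd hM hp hpM, mul_comm]
        · rw [relIndex_of_not_dvd M hp hpM, dedekindPsi_mul_of_not_dvd hM hp hpM, mul_comm]
  exact key N (NeZero.ne N)

end Fermat.Agent.S24.Comb
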