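/-
S24, piece BRIDGE (part 2): Laurent `q`-expansions.  A relation `HasQL f L` between functions on the
upper half plane and formal Laurent series over `ℂ`, closed under the ring operations, for which
`f = 0 ↔ L = 0`, and such that `z ↦ j(d z)` corresponds to the Prelude series `jq(q^d)`.
-/
import Mathlib
import Fermat.Prelude.Def_ModularCurve_X0
import Fermat.Prelude.Def_ModularCurve_LaurentCoeff
import Fermat.Agent.S23.QNice
import Fermat.Agent.S23.UV
import Fermat.Agent.S23.Dist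
import Fermat.Agent.S24.Bridge

set_option autoImplicit false

noncomputable section

open UpperHalfPlane ModularForm ModularFormClass CongruenceSubgroup
open scoped MatrixGroups ModularForm Manifold

namespace Fermat.Agent.S24.QL

open Fermat.Agent.S23 Fermat.Agent.S23.QNice

/-- The formal Laurent series attached to a nice function. -/
def qL (g : niceSub) : LaurentSeries ℂ := HahnSeries.ofPowerSeries ℤ ℂ (qHom g)

theorem qL_injective : Function.Injective qL :=
  HahnSeries.ofPowerSeries_injective.comp qHom_injective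

theorem qL_mul (g h : niceSub) : qL (g * h) = qL g * qL h := by
  simp [qL, map_mul]

theorem qL_add (g h : niceSub) : qL (g + h) = qL g + qL h := by
  simp [qL, map_add]

theorem qL_one : qL 1 = 1 := by
  simp [qL]

theorem qL_zero : qL 0 = 0 := by
  simp [qL]

theorem qL_neg (g : niceSub) : qL (-g) = -qL g := by
  simp [qL]

theorem qL_ne_zero {h : niceSub} (hh : ∀ z, (h : ℍ → ℂ) z ≠ 0) : qL h ≠ 0 := by
  intro h0
  have h1 : h = 0 := qL_injective (h0.trans qL_zero.symm)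
  exact hh UpperHalfPlane.I (by rw [h1]; rfl)

theorem qL_algebraMap (c : ℂ) :
    qL (algebraMap ℂ niceSub c) = algebraMap ℂ (LaurentSeries ℂ) c := by
  have h1 : qHom (algebraMap ℂ niceSub c) = PowerSeries.C c := by
    rw [qHom_apply]
    have h2 : ((algebraMap ℂ niceSub c : niceSub) : ℍ → ℂ) = c • (1 : ℍ → ℂ) := by
      ext z
      simp [Algebra.algebraMap_eq_smul_one]
    have h3 : Nice (1 : ℍ → ℂ) := Nice.const 1
    rw [h2, qExpansion_smul h3.analytic c, qExpansion_one]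
    ext n
    simp [PowerSeries.coeff_C, PowerSeries.coeff_one]
  rw [qL, h1, HahnSeries.ofPowerSeries_C, ModularCurve.algebraMap_laurentSeries_eq_single]
  rfl

/-- `f` has the Laurent `q`-expansion `L`: `f = g / h` with `g`, `h` nice, `h` nowhere zero, and
`L = q(g) / q(h)`. -/
def HasQL (f : ℍ → ℂ) (L : LaurentSeries ℂ) : Prop :=
  ∃ g h : niceSub, (∀ z, (h : ℍ → ℂ) z ≠ 0) ∧ (∀ z, f z * (h : ℍ → ℂ) z = (g : ℍ → ℂ) z) ∧
    L * qL h = qL g

theorem hasQL_nice (g : niceSub) : HasQL (g : ℍ → ℂ) (qL g) :=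
  ⟨g, 1, fun z => one_ne_zero, fun z => by simp, by rw [qL_one, mul_one]⟩

theorem hasQL_const (c : ℂ) : HasQL (fun _ => c) (algebraMap ℂ (LaurentSeries ℂ) c) := by
  have h := hasQL_nice (algebraMap ℂ niceSub c)
  rwa [qL_algebraMap] at h

theorem hasQL_zero : HasQL 0 0 := by
  have h : HasQL (0 : ℍ → ℂ) (algebraMap ℂ (LaurentSeries ℂ) 0) := hasQL_const 0
  rwa [map_zero] at h

theorem hasQL_one : HasQL 1 1 := by
  have h : HasQL (1 : ℍ → ℂ) (algebraMap ℂ (LaurentSeries ℂ) 1) := hasQL_const 1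
  rwa [map_one] at h

theorem HasQL.add {f₁ f₂ : ℍ → ℂ} {L₁ L₂ : LaurentSeries ℂ} (h₁ : HasQL f₁ L₁)
    (h₂ : HasQL f₂ L₂) : HasQL (f₁ + f₂) (L₁ + L₂) := by
  obtain ⟨g₁, k₁, hk₁, hf₁, hL₁⟩ := h₁
  obtain ⟨g₂, k₂, hk₂, hf₂, hL₂⟩ := h₂
  refine ⟨g₁ * k₂ + g₂ * k₁, k₁ * k₂, fun z => mul_ne_zero (hk₁ z) (hk₂ z), fun z => ?_, ?_⟩
  · have e1 := hf₁ z
    have e2 := hf₂ z
    show (f₁ z + f₂ z) * ((k₁ : ℍ → ℂ) z * (k₂ : ℍ → ℂ) z) =
      (g₁ : ℍ → ℂ) z * (k₂ : ℍ → ℂ) z + (g₂ : ℍ → ℂ) z * (k₁ : ℍ → ℂ) z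
    rw [← e1, ← e2]
    ring
  · rw [qL_add, qL_mul, qL_mul, qL_mul, ← hL₁, ← hL₂]
    ring

theorem HasQL.mul {f₁ f₂ : ℍ → ℂ} {L₁ L₂ : LaurentSeries ℂ} (h₁ : HasQL f₁ L₁)
    (h₂ : HasQL f₂ L₂) : HasQL (f₁ * f₂) (L₁ * L₂) := by
  obtain ⟨g₁, k₁, hk₁, hf₁, hL₁⟩ := h₁
  obtain ⟨g₂, k₂, hk₂, hf₂, hL₂⟩ := h₂
  refine ⟨g₁ * g₂, k₁ * k₂, fun z => mul_ne_zero (hk₁ z) (hk₂ z), fun z => ?_, ?_⟩
  · have e1 := hf₁ z
    have e2 := hf₂ z
    show (f₁ z * f₂ z) * ((k₁ : ℍ → ℂ) z * (k₂ : ℍ → ℂ) z) =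
      (g₁ : ℍ → ℂ) z * (g₂ : ℍ → ℂ) z
    rw [← e1, ← e2]
    ring
  · rw [qL_mul, qL_mul, ← hL₁, ← hL₂]
    ring

theorem HasQL.neg {f : ℍ → ℂ} {L : LaurentSeries ℂ} (h : HasQL f L) : HasQL (-f) (-L) := by
  have h1 := (hasQL_const (-1)).mul h
  have e1 : (fun _ : ℍ => (-1 : ℂ)) * f = -f := by
    ext z
    simp
  have e2 : algebraMap ℂ (LaurentSeries ℂ) (-1) * L = -L := by
    rw [map_neg, map_one]
    exact neg_one_mul L
  rwa [e1, e2] at h1

theorem HasQL.sub {f₁ f₂ : ℍ → ℂ} {L₁ L₂ : LaurentSeries ℂ} (h₁ : HasQL f₁ L₁)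
    (h₂ : HasQL f₂ L₂) : HasQL (f₁ - f₂) (L₁ - L₂) := by
  simpa [sub_eq_add_neg] using h₁.add h₂.neg

theorem HasQL.pow {f : ℍ → ℂ} {L : LaurentSeries ℂ} (h : HasQL f L) (n : ℕ) :
    HasQL (f ^ n) (L ^ n) := by
  induction n with
  | zero => simpa using hasQL_one
  | succ n ih => rw [pow_succ, pow_succ]; exact ih.mul h

theorem HasQL.eq_zero_iff {f : ℍ → ℂ} {L : LaurentSeries ℂ} (h : HasQL f L) : f = 0 ↔ L = 0 := by
  obtain ⟨g, k, hk, hf, hL⟩ := h
  constructor
  · intro h0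
    have hg : g = 0 := by
      apply Subtype.ext
      funext z
      rw [← hf z, h0]
      simp
    rw [hg, qL_zero] at hL
    exact (mul_eq_zero.mp hL).resolve_right (qL_ne_zero hk)
  · intro h0
    rw [h0, zero_mul] at hL
    have hg : g = 0 := qL_injective (hL.symm.trans qL_zero.symm)
    funext z
    have e := hf z
    rw [hg] at e
    exact (mul_eq_zero.mp e).resolve_right (hk z)

theorem HasQL.series_unique {f : ℍ → ℂ} {L L' : LaurentSeries ℂ} (h : HasQL f L)
    (h' : HasQL f L') : L = L' := by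
  have h1 := (h.sub h').eq_zero_iff.mp (sub_self f)
  exact sub_eq_zero.mp h1

theorem HasQL.fun_unique {f f' : ℍ → ℂ} {L : LaurentSeries ℂ} (h : HasQL f L)
    (h' : HasQL f' L) : f = f' := by
  have h1 := (h.sub h').eq_zero_iff.mpr (sub_self L)
  exact sub_eq_zero.mp h1

theorem HasQL.mdifferentiable {f : ℍ → ℂ} {L : LaurentSeries ℂ} (h : HasQL f L) :
    MDifferentiable 𝓘(ℂ) 𝓘(ℂ) f := by
  obtain ⟨g, k, hk, hf, -⟩ := h
  rw [← JN.holo_iff_mdiff]
  have hg : JN.Holo (g : ℍ → ℂ) := JN.holo_iff_mdiff.mpr g.2.hol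
  have hk' : JN.Holo (k : ℍ → ℂ) := JN.holo_iff_mdiff.mpr k.2.hol
  have e : f ∘ ofComplex =
      fun w => ((g : ℍ → ℂ) ∘ ofComplex) w / ((k : ℍ → ℂ) ∘ ofComplex) w := by
    funext w
    simp only [Function.comp_apply]
    rw [← hf, mul_div_cancel_right₀ _ (hk _)]
  unfold JN.Holo
  rw [e]
  exact hg.div hk' (fun w _ => hk _)

/-! ### The Laurent expansion of `z ↦ j (d z)` -/

theorem coeffMap_ofPowerSeries {R S : Type*} [CommRing R] [CommRing S] (f : R →+* S)
    (p : PowerSeries R) :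
    ModularCurve.coeffMap f (HahnSeries.ofPowerSeries ℤ R p) =
      HahnSeries.ofPowerSeries ℤ S (PowerSeries.map f p) := by
  ext k
  rw [ModularCurve.coeffMap_coeff]
  rcases lt_or_ge k 0 with hk | hk
  · rw [ModularCurve.ofPowerSeries_coeff_of_neg _ hk, ModularCurve.ofPowerSeries_coeff_of_neg _ hk,
      map_zero]
  · lift k to ℕ using hk
    rw [HahnSeries.ofPowerSeries_apply_coeff, HahnSeries.ofPowerSeries_apply_coeff,
      PowerSeries.coeff_map]

theorem coeffMap_qExpand {R S : Type*} [CommRing R] [CommRing S] (f : R →+* S) (d : ℕ) [NeZero d]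
    (x : LaurentSeries R) :
    ModularCurve.coeffMap f (ModularCurve.qExpand R d x) =
      ModularCurve.qExpand S d (ModularCurve.coeffMap f x) := by
  ext k
  rw [ModularCurve.coeffMap_coeff]
  by_cases hk : (d : ℤ) ∣ k
  · obtain ⟨m, rfl⟩ := hk
    rw [ModularCurve.qExpand_coeff_mul, ModularCurve.qExpand_coeff_mul,
      ModularCurve.coeffMap_coeff]
  · rw [ModularCurve.qExpand_coeff_of_not_dvd d _ hk, ModularCurve.qExpand_coeff_of_not_dvd d _ hk,
      map_zero]

/-- The substitution `q ↦ q ^ d` on formal power series. -/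
def dilPS {R : Type*} [CommRing R] (d : ℕ) (P : PowerSeries R) : PowerSeries R :=
  PowerSeries.mk fun n => if d ∣ n then PowerSeries.coeff (n / d) P else 0

theorem qExpand_ofPowerSeries {R : Type*} [CommRing R] (d : ℕ) [NeZero d] (P : PowerSeries R) :
    ModularCurve.qExpand R d (HahnSeries.ofPowerSeries ℤ R P) =
      HahnSeries.ofPowerSeries ℤ R (dilPS d P) := by
  ext k
  by_cases hk : (d : ℤ) ∣ k
  · obtain ⟨m, rfl⟩ := hk
    rw [ModularCurve.qExpand_coeff_mul]
    rcases lt_or_ge m 0 with hm | hm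
    · have h' : (d : ℤ) * m < 0 :=
        mul_neg_of_pos_of_neg (by exact_mod_cast NeZero.pos d) hm
      rw [ModularCurve.ofPowerSeries_coeff_of_neg _ hm,
        ModularCurve.ofPowerSeries_coeff_of_neg _ h']
    · lift m to ℕ using hm
      rw [HahnSeries.ofPowerSeries_apply_coeff]
      have h' : ((d : ℤ) * (m : ℤ)) = ((d * m : ℕ) : ℤ) := by push_cast; ring
      rw [h', HahnSeries.ofPowerSeries_apply_coeff, dilPS, PowerSeries.coeff_mk,
        if_pos (dvd_mul_right d m), Nat.mul_div_cancel_left m (NeZero.pos d)]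
  · rw [ModularCurve.qExpand_coeff_of_not_dvd d _ hk]
    rcases lt_or_ge k 0 with hk0 | hk0
    · rw [ModularCurve.ofPowerSeries_coeff_of_neg _ hk0]
    · lift k to ℕ using hk0
      rw [HahnSeries.ofPowerSeries_apply_coeff, dilPS, PowerSeries.coeff_mk, if_neg]
      intro h
      exact hk (by exact_mod_cast h)

theorem qExpansion_dilate (d : ℕ) [NeZero d] {k : ℤ} (F : ModularForm 𝒮ℒ k) :
    qExpansion 1 (Dilate.dilate d F) = dilPS d (qExpansion 1 F) := by
  ext n
  rw [Dilate.coeff_qExpansion_dilate, dilPS, PowerSeries.coeff_mk]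

/-- The formal identity `jq * Δ = E₄ ^ 3` between Laurent series over `ℂ`. -/
theorem coeffEmb_jq_mul :
    ModularCurve.coeffEmb ℂ ModularCurve.jq *
        HahnSeries.ofPowerSeries ℤ ℂ (qExpansion 1 UV.DeltaMF) =
      HahnSeries.ofPowerSeries ℤ ℂ (qExpansion 1 UV.E4cube) := by
  have hΔ : qExpansion 1 UV.DeltaMF =
      PowerSeries.X * PowerSeries.map (Int.castRingHom ℂ) ModularCurve.dedekindEtaUnit :=
    Bridge.qExpansion_discriminant
  have hE : qExpansion 1 UV.E4cube =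
      (PowerSeries.map (Int.castRingHom ℂ) ModularCurve.eisenstein4) ^ 3 := by
    have h : (⇑UV.E4cube : ℍ → ℂ) = LevelOne.monoFun 3 0 :=
      LevelOne.coe_monoForm (k := 12) 3 0 (by norm_num)
    rw [h, LevelOne.qExpansion_monoFun, pow_zero, mul_one, Bridge.qExpansion_E4]
  have hj : ModularCurve.coeffEmb ℂ ModularCurve.jq = HahnSeries.single (-1 : ℤ) (1 : ℂ) *
      HahnSeries.ofPowerSeries ℤ ℂ (PowerSeries.map (Int.castRingHom ℂ) ModularCurve.jNum) := by
    rw [ModularCurve.jq, map_mul, ModularCurve.coeffEmb, ModularCurve.coeffMap_single, map_one,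
      coeffMap_ofPowerSeries, ModularCurve.jNumQ]
    congr 2
  have h1 : HahnSeries.single (-1 : ℤ) (1 : ℂ) * HahnSeries.single (1 : ℤ) (1 : ℂ) = 1 := by
    rw [HahnSeries.single_mul_single]
    simp
  have h2 : PowerSeries.map (Int.castRingHom ℂ) ModularCurve.dedekindEtaUnit *
      PowerSeries.map (Int.castRingHom ℂ) ModularCurve.dedekindEtaUnitInv = 1 := by
    rw [← map_mul, ModularCurve.dedekindEtaUnit_mul_inv, map_one]
  rw [hj, hΔ, hE, ModularCurve.jNum, map_mul (PowerSeries.map (Int.castRingHom ℂ)), map_pow,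
    map_mul (HahnSeries.ofPowerSeries ℤ ℂ), map_mul (HahnSeries.ofPowerSeries ℤ ℂ),
    HahnSeries.ofPowerSeries_X]
  have h3 := congrArg (HahnSeries.ofPowerSeries ℤ ℂ) h2
  rw [map_mul, map_one] at h3
  linear_combination
    (HahnSeries.ofPowerSeries ℤ ℂ ((PowerSeries.map (Int.castRingHom ℂ) ModularCurve.eisenstein4) ^ 3)
      * HahnSeries.ofPowerSeries ℤ ℂ (PowerSeries.map (Int.castRingHom ℂ) ModularCurve.dedekindEtaUnit)
      * HahnSeries.ofPowerSeries ℤ ℂ (PowerSeries.map (Int.castRingHom ℂ) ModularCurve.dedekindEtaUnitInv)) * h1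
    + HahnSeries.ofPowerSeries ℤ ℂ ((PowerSeries.map (Int.castRingHom ℂ) ModularCurve.eisenstein4) ^ 3) * h3

/-- (B3) The function `z ↦ j (d z)` has Laurent expansion `jq (q ^ d)`. -/
theorem hasQL_jN (d : ℕ) [NeZero d] :
    HasQL (JN.jN d) (ModularCurve.coeffEmb ℂ (ModularCurve.qExpand ℚ d ModularCurve.jq)) := by
  refine ⟨⟨UV.uForm d, nice_gamma0 _⟩, ⟨UV.vForm d, nice_gamma0 _⟩,
    fun z => UV.vForm_ne_zero d z, fun z => ?_, ?_⟩
  · show JN.jN d z * UV.vForm d z = UV.uForm d z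
    rw [Dist.jN_eq_uForm_div_vForm, div_mul_cancel₀ _ (UV.vForm_ne_zero d z)]
  · show _ * HahnSeries.ofPowerSeries ℤ ℂ (qExpansion 1 (UV.vForm d)) =
      HahnSeries.ofPowerSeries ℤ ℂ (qExpansion 1 (UV.uForm d))
    rw [UV.uForm, UV.vForm, qExpansion_dilate, qExpansion_dilate, ← qExpand_ofPowerSeries,
      ← qExpand_ofPowerSeries, ← coeffEmb_jq_mul, map_mul]
    congr 1
    exact coeffMap_qExpand _ d _

/-! ### Polynomial expressions -/

theorem HasQL.sum {ι : Type*} (s : Finset ι) {f : ι → ℍ → ℂ} {L : ι → LaurentSeries ℂ}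
    (h : ∀ i ∈ s, HasQL (f i) (L i)) : HasQL (∑ i ∈ s, f i) (∑ i ∈ s, L i) := by
  classical
  induction s using Finset.induction_on with
  | empty => simpa using hasQL_zero
  | insert a s ha ih =>
    rw [Finset.sum_insert ha, Finset.sum_insert ha]
    exact (h a (Finset.mem_insert_self a s)).add
      (ih fun i hi => h i (Finset.mem_insert_of_mem hi))

theorem hasQL_mvAeval {ι : Type*} (P : MvPolynomial ι ℂ) {f : ι → ℍ → ℂ}
    {L : ι → LaurentSeries ℂ} (h : ∀ i, HasQL (f i) (L i)) :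
    HasQL (MvPolynomial.aeval f P) (MvPolynomial.aeval L P) := by
  induction P using MvPolynomial.induction_on with
  | C c =>
    rw [MvPolynomial.aeval_C, MvPolynomial.aeval_C]
    exact hasQL_const c
  | add p q hp hq =>
    rw [map_add, map_add]
    exact hp.add hq
  | mul_X p i hp =>
    rw [map_mul, map_mul, MvPolynomial.aeval_X, MvPolynomial.aeval_X]
    exact hp.mul (h i)

theorem hasQL_aeval (P : Polynomial ℂ) {f : ℍ → ℂ} {L : LaurentSeries ℂ} (h : HasQL f L) :
    HasQL (Polynomial.aeval f P) (Polynomial.aeval L P) := by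
  induction P using Polynomial.induction_on' with
  | add p q hp hq =>
    rw [map_add, map_add]
    exact hp.add hq
  | monomial n c =>
    rw [Polynomial.aeval_monomial, Polynomial.aeval_monomial]
    exact (hasQL_const c).mul (h.pow n)

theorem mvAeval_apply {ι : Type*} (P : MvPolynomial ι ℂ) (f : ι → ℍ → ℂ) (z : ℍ) :
    MvPolynomial.aeval f P z = MvPolynomial.eval (fun i => f i z) P := by
  induction P using MvPolynomial.induction_on with
  | C c => simp
  | add p q hp hq => simp [hp, hq]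
  | mul_X p i hp => simp [hp]

theorem aeval_apply (P : Polynomial ℂ) (f : ℍ → ℂ) (z : ℍ) :
    Polynomial.aeval f P z = P.eval (f z) := by
  simp

/-- (J5) Kernel equality: a polynomial relation between the Laurent series `jq (q ^ d)` holds iff
it holds between the functions `z ↦ j (d z)`. -/
theorem mvAeval_jq_eq_zero_iff {ι : Type*} (P : MvPolynomial ι ℂ) (d : ι → ℕ)
    [∀ i, NeZero (d i)] :
    MvPolynomial.aeval
        (fun i => ModularCurve.coeffEmb ℂ (ModularCurve.qExpand ℚ (d i) ModularCurve.jq)) P = 0 ↔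
      ∀ z : ℍ, MvPolynomial.eval (fun i => JN.jN (d i) z) P = 0 := by
  have h := (hasQL_mvAeval P (f := fun i => JN.jN (d i))
    (L := fun i => ModularCurve.coeffEmb ℂ (ModularCurve.qExpand ℚ (d i) ModularCurve.jq))
    (fun i => hasQL_jN (d i))).eq_zero_iff
  rw [← h]
  constructor
  · intro h0 z
    rw [← mvAeval_apply, h0]
    rfl
  · intro h0
    funext z
    rw [mvAeval_apply, h0 z]
    rfl

end Fermat.Agent.S24.QL

end
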