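/-
S24, piece T2 ("MERO"), part 1: the ring of holomorphic functions on the upper half plane all of
whose `SL(2, ℤ)`-translates are `N`-periodic and meromorphic at the cusp in the coordinate
`q_N = exp (2 π i z / N)`.  It is an `SL(2, ℤ)`-stable integral domain containing the constants and
all the functions `z ↦ j (d z)`, `d ∣ N`.
-/
import Mathlib
import Fermat.Agent.S23.JN

set_option autoImplicit false

noncomputable section

open UpperHalfPlane Filter Topology Function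
open scoped MatrixGroups ModularForm Manifold Real

namespace Fermat.Agent.S24.Mero

open Fermat.Agent.S23

/-! ### The chart at the cusp -/

/-- The chart at the cusp: `chartInf N q` is a point `z` with `exp (2 π i z / N) = q`. -/
def chartInf (N : ℕ) (q : ℂ) : ℍ := ofComplex (Function.Periodic.invQParam N q)

/-- A function on the upper half plane read in the chart at the cusp. -/
def cuspFn (N : ℕ) (f : ℍ → ℂ) : ℂ → ℂ := fun q => f (chartInf N q)

theorem natCast_pos_real (N : ℕ) [NeZero N] : (0 : ℝ) < (N : ℝ) := by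
  exact_mod_cast Nat.pos_of_ne_zero (NeZero.ne N)

theorem chartInf_coe {N : ℕ} [NeZero N] {q : ℂ} (hq : ‖q‖ < 1) (hq0 : q ≠ 0) :
    (chartInf N q : ℂ) = Function.Periodic.invQParam N q := by
  rw [chartInf, ofComplex_apply_of_im_pos
    (Function.Periodic.im_invQParam_pos_of_norm_lt_one (natCast_pos_real N) hq hq0)]

theorem qParam_chartInf {N : ℕ} [NeZero N] {q : ℂ} (hq : ‖q‖ < 1) (hq0 : q ≠ 0) :
    Function.Periodic.qParam N (chartInf N q : ℂ) = q := by
  rw [chartInf_coe hq hq0]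
  exact Function.Periodic.qParam_right_inv (natCast_pos_real N).ne' hq0

theorem tendsto_chartInf (N : ℕ) [NeZero N] : Tendsto (chartInf N) (𝓝[≠] 0) atImInfty :=
  tendsto_comap_im_ofComplex.comp (Function.Periodic.invQParam_tendsto (natCast_pos_real N))

theorem eventually_punctured_norm_lt_one : ∀ᶠ q : ℂ in 𝓝[≠] 0, ‖q‖ < 1 ∧ q ≠ 0 := by
  have h1 : ∀ᶠ q : ℂ in 𝓝 0, ‖q‖ < 1 := by
    have : Metric.ball (0 : ℂ) 1 ∈ 𝓝 (0 : ℂ) := Metric.ball_mem_nhds 0 one_pos
    filter_upwards [this] with q hq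
    simpa using hq
  filter_upwards [eventually_nhdsWithin_of_eventually_nhds h1, self_mem_nhdsWithin] with q h1 h2
  exact ⟨h1, h2⟩

theorem vadd_int_mul {N : ℕ} {f : ℍ → ℂ} (hf : ∀ z : ℍ, f ((N : ℝ) +ᵥ z) = f z) (m : ℤ)
    (z : ℍ) : f (((m : ℝ) * (N : ℝ)) +ᵥ z) = f z := by
  induction m using Int.induction_on with
  | zero => simp
  | succ k ih =>
    have h2 : ((((k : ℤ) + 1 : ℤ) : ℝ) * (N : ℝ)) +ᵥ z
        = (N : ℝ) +ᵥ ((((k : ℤ) : ℝ) * (N : ℝ)) +ᵥ z) := by
      rw [vadd_vadd]; congr 1; push_cast; ring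
    rw [h2, hf, ih]
  | pred k ih =>
    have h2 : (N : ℝ) +ᵥ (((((-(k : ℤ) - 1 : ℤ)) : ℝ) * (N : ℝ)) +ᵥ z)
        = ((((-(k : ℤ) : ℤ)) : ℝ) * (N : ℝ)) +ᵥ z := by
      rw [vadd_vadd]; congr 1; push_cast; ring
    rw [← hf, h2, ih]

/-- An `N`-periodic function is recovered from its cusp function. -/
theorem cuspFn_qParam {N : ℕ} [NeZero N] {f : ℍ → ℂ} (hf : ∀ z : ℍ, f ((N : ℝ) +ᵥ z) = f z)
    (z : ℍ) : cuspFn N f (Function.Periodic.qParam N z) = f z := by
  obtain ⟨m, hm⟩ := Function.Periodic.qParam_left_inv_mod_period (h := (N : ℝ))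
    (natCast_pos_real N).ne' (z : ℂ)
  have : chartInf N (Function.Periodic.qParam N z) = (((m : ℝ) * (N : ℝ)) +ᵥ z) := by
    apply UpperHalfPlane.ext
    have him : 0 < ((z : ℂ) + m * (N : ℝ)).im := by
      simpa using z.im_pos
    rw [chartInf, hm, ofComplex_apply_of_im_pos him, coe_vadd]
    push_cast
    ring
  rw [cuspFn, this, vadd_int_mul hf]

/-! ### The `j`-function at the cusp -/

theorem jFun_vadd_one (z : ℍ) : JN.jFun ((1 : ℝ) +ᵥ z) = JN.jFun z := by
  have := JN.jFun_smul ModularGroup.T z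
  rwa [modular_T_smul] at this

theorem jFun_vadd_int (m : ℤ) (z : ℍ) : JN.jFun ((m : ℝ) +ᵥ z) = JN.jFun z := by
  have := JN.jFun_smul (ModularGroup.T ^ m) z
  rwa [modular_T_zpow_smul] at this

/-- The `j`-function as a function of `q = exp (2 π i z)`. -/
def J1 : ℂ → ℂ := cuspFn 1 JN.jFun

theorem J1_qParam (z : ℍ) : J1 (Function.Periodic.qParam 1 z) = JN.jFun z := by
  have h := cuspFn_qParam (N := 1) (f := JN.jFun) (fun z => by simpa using jFun_vadd_one z) z
  simpa [J1] using h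

theorem meromorphicAt_J1 : MeromorphicAt J1 0 := by
  have h4 : AnalyticAt ℂ (cuspFunction 1 ModularForm.E₄) 0 :=
    ModularFormClass.analyticAt_cuspFunction_zero ModularForm.E₄ one_pos one_mem_strictPeriods_SL
  have hΔ : AnalyticAt ℂ (cuspFunction 1 CuspForm.discriminant) 0 :=
    ModularFormClass.analyticAt_cuspFunction_zero CuspForm.discriminant one_pos
      one_mem_strictPeriods_SL
  have hmer : MeromorphicAt (fun q => cuspFunction 1 ModularForm.E₄ q ^ 3
      / cuspFunction 1 CuspForm.discriminant q) 0 :=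
    (h4.meromorphicAt.pow 3).div hΔ.meromorphicAt
  refine hmer.congr ?_
  filter_upwards [self_mem_nhdsWithin] with q hq
  have hq0 : q ≠ 0 := hq
  simp only [J1, cuspFn, chartInf, JN.jFun, cuspFunction,
    Function.Periodic.cuspFunction_eq_of_nonzero _ _ hq0, Function.comp_apply, Nat.cast_one,
    CuspForm.coe_discriminant]

theorem tendsto_J1_mul : Tendsto (fun q => J1 q * q) (𝓝[≠] 0) (𝓝 1) := by
  have h := JN.tendsto_jFun_mul_q.comp (tendsto_chartInf 1)
  refine h.congr' ?_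
  filter_upwards [eventually_punctured_norm_lt_one] with q hq
  have := qParam_chartInf (N := 1) hq.1 hq.2
  simp only [Nat.cast_one] at this
  simp only [Function.comp_apply, this, J1, cuspFn]

theorem meromorphicOrderAt_J1 : meromorphicOrderAt J1 0 = (-1 : ℤ) := by
  have hid : MeromorphicAt (fun q : ℂ => q) 0 := MeromorphicAt.id 0
  have hmul : MeromorphicAt (fun q => J1 q * q) 0 := meromorphicAt_J1.mul hid
  have h0 : meromorphicOrderAt (fun q => J1 q * q) 0 = 0 :=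
    (tendsto_ne_zero_iff_meromorphicOrderAt_eq_zero hmul).mp ⟨1, one_ne_zero, tendsto_J1_mul⟩
  have h1 : meromorphicOrderAt (fun q => J1 q * q) 0
      = meromorphicOrderAt J1 0 + meromorphicOrderAt (fun q : ℂ => q) 0 :=
    meromorphicOrderAt_mul meromorphicAt_J1 hid
  have h2 : meromorphicOrderAt (fun q : ℂ => q) (0 : ℂ) = (1 : ℤ) := by
    exact meromorphicOrderAt_id (𝕜 := ℂ)
  rw [h0, h2] at h1
  cases hJ : meromorphicOrderAt J1 0 with
  | top => rw [hJ] at h1; simp at h1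
  | coe n =>
    rw [hJ] at h1
    have h3 : ((0 : ℤ) : WithTop ℤ) = ((n + 1 : ℤ) : WithTop ℤ) := by
      rw [WithTop.coe_add]; exact h1
    have h4 : (0 : ℤ) = n + 1 := WithTop.coe_injective h3
    have h5 : n = -1 := by omega
    rw [h5]

/-! ### `j ∘ aff` at the cusp -/

theorem jFun_aff_vadd {N A D : ℕ} (hA : 0 < A) (hD : 0 < D) (hDN : D ∣ N) (B : ℤ) (z : ℍ) :
    JN.jFun (JN.aff ((A : ℝ) / D) ((B : ℝ) / D) ((N : ℝ) +ᵥ z))
      = JN.jFun (JN.aff ((A : ℝ) / D) ((B : ℝ) / D) z) := by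
  obtain ⟨E, rfl⟩ := hDN
  have ha : (0 : ℝ) < (A : ℝ) / D := div_pos (by exact_mod_cast hA) (by exact_mod_cast hD)
  have hD0 : (D : ℂ) ≠ 0 := by exact_mod_cast hD.ne'
  have : JN.aff ((A : ℝ) / D) ((B : ℝ) / D) (((D * E : ℕ) : ℝ) +ᵥ z)
      = (((A * E : ℕ) : ℤ) : ℝ) +ᵥ JN.aff ((A : ℝ) / D) ((B : ℝ) / D) z := by
    apply UpperHalfPlane.ext
    rw [JN.coe_aff ha, coe_vadd, coe_vadd, JN.coe_aff ha]
    push_cast
    field_simp
    ring
  rw [this, jFun_vadd_int]

/-- `j ∘ aff (A/D) (B/D)` in the chart at the cusp of width `N` (for `D ∣ N`) is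
`q ↦ J1 (c q ^ k)`. -/
theorem cuspFn_jFun_aff {N : ℕ} [NeZero N] {A D : ℕ} (hA : 0 < A) (hD : 0 < D) (hDN : D ∣ N)
    (B : ℤ) :
    cuspFn N (fun z => JN.jFun (JN.aff ((A : ℝ) / D) ((B : ℝ) / D) z))
      =ᶠ[𝓝[≠] 0] fun q => J1 (Complex.exp (2 * π * Complex.I * B / D) * q ^ (A * (N / D))) := by
  filter_upwards [eventually_punctured_norm_lt_one] with q hq
  obtain ⟨E, hE⟩ := hDN
  have ha : (0 : ℝ) < (A : ℝ) / D := div_pos (by exact_mod_cast hA) (by exact_mod_cast hD)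
  have hD0 : (D : ℂ) ≠ 0 := by exact_mod_cast hD.ne'
  have hN0 : (N : ℂ) ≠ 0 := by exact_mod_cast NeZero.ne N
  have hk : A * (N / D) = A * E := by rw [hE, Nat.mul_div_cancel_left _ hD]
  have hq' : q ^ (A * E) = Complex.exp (((A * E : ℕ) : ℂ) * Complex.log q) := by
    rw [Complex.exp_nat_mul, Complex.exp_log hq.2]
  simp only [cuspFn]
  rw [← J1_qParam]
  congr 1
  rw [JN.coe_aff ha, chartInf_coe hq.1 hq.2, hk, hq', ← Complex.exp_add]
  simp only [Function.Periodic.qParam, Function.Periodic.invQParam]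
  congr 1
  have hpi : (2 * (π : ℂ) * Complex.I) ≠ 0 := Complex.two_pi_I_ne_zero
  rw [hE]
  push_cast
  field_simp
  ring

theorem meromorphicAt_J1_comp (c : ℂ) {k : ℕ} (hk : 0 < k) :
    MeromorphicAt (fun q => J1 (c * q ^ k)) 0 := by
  have hg : AnalyticAt ℂ (fun q : ℂ => c * q ^ k) 0 := by fun_prop
  have h0 : c * (0 : ℂ) ^ k = 0 := by simp [hk.ne']
  have := MeromorphicAt.comp_analyticAt (f := J1) (g := fun q : ℂ => c * q ^ k) (x := 0)
    (by show MeromorphicAt J1 (c * (0 : ℂ) ^ k); rw [h0]; exact meromorphicAt_J1) hg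
  exact this

theorem meromorphicOrderAt_J1_comp {c : ℂ} (hc : c ≠ 0) {k : ℕ} (hk : 0 < k) :
    meromorphicOrderAt (fun q => J1 (c * q ^ k)) 0 = (-(k : ℤ) : ℤ) := by
  have hg : AnalyticAt ℂ (fun q : ℂ => c * q ^ k) 0 := by fun_prop
  have h0 : c * (0 : ℂ) ^ k = 0 := by simp [hk.ne']
  have hord : analyticOrderAt (fun q : ℂ => c * q ^ k - c * (0 : ℂ) ^ k) 0 = k := by
    rw [h0]
    have : (fun q : ℂ => c * q ^ k - 0) = fun q : ℂ => (q - 0) ^ k • (fun _ : ℂ => c) q := by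
      funext q; simp [mul_comm]
    rw [this]
    exact (AnalyticAt.analyticOrderAt_eq_natCast (by rw [← this]; fun_prop)).mpr
      ⟨fun _ => c, analyticAt_const, hc, Filter.Eventually.of_forall fun q => rfl⟩
  have hnc : ¬ EventuallyConst (fun q : ℂ => c * q ^ k) (𝓝 0) := by
    rw [eventuallyConst_iff_analyticOrderAt_sub_eq_top]
    show ¬ analyticOrderAt (fun q : ℂ => c * q ^ k - c * (0 : ℂ) ^ k) 0 = ⊤
    rw [hord]
    exact ENat.natCast_ne_top k
  have := MeromorphicAt.meromorphicOrderAt_comp (f := J1) (g := fun q : ℂ => c * q ^ k) (x := 0)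
    (by show MeromorphicAt J1 (c * (0 : ℂ) ^ k); rw [h0]; exact meromorphicAt_J1) hg hnc
  rw [Function.comp_def] at this
  rw [this]
  show meromorphicOrderAt J1 (c * (0 : ℂ) ^ k)
    * ENat.map Nat.cast (analyticOrderAt (fun q : ℂ => c * q ^ k - c * (0 : ℂ) ^ k) 0) = _
  rw [hord, h0, meromorphicOrderAt_J1]
  simp only [ENat.map_natCast]
  rw [← WithTop.coe_mul]
  congr 1
  ring

/-! ### The ring -/

/-- `f` is holomorphic on the upper half plane and all its `SL(2, ℤ)`-translates are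
`N`-periodic and meromorphic at the cusp. -/
def IsMod (N : ℕ) (f : ℍ → ℂ) : Prop :=
  JN.Holo f ∧ ∀ γ : SL(2, ℤ),
    (∀ z : ℍ, f (γ • ((N : ℝ) +ᵥ z)) = f (γ • z)) ∧
      MeromorphicAt (cuspFn N (fun z => f (γ • z))) 0

theorem isMod_const (N : ℕ) (c : ℂ) : IsMod N (fun _ => c) := by
  refine ⟨?_, fun γ => ⟨fun z => rfl, ?_⟩⟩
  · exact differentiableOn_const (c := c)
  · exact MeromorphicAt.const c 0

theorem IsMod.add {N : ℕ} {f g : ℍ → ℂ} (hf : IsMod N f) (hg : IsMod N g) : IsMod N (f + g) := by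
  refine ⟨?_, fun γ => ⟨fun z => ?_, ?_⟩⟩
  · exact hf.1.add hg.1
  · simp only [Pi.add_apply, (hf.2 γ).1 z, (hg.2 γ).1 z]
  · exact (hf.2 γ).2.add (hg.2 γ).2

theorem IsMod.mul {N : ℕ} {f g : ℍ → ℂ} (hf : IsMod N f) (hg : IsMod N g) : IsMod N (f * g) := by
  refine ⟨?_, fun γ => ⟨fun z => ?_, ?_⟩⟩
  · exact hf.1.mul hg.1
  · simp only [Pi.mul_apply, (hf.2 γ).1 z, (hg.2 γ).1 z]
  · exact (hf.2 γ).2.mul (hg.2 γ).2

theorem IsMod.neg {N : ℕ} {f : ℍ → ℂ} (hf : IsMod N f) : IsMod N (-f) := by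
  refine ⟨?_, fun γ => ⟨fun z => ?_, ?_⟩⟩
  · exact hf.1.neg
  · simp only [Pi.neg_apply, (hf.2 γ).1 z]
  · exact (hf.2 γ).2.neg

theorem holo_comp_smul {f : ℍ → ℂ} (hf : JN.Holo f) (γ : SL(2, ℤ)) :
    JN.Holo (fun z => f (γ • z)) := by
  rw [JN.holo_iff_mdiff] at hf ⊢
  have hg : 0 < (Matrix.SpecialLinearGroup.mapGL ℝ γ).det.val := by
    rw [Matrix.SpecialLinearGroup.det_mapGL]; simp
  exact hf.comp (mdifferentiable_smul hg)

theorem IsMod.comp_smul {N : ℕ} {f : ℍ → ℂ} (hf : IsMod N f) (γ₀ : SL(2, ℤ)) :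
    IsMod N (fun z => f (γ₀ • z)) := by
  refine ⟨holo_comp_smul hf.1 γ₀, fun γ => ⟨fun z => ?_, ?_⟩⟩
  · have := (hf.2 (γ₀ * γ)).1 z
    simpa only [mul_smul] using this
  · have := (hf.2 (γ₀ * γ)).2
    simpa only [mul_smul] using this

theorem isMod_jN {N d : ℕ} [NeZero N] (hd : d ∣ N) : IsMod N (JN.jN d) := by
  have : NeZero d := ⟨ne_zero_of_dvd_ne_zero (NeZero.ne N) hd⟩
  refine ⟨JN.holo_jN d, fun γ => ?_⟩
  obtain ⟨A, D, B, -, hA, hD, hAD, -, hz⟩ := JN.exists_aff_of_smul d γ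
  have hDN : D ∣ N := (Dvd.intro_left A hAD).trans hd
  have hND : 0 < N / D := Nat.div_pos (Nat.le_of_dvd (Nat.pos_of_ne_zero (NeZero.ne N)) hDN) hD
  constructor
  · intro z
    rw [hz, hz, jFun_aff_vadd hA hD hDN]
  · have : (fun z => JN.jN d (γ • z))
        = fun z => JN.jFun (JN.aff ((A : ℝ) / D) ((B : ℝ) / D) z) := funext hz
    rw [this]
    exact (meromorphicAt_J1_comp _ (Nat.mul_pos hA hND)).congr (cuspFn_jFun_aff hA hD hDN B).symm

theorem jN_one : JN.jN 1 = JN.jFun := by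
  funext z
  have : JN.dil 1 z = z := by
    apply UpperHalfPlane.ext
    rw [JN.coe_dil]
    simp
  rw [JN.jN, this]

theorem isMod_jFun (N : ℕ) [NeZero N] : IsMod N JN.jFun := by
  have := isMod_jN (N := N) (one_dvd N)
  rwa [jN_one] at this

/-- The ring of holomorphic functions on `ℍ` all of whose `SL(2, ℤ)`-translates are `N`-periodic
and meromorphic at the cusp. -/
def ring (N : ℕ) : Subring (ℍ → ℂ) where
  carrier := {f | IsMod N f}
  mul_mem' hf hg := hf.mul hg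
  one_mem' := isMod_const N 1
  add_mem' hf hg := hf.add hg
  zero_mem' := isMod_const N 0
  neg_mem' hf := hf.neg

theorem mem_ring {N : ℕ} {f : ℍ → ℂ} : f ∈ ring N ↔ IsMod N f := Iff.rfl

theorem holo_of_mem {N : ℕ} (f : ring N) : JN.Holo (f : ℍ → ℂ) := f.2.1

instance instNoZeroDivisorsRing (N : ℕ) : NoZeroDivisors (ring N) where
  eq_zero_or_eq_zero_of_mul_eq_zero := by
    intro f g hfg
    by_contra hcon
    push Not at hcon
    have hf : ∃ z, (f : ℍ → ℂ) z ≠ 0 := by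
      by_contra h
      push Not at h
      exact hcon.1 (Subtype.ext (funext h))
    have hg : ∃ z, (g : ℍ → ℂ) z ≠ 0 := by
      by_contra h
      push Not at h
      exact hcon.2 (Subtype.ext (funext h))
    obtain ⟨z, hz⟩ := JN.exists_common_ne_zero (ι := Bool)
      (fun b => if b then (f : ℍ → ℂ) else (g : ℍ → ℂ))
      (fun b => by cases b <;> simp [holo_of_mem])
      (fun b => by cases b <;> simpa using ‹_›)
    have h1 := hz true
    have h2 := hz false
    simp only [if_true, Bool.false_eq_true, if_false] at h1 h2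
    have h3 : ((f * g : ring N) : ℍ → ℂ) z = 0 := by rw [hfg]; rfl
    exact mul_ne_zero h1 h2 h3

instance instNontrivialRing (N : ℕ) : Nontrivial (ring N) :=
  ⟨⟨0, 1, fun h => by
    have := congrFun (congrArg Subtype.val h) UpperHalfPlane.I
    simp at this⟩⟩

instance instIsDomainRing (N : ℕ) : IsDomain (ring N) := NoZeroDivisors.to_isDomain _

/-- Constants, as elements of the ring. -/
def const (N : ℕ) : ℂ →+* ring N where
  toFun c := ⟨fun _ => c, isMod_const N c⟩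
  map_one' := rfl
  map_mul' _ _ := rfl
  map_zero' := rfl
  map_add' _ _ := rfl

@[simp] theorem const_apply (N : ℕ) (c : ℂ) (z : ℍ) : (const N c : ℍ → ℂ) z = c := rfl

/-- `z ↦ j (d z)` as an element of the ring, for `d ∣ N`. -/
def jd (N : ℕ) [NeZero N] (d : ℕ) (hd : d ∣ N) : ring N := ⟨JN.jN d, isMod_jN hd⟩

@[simp] theorem jd_apply (N : ℕ) [NeZero N] (d : ℕ) (hd : d ∣ N) (z : ℍ) :
    (jd N d hd : ℍ → ℂ) z = JN.jN d z := rfl

/-- The `j`-function as an element of the ring. -/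
def jElt (N : ℕ) [NeZero N] : ring N := ⟨JN.jFun, isMod_jFun N⟩

@[simp] theorem jElt_apply (N : ℕ) [NeZero N] (z : ℍ) : (jElt N : ℍ → ℂ) z = JN.jFun z := rfl

theorem jd_one (N : ℕ) [NeZero N] : jd N 1 (one_dvd N) = jElt N :=
  Subtype.ext jN_one

/-! ### The action of `SL(2, ℤ)` -/

/-- `f ↦ f ∘ (γ • ·)` as a ring automorphism.  Note `act (γ * γ') f = act γ' (act γ f)`. -/
def act (N : ℕ) (γ : SL(2, ℤ)) : ring N ≃+* ring N where
  toFun f := ⟨fun z => (f : ℍ → ℂ) (γ • z), f.2.comp_smul γ⟩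
  invFun f := ⟨fun z => (f : ℍ → ℂ) (γ⁻¹ • z), f.2.comp_smul γ⁻¹⟩
  left_inv f := Subtype.ext (funext fun z => by simp)
  right_inv f := Subtype.ext (funext fun z => by simp)
  map_mul' _ _ := rfl
  map_add' _ _ := rfl

@[simp] theorem act_apply (N : ℕ) (γ : SL(2, ℤ)) (f : ring N) (z : ℍ) :
    (act N γ f : ℍ → ℂ) z = (f : ℍ → ℂ) (γ • z) := rfl

theorem act_one (N : ℕ) (f : ring N) : act N 1 f = f :=
  Subtype.ext (funext fun z => by simp)

theorem act_mul (N : ℕ) (γ γ' : SL(2, ℤ)) (f : ring N) :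
    act N (γ * γ') f = act N γ' (act N γ f) :=
  Subtype.ext (funext fun z => by simp [mul_smul])

theorem act_const (N : ℕ) (γ : SL(2, ℤ)) (c : ℂ) : act N γ (const N c) = const N c := rfl

theorem act_jElt (N : ℕ) [NeZero N] (γ : SL(2, ℤ)) : act N γ (jElt N) = jElt N :=
  Subtype.ext (funext fun z => JN.jFun_smul γ z)

theorem Gamma0_le_of_dvd {N d : ℕ} (hd : d ∣ N) :
    CongruenceSubgroup.Gamma0 N ≤ CongruenceSubgroup.Gamma0 d := by
  intro g hg
  rw [CongruenceSubgroup.Gamma0_mem] at hg ⊢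
  rw [ZMod.intCast_zmod_eq_zero_iff_dvd] at hg ⊢
  exact (Int.natCast_dvd_natCast.mpr hd).trans hg

theorem act_jd_of_mem (N : ℕ) [NeZero N] (d : ℕ) (hd : d ∣ N) {γ : SL(2, ℤ)}
    (hγ : γ ∈ CongruenceSubgroup.Gamma0 N) : act N γ (jd N d hd) = jd N d hd := by
  have : NeZero d := ⟨ne_zero_of_dvd_ne_zero (NeZero.ne N) hd⟩
  exact Subtype.ext (funext fun z => JN.jN_smul_of_mem_Gamma0 d (Gamma0_le_of_dvd hd hγ) z)

/-- The translates of `j_N` are parametrised by the cosets `Γ₀(N) γ`. -/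
theorem act_jd_self_eq_iff (N : ℕ) [NeZero N] (γ γ' : SL(2, ℤ)) :
    act N γ (jd N N dvd_rfl) = act N γ' (jd N N dvd_rfl)
      ↔ γ * γ'⁻¹ ∈ CongruenceSubgroup.Gamma0 N := by
  constructor
  · intro h
    refine JN.mem_Gamma0_of_jN_smul N _ fun z => ?_
    have := congrFun (congrArg Subtype.val h) (γ'⁻¹ • z)
    simpa [mul_smul] using this
  · intro h
    have h1 := act_jd_of_mem N N dvd_rfl h
    have h2 := congrArg (act N γ') h1
    rw [← act_mul] at h2
    simpa using h2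

end Fermat.Agent.S24.Mero
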