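/-
S24, piece T2 ("MERO"), part 2: valuations on the fraction field of `Mero.ring N` coming from a
chart (order of vanishing at a point of the upper half plane, or at the cusp), their invariance
under chart symmetries, and the leading-coefficient argument: an element fixed by a chart symmetry
with multiplier `lam` has `lam ^ ord = 1`.
-/
import Mathlib
import Fermat.Agent.S24.MeroRing

set_option autoImplicit false

noncomputable section

open UpperHalfPlane Filter Topology Function
open scoped MatrixGroups ModularForm Manifold Real WithZero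

namespace Fermat.Agent.S24.Mero

open Fermat.Agent.S23

/-! ### From orders to multiplicative valuations -/

/-- The multiplicative value attached to an order: `⊤ ↦ 0`, `n ↦ exp (-n)`. -/
def toVal (x : WithTop ℤ) : ℤᵐ⁰ := WithTop.recTopCoe 0 (fun n : ℤ => WithZero.exp (-n)) x

@[simp] theorem toVal_top : toVal ⊤ = 0 := rfl

@[simp] theorem toVal_coe (n : ℤ) : toVal (n : WithTop ℤ) = WithZero.exp (-n) := rfl

theorem toVal_eq_zero_iff {x : WithTop ℤ} : toVal x = 0 ↔ x = ⊤ := by
  induction x using WithTop.recTopCoe with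
  | top => simp
  | coe n => simp

theorem toVal_add (x y : WithTop ℤ) : toVal (x + y) = toVal x * toVal y := by
  induction x using WithTop.recTopCoe with
  | top => simp
  | coe m =>
    induction y using WithTop.recTopCoe with
    | top => simp
    | coe n =>
      rw [← WithTop.coe_add, toVal_coe, toVal_coe, toVal_coe, ← WithZero.exp_add]
      congr 1
      ring

theorem toVal_anti {x y : WithTop ℤ} (h : x ≤ y) : toVal y ≤ toVal x := by
  induction y using WithTop.recTopCoe with
  | top => simp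
  | coe n =>
    induction x using WithTop.recTopCoe with
    | top => simp at h
    | coe m =>
      rw [toVal_coe, toVal_coe, WithZero.exp_le_exp]
      have : m ≤ n := by exact_mod_cast h
      omega

theorem toVal_le_max {x y z : WithTop ℤ} (h : min x y ≤ z) : toVal z ≤ max (toVal x) (toVal y) := by
  rcases le_total x y with hxy | hxy
  · rw [min_eq_left hxy] at h
    exact (toVal_anti h).trans (le_max_left _ _)
  · rw [min_eq_right hxy] at h
    exact (toVal_anti h).trans (le_max_right _ _)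

/-! ### Charts -/

/-- A chart `χ` near `p` in which every element of `ring N` is meromorphic at `p`, and nonzero
elements do not vanish identically near `p`. -/
structure IsChart (N : ℕ) (χ : ℂ → ℍ) (p : ℂ) : Prop where
  mero : ∀ f : ring N, MeromorphicAt ((f : ℍ → ℂ) ∘ χ) p
  ne_top : ∀ f : ring N, f ≠ 0 → meromorphicOrderAt ((f : ℍ → ℂ) ∘ χ) p ≠ ⊤

variable {N : ℕ} {χ : ℂ → ℍ} {p : ℂ}

/-- The order of an element of the ring in a chart. -/
def ordRing (χ : ℂ → ℍ) (p : ℂ) (f : ring N) : WithTop ℤ :=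
  meromorphicOrderAt ((f : ℍ → ℂ) ∘ χ) p

theorem ordRing_zero : ordRing χ p (0 : ring N) = ⊤ := by
  rw [ordRing, meromorphicOrderAt_eq_top_iff]
  exact Filter.Eventually.of_forall fun z => rfl

theorem ordRing_one : ordRing χ p (1 : ring N) = 0 := by
  have : (((1 : ring N) : ℍ → ℂ) ∘ χ) = fun _ => (1 : ℂ) := rfl
  rw [ordRing, this, meromorphicOrderAt_const]
  simp

theorem ordRing_const (c : ℂ) (hc : c ≠ 0) : ordRing χ p (const N c) = 0 := by
  have : (((const N c : ring N) : ℍ → ℂ) ∘ χ) = fun _ => c := rfl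
  rw [ordRing, this, meromorphicOrderAt_const]
  simp [hc]

theorem ordRing_mul (h : IsChart N χ p) (f g : ring N) :
    ordRing χ p (f * g) = ordRing χ p f + ordRing χ p g :=
  meromorphicOrderAt_mul (h.mero f) (h.mero g)

theorem ordRing_add (h : IsChart N χ p) (f g : ring N) :
    min (ordRing χ p f) (ordRing χ p g) ≤ ordRing χ p (f + g) :=
  meromorphicOrderAt_add (h.mero f) (h.mero g)

theorem ordRing_eq_top_iff (h : IsChart N χ p) (f : ring N) : ordRing χ p f = ⊤ ↔ f = 0 := by
  constructor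
  · intro hf
    by_contra hne
    exact h.ne_top f hne hf
  · rintro rfl
    exact ordRing_zero

/-- The valuation on `ring N` attached to a chart. -/
def valRing (h : IsChart N χ p) : Valuation (ring N) ℤᵐ⁰ where
  toFun f := toVal (ordRing χ p f)
  map_zero' := by rw [ordRing_zero, toVal_top]
  map_one' := by rw [ordRing_one]; rfl
  map_mul' f g := by rw [ordRing_mul h, toVal_add]
  map_add_le_max' f g := toVal_le_max (ordRing_add h f g)

theorem valRing_apply (h : IsChart N χ p) (f : ring N) :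
    valRing h f = toVal (ordRing χ p f) := rfl

theorem valRing_eq_zero_iff (h : IsChart N χ p) (f : ring N) : valRing h f = 0 ↔ f = 0 := by
  rw [valRing_apply, toVal_eq_zero_iff, ordRing_eq_top_iff h]

/-- The fraction field of `ring N`. -/
abbrev Fld (N : ℕ) : Type := FractionRing (ring N)

theorem nonZeroDivisors_le_supp (h : IsChart N χ p) :
    nonZeroDivisors (ring N) ≤ (valRing h).supp.primeCompl := by
  intro f hf
  have hf0 : f ≠ 0 := nonZeroDivisors.ne_zero hf
  show f ∉ (valRing h).supp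
  rw [Valuation.mem_supp_iff, valRing_eq_zero_iff]
  exact hf0

/-- The valuation on the fraction field attached to a chart. -/
def val (h : IsChart N χ p) : Valuation (Fld N) ℤᵐ⁰ :=
  (valRing h).extendToLocalization (nonZeroDivisors_le_supp h) (Fld N)

theorem val_algebraMap (h : IsChart N χ p) (f : ring N) :
    val h (algebraMap (ring N) (Fld N) f) = valRing h f :=
  Valuation.extendToLocalization_apply_map_apply _ _ _ f

/-- The integer order attached to a chart (junk value `0` at `0`). -/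
def ord (h : IsChart N χ p) (y : Fld N) : ℤ := -(WithZero.log (val h y))

theorem val_eq_exp_neg_ord (h : IsChart N χ p) {y : Fld N} (hy : y ≠ 0) :
    val h y = WithZero.exp (-(ord h y)) := by
  have : val h y ≠ 0 := (Valuation.ne_zero_iff _).mpr hy
  rw [ord, neg_neg, WithZero.exp_log this]

theorem ord_mul (h : IsChart N χ p) {y z : Fld N} (hy : y ≠ 0) (hz : z ≠ 0) :
    ord h (y * z) = ord h y + ord h z := by
  have h1 : val h y ≠ 0 := (Valuation.ne_zero_iff _).mpr hy
  have h2 : val h z ≠ 0 := (Valuation.ne_zero_iff _).mpr hz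
  simp only [ord, map_mul, WithZero.log_mul h1 h2]
  ring

theorem ord_inv (h : IsChart N χ p) (y : Fld N) : ord h y⁻¹ = -ord h y := by
  simp only [ord, map_inv₀, WithZero.log_inv]

theorem ord_div (h : IsChart N χ p) {y z : Fld N} (hy : y ≠ 0) (hz : z ≠ 0) :
    ord h (y / z) = ord h y - ord h z := by
  rw [div_eq_mul_inv, ord_mul h hy (inv_ne_zero hz), ord_inv]
  ring

theorem ord_algebraMap (h : IsChart N χ p) {f : ring N} {n : ℤ}
    (hn : ordRing χ p f = (n : WithTop ℤ)) : ord h (algebraMap (ring N) (Fld N) f) = n := by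
  rw [ord, val_algebraMap, valRing_apply, hn, toVal_coe, WithZero.log_exp, neg_neg]

theorem algebraMap_ne_zero {f : ring N} (hf : f ≠ 0) : algebraMap (ring N) (Fld N) f ≠ 0 := by
  intro h0
  exact hf (IsFractionRing.injective (ring N) (Fld N) (by rw [h0, map_zero]))

theorem ordRing_eq_coe_ord (h : IsChart N χ p) {f : ring N} (hf : f ≠ 0) :
    ordRing χ p f = ((ord h (algebraMap (ring N) (Fld N) f) : ℤ) : WithTop ℤ) := by
  have hne := h.ne_top f hf
  cases hn : ordRing χ p f with
  | top => exact absurd hn hne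
  | coe n => rw [ord_algebraMap h hn]

/-! ### The action on the fraction field -/

/-- The action of `SL(2, ℤ)` on the fraction field. -/
def actF (N : ℕ) (γ : SL(2, ℤ)) : Fld N ≃+* Fld N :=
  IsFractionRing.ringEquivOfRingEquiv (act N γ)

@[simp] theorem actF_algebraMap (γ : SL(2, ℤ)) (f : ring N) :
    actF N γ (algebraMap (ring N) (Fld N) f) = algebraMap (ring N) (Fld N) (act N γ f) :=
  IsFractionRing.ringEquivOfRingEquiv_algebraMap _ _

theorem exists_div (y : Fld N) : ∃ a b : ring N, b ≠ 0 ∧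
    y = algebraMap (ring N) (Fld N) a / algebraMap (ring N) (Fld N) b := by
  obtain ⟨a, b, hb, rfl⟩ := IsFractionRing.div_surjective (ring N) y
  exact ⟨a, b, nonZeroDivisors.ne_zero hb, rfl⟩

theorem actF_one (y : Fld N) : actF N 1 y = y := by
  obtain ⟨a, b, -, rfl⟩ := exists_div y
  simp [map_div₀, act_one]

theorem actF_mul (γ γ' : SL(2, ℤ)) (y : Fld N) :
    actF N (γ * γ') y = actF N γ' (actF N γ y) := by
  obtain ⟨a, b, -, rfl⟩ := exists_div y
  simp [map_div₀, act_mul]

theorem actF_inv_actF (γ : SL(2, ℤ)) (y : Fld N) : actF N γ⁻¹ (actF N γ y) = y := by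
  rw [← actF_mul, mul_inv_cancel, actF_one]

theorem actF_actF_inv (γ : SL(2, ℤ)) (y : Fld N) : actF N γ (actF N γ⁻¹ y) = y := by
  rw [← actF_mul, inv_mul_cancel, actF_one]

theorem actF_pow (γ : SL(2, ℤ)) (d : ℕ) (y : Fld N) :
    actF N (γ ^ d) y = (fun z => actF N γ z)^[d] y := by
  induction d generalizing y with
  | zero => simp [actF_one]
  | succ k ih =>
    rw [pow_succ, actF_mul, ih, ← Function.iterate_succ_apply' (fun z => actF N γ z)]

/-! ### Chart symmetries -/

/-- `g` acts in the chart `χ` near `p` by the map `gh`, which fixes `p` with derivative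
`lam ≠ 0`. -/
structure IsSym (N : ℕ) (χ : ℂ → ℍ) (p : ℂ) (g : SL(2, ℤ)) (gh : ℂ → ℂ) (lam : ℂ) : Prop where
  fix : gh p = p
  hasDeriv : HasDerivAt gh lam p
  lam_ne : lam ≠ 0
  compat : ∀ f : ring N, ((act N g f : ℍ → ℂ) ∘ χ) =ᶠ[𝓝[≠] p] ((f : ℍ → ℂ) ∘ χ) ∘ gh

variable {g : SL(2, ℤ)} {gh : ℂ → ℂ} {lam : ℂ}

theorem IsSym.tendsto_punctured (s : IsSym N χ p g gh lam) : Tendsto gh (𝓝[≠] p) (𝓝[≠] p) := by
  have h1 : Tendsto gh (𝓝[≠] p) (𝓝 p) := by
    have := s.hasDeriv.continuousAt.tendsto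
    rw [s.fix] at this
    exact this.mono_left nhdsWithin_le_nhds
  have h2 : ∀ᶠ z in 𝓝[≠] p, gh z ∈ ({p}ᶜ : Set ℂ) := s.hasDeriv.eventually_ne s.lam_ne
  exact tendsto_nhdsWithin_of_tendsto_nhds_of_eventually_within _ h1 h2

theorem IsSym.deriv_ne (s : IsSym N χ p g gh lam) : _root_.deriv gh p ≠ 0 := by
  rw [s.hasDeriv.deriv]
  exact s.lam_ne

theorem ordRing_act (s : IsSym N χ p g gh lam) (hgh : AnalyticAt ℂ gh p) (f : ring N) :
    ordRing χ p (act N g f) = ordRing χ p f := by
  rw [ordRing, meromorphicOrderAt_congr (s.compat f),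
    meromorphicOrderAt_comp_of_deriv_ne_zero hgh s.deriv_ne, s.fix]
  rfl

theorem val_actF (h : IsChart N χ p) (s : IsSym N χ p g gh lam) (hgh : AnalyticAt ℂ gh p)
    (y : Fld N) : val h (actF N g y) = val h y := by
  obtain ⟨a, b, -, rfl⟩ := exists_div y
  simp only [map_div₀, actF_algebraMap, val_algebraMap, valRing_apply, ordRing_act s hgh]

theorem ord_actF (h : IsChart N χ p) (s : IsSym N χ p g gh lam) (hgh : AnalyticAt ℂ gh p)
    (y : Fld N) : ord h (actF N g y) = ord h y := by
  rw [ord, ord, val_actF h s hgh]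

/-- The leading-coefficient computation: if `F` has order `n` at `p` then
`F (gh z) / F z → lam ^ n`. -/
theorem tendsto_ratio {F : ℂ → ℂ} {n : ℤ} (hF : MeromorphicAt F p)
    (hn : meromorphicOrderAt F p = (n : WithTop ℤ)) (s : IsSym N χ p g gh lam) :
    Tendsto (fun z => F (gh z) / F z) (𝓝[≠] p) (𝓝 (lam ^ n)) := by
  obtain ⟨G, hG, hGp, hFG⟩ := (meromorphicOrderAt_eq_int_iff hF).mp hn
  have hpun := s.tendsto_punctured
  have h1 : Tendsto (fun z => (gh z - p) / (z - p)) (𝓝[≠] p) (𝓝 lam) := by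
    have := hasDerivAt_iff_tendsto_slope.mp s.hasDeriv
    refine this.congr fun z => ?_
    rw [slope_def_field, s.fix]
  have h2 : Tendsto (fun z => ((gh z - p) / (z - p)) ^ n) (𝓝[≠] p) (𝓝 (lam ^ n)) :=
    h1.zpow₀ n (Or.inl s.lam_ne)
  have hG1 : Tendsto G (𝓝[≠] p) (𝓝 (G p)) := hG.continuousAt.tendsto.mono_left nhdsWithin_le_nhds
  have hG2 : Tendsto (fun z => G (gh z)) (𝓝[≠] p) (𝓝 (G p)) := hG1.comp hpun
  have h3 : Tendsto (fun z => G (gh z) / G z) (𝓝[≠] p) (𝓝 (G p / G p)) := hG2.div hG1 hGp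
  rw [div_self hGp] at h3
  have h4 := h2.mul h3
  rw [mul_one] at h4
  refine h4.congr' ?_
  have hFG' : ∀ᶠ z in 𝓝[≠] p, F (gh z) = (gh z - p) ^ n • G (gh z) := hpun.eventually hFG
  filter_upwards [hFG, hFG', self_mem_nhdsWithin] with z hz hz' hzp
  have hzp' : z - p ≠ 0 := sub_ne_zero.mpr hzp
  rw [hz, hz', smul_eq_mul, smul_eq_mul, div_zpow]
  field_simp

/-- **Leading coefficients.**  If `act g a * b = a * act g b` for nonzero `a, b`, then
`lam ^ ord a = lam ^ ord b`. -/
theorem lam_zpow_eq_of_fixed (h : IsChart N χ p) (s : IsSym N χ p g gh lam) {a b : ring N}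
    (ha : a ≠ 0) (hb : b ≠ 0) (hab : act N g a * b = a * act N g b) {m n : ℤ}
    (hm : ordRing χ p a = (m : WithTop ℤ)) (hn : ordRing χ p b = (n : WithTop ℤ)) :
    lam ^ m = lam ^ n := by
  have hA := tendsto_ratio (h.mero a) hm s
  have hB := tendsto_ratio (h.mero b) hn s
  have hpun := s.tendsto_punctured
  have hane : ∀ᶠ z in 𝓝[≠] p, ((a : ℍ → ℂ) ∘ χ) z ≠ 0 :=
    (meromorphicOrderAt_ne_top_iff_eventually_ne_zero (h.mero a)).mp (h.ne_top a ha)
  have hbne : ∀ᶠ z in 𝓝[≠] p, ((b : ℍ → ℂ) ∘ χ) z ≠ 0 :=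
    (meromorphicOrderAt_ne_top_iff_eventually_ne_zero (h.mero b)).mp (h.ne_top b hb)
  have heq : (fun z => ((a : ℍ → ℂ) ∘ χ) (gh z) / ((a : ℍ → ℂ) ∘ χ) z)
      =ᶠ[𝓝[≠] p] fun z => ((b : ℍ → ℂ) ∘ χ) (gh z) / ((b : ℍ → ℂ) ∘ χ) z := by
    filter_upwards [hane, hbne, s.compat a, s.compat b] with z h1 h2 h3 h4
    have key : ((act N g a * b : ring N) : ℍ → ℂ) (χ z) = ((a * act N g b : ring N) : ℍ → ℂ) (χ z) := by
      rw [hab]
    have h3' : (act N g a : ℍ → ℂ) (χ z) = (a : ℍ → ℂ) (χ (gh z)) := h3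
    have h4' : (act N g b : ℍ → ℂ) (χ z) = (b : ℍ → ℂ) (χ (gh z)) := h4
    have key' : (a : ℍ → ℂ) (χ (gh z)) * (b : ℍ → ℂ) (χ z)
        = (a : ℍ → ℂ) (χ z) * (b : ℍ → ℂ) (χ (gh z)) := by
      rw [← h3', ← h4']
      exact key
    simp only [Function.comp_apply] at h1 h2 ⊢
    rw [div_eq_div_iff h1 h2]
    linear_combination key'
  exact tendsto_nhds_unique (hA.congr' heq) hB

/-- **Divisibility, multiplicative form.**  A nonzero element of the fraction field fixed by a
chart symmetry with multiplier `lam` satisfies `lam ^ ord = 1`. -/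
theorem lam_zpow_ord_eq_one (h : IsChart N χ p) (s : IsSym N χ p g gh lam) {y : Fld N}
    (hy : y ≠ 0) (hfix : actF N g y = y) : lam ^ (ord h y) = 1 := by
  obtain ⟨a, b, hb, rfl⟩ := exists_div y
  have ha : a ≠ 0 := by
    rintro rfl
    simp at hy
  have ha' := algebraMap_ne_zero ha
  have hb' := algebraMap_ne_zero hb
  have hab : act N g a * b = a * act N g b := by
    apply IsFractionRing.injective (ring N) (Fld N)
    rw [map_div₀, actF_algebraMap, actF_algebraMap, div_eq_div_iff
      (algebraMap_ne_zero ((act N g).map_ne_zero_iff.mpr hb)) hb'] at hfix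
    rw [map_mul, map_mul, hfix]
  have := lam_zpow_eq_of_fixed h s ha hb hab (ordRing_eq_coe_ord h ha) (ordRing_eq_coe_ord h hb)
  rw [ord_div h ha' hb', zpow_sub₀ s.lam_ne, this, div_self (zpow_ne_zero _ s.lam_ne)]

/-- Powers of a chart symmetry. -/
theorem IsSym.pow (s : IsSym N χ p g gh lam) (d : ℕ) : IsSym N χ p (g ^ d) gh^[d] (lam ^ d) := by
  induction d with
  | zero =>
    refine ⟨rfl, ?_, by simp, fun f => ?_⟩
    · simpa using hasDerivAt_id p
    · refine Filter.Eventually.of_forall fun z => ?_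
      simp [act_one]
  | succ k ih =>
    refine ⟨?_, ?_, pow_ne_zero _ s.lam_ne, fun f => ?_⟩
    · rw [Function.iterate_succ_apply, s.fix, ih.fix]
    · exact HasDerivAt.iterate p s.hasDeriv s.fix (k + 1)
    · have h1 := s.compat (act N (g ^ k) f)
      have h2 := s.tendsto_punctured.eventually (ih.compat f)
      filter_upwards [h1, h2] with z hz1 hz2
      have e1 : ((act N (g ^ (k + 1)) f : ring N) : ℍ → ℂ) (χ z)
          = ((act N g (act N (g ^ k) f) : ring N) : ℍ → ℂ) (χ z) := by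
        rw [pow_succ, act_mul]
      simp only [Function.comp_apply] at hz1 hz2 ⊢
      rw [e1, hz1, hz2, Function.iterate_succ_apply]

/-- **Divisibility.**  If the multiplier of the chart symmetry `g` is a primitive `m`-th root of
unity and a nonzero `y` is fixed by `g ^ d`, then `m / gcd m d` divides the order of `y`. -/
theorem dvd_ord_of_fixed (h : IsChart N χ p) (s : IsSym N χ p g gh lam) {m : ℕ} (hm : 0 < m)
    (hprim : IsPrimitiveRoot lam m) (d : ℕ) {y : Fld N} (hy : y ≠ 0)
    (hfix : actF N (g ^ d) y = y) : ((m / Nat.gcd m d : ℕ) : ℤ) ∣ ord h y := by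
  have h1 := lam_zpow_ord_eq_one h (s.pow d) hy hfix
  have h2 : lam ^ ((d : ℤ) * ord h y) = 1 := by
    rw [zpow_mul, zpow_natCast]
    exact h1
  have h3 : (m : ℤ) ∣ (d : ℤ) * ord h y := (hprim.zpow_eq_one_iff_dvd _).mp h2
  have hg : 0 < Nat.gcd m d := Nat.gcd_pos_of_pos_left d hm
  obtain ⟨m', hm'⟩ : Nat.gcd m d ∣ m := Nat.gcd_dvd_left m d
  obtain ⟨d', hd'⟩ : Nat.gcd m d ∣ d := Nat.gcd_dvd_right m d
  have e1 : m / Nat.gcd m d = m' := Nat.div_eq_of_eq_mul_right hg hm'
  have e2 : d / Nat.gcd m d = d' := Nat.div_eq_of_eq_mul_right hg hd'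
  have hcop : Nat.Coprime m' d' := by
    have := Nat.coprime_div_gcd_div_gcd hg
    rwa [e1, e2] at this
  rw [e1]
  have h4 : ((Nat.gcd m d : ℕ) : ℤ) * (m' : ℤ) ∣ ((Nat.gcd m d : ℕ) : ℤ) * ((d' : ℤ) * ord h y) := by
    have e3 : (m : ℤ) = ((Nat.gcd m d : ℕ) : ℤ) * (m' : ℤ) := by exact_mod_cast hm'
    have e4 : (d : ℤ) = ((Nat.gcd m d : ℕ) : ℤ) * (d' : ℤ) := by exact_mod_cast hd'
    rw [e3, e4, mul_assoc] at h3
    exact h3
  have h5 : (m' : ℤ) ∣ (d' : ℤ) * ord h y :=
    (mul_dvd_mul_iff_left (by exact_mod_cast hg.ne')).mp h4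
  have hcop' : IsCoprime (m' : ℤ) (d' : ℤ) := Nat.isCoprime_iff_coprime.mpr hcop
  exact hcop'.dvd_of_dvd_mul_left h5

end Fermat.Agent.S24.Mero
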