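import Mathlib

/-!
# S24: the abstract orbit theorem

Let `A` be a Dedekind domain with fraction field `K`, `L / K` a finite separable extension, `B` the
integral closure of `A` in `L`, and `p = (ϖ)` a principal maximal ideal of `A`.  Suppose we are
given a field `Ω` with a `ℤᵐ⁰`-valued valuation `w`, and `n = [L : K]` distinct ring embeddings
`ι i : L →+* Ω` that agree on `K`, such that `w ≤ 1` on the image of `A` and
`w (ι i ϖ) = exp (-e0)`.  Suppose moreover that a finite group `G` of order `e0` acts on the index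
set, preserving the valuations `w ∘ ι i`, and that the order of the stabiliser of `i` divides all
values of `w ∘ ι i`.  If all primes of `B` over `p` have inertia degree one, then the primes of `B`
over `p` are in bijection with the `G`-orbits of embeddings.
-/

set_option autoImplicit false

open WithZero IsDedekindDomain

namespace Fermat.Agent.S24.Orbit

section Integral

variable {Ω : Type*} [Field Ω] (w : Valuation Ω ℤᵐ⁰)

/-- A valuation ring is integrally closed: an element integral over a subring on which `w ≤ 1`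
has `w ≤ 1`. -/
theorem val_le_one_of_isIntegral {A : Type*} [CommRing A] (φ : A →+* Ω)
    (hφ : ∀ a, w (φ a) ≤ 1) {y : Ω} (hy : φ.IsIntegralElem y) : w y ≤ 1 := by
  obtain ⟨p, hp, hpy⟩ := hy
  by_contra hlt
  push Not at hlt
  have hy0 : y ≠ 0 := by
    rintro rfl
    simp at hlt
  -- `y ^ n = - ∑_{k < n} a_k y ^ k`
  have hn : p.natDegree ≠ 0 := by
    intro h0
    have : p = 1 := by
      rw [Polynomial.eq_C_of_natDegree_eq_zero h0] at hp ⊢
      have := hp.leadingCoeff
      rw [Polynomial.leadingCoeff_C] at this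
      rw [this, Polynomial.C_1]
    rw [this, Polynomial.eval₂_one] at hpy
    exact one_ne_zero hpy
  rw [Polynomial.eval₂_eq_sum_range, Finset.sum_range_succ, hp.coeff_natDegree, map_one,
    one_mul] at hpy
  have h1 : y ^ p.natDegree = - ∑ k ∈ Finset.range p.natDegree, φ (p.coeff k) * y ^ k :=
    eq_neg_of_add_eq_zero_right hpy
  have h2 : w (y ^ p.natDegree) < w (y ^ p.natDegree) := by
    conv_lhs => rw [h1, Valuation.map_neg]
    apply Valuation.map_sum_lt w
    · simp [hy0]
    · intro k hk
      rw [Finset.mem_range] at hk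
      rw [map_mul, map_pow, map_pow]
      calc w (φ (p.coeff k)) * w y ^ k ≤ 1 * w y ^ k := by gcongr; exact hφ _
        _ = w y ^ k := one_mul _
        _ < w y ^ p.natDegree := pow_lt_pow_right₀ hlt hk
  exact lt_irrefl _ h2

end Integral

section Main

variable {A K L B : Type*} [CommRing A] [IsDedekindDomain A]
  [Field K] [Algebra A K] [IsFractionRing A K]
  [Field L] [Algebra K L] [Algebra A L] [IsScalarTower A K L]
  [FiniteDimensional K L] [Algebra.IsSeparable K L]
  [CommRing B] [IsDomain B] [Algebra A B] [Algebra B L] [IsScalarTower A B L]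
  [IsIntegralClosure B A L]
  {Ω : Type*} [Field Ω] (w : Valuation Ω ℤᵐ⁰)
  {I : Type*} [Fintype I] (ι : I → L →+* Ω)

omit [IsDedekindDomain A] [IsFractionRing A K] [FiniteDimensional K L]
  [Algebra.IsSeparable K L] [IsDomain B] [Fintype I] [Algebra K L] [IsScalarTower A K L]
  [Field K] [Algebra A K] in
/-- `w ≤ 1` on the image of `B` as soon as `w ≤ 1` on the image of `A`. -/
theorem val_le_one_of_mem (hA : ∀ i (a : A), w (ι i (algebraMap A L a)) ≤ 1) (i : I) (b : B) :
    w (ι i (algebraMap B L b)) ≤ 1 := by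
  refine val_le_one_of_isIntegral w ((ι i).comp (algebraMap A L)) (fun a => hA i a) ?_
  obtain ⟨p, hp, hpb⟩ := IsIntegralClosure.isIntegral A L b
  refine ⟨p, hp, ?_⟩
  have h := congrArg ((ι i).comp (algebraMap B L)) hpb
  rw [Polynomial.hom_eval₂, map_zero, RingHom.comp_assoc, ← IsScalarTower.algebraMap_eq] at h
  exact h

/-- The image under one embedding of the norm is the product over all embeddings. -/
theorem map_norm_eq_prod (hι : Function.Injective ι)
    (hcard : Fintype.card I = Module.finrank K L)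
    (hagree : ∀ i j (y : K), ι i (algebraMap K L y) = ι j (algebraMap K L y))
    (i0 : I) (y : L) :
    ι i0 (algebraMap K L (Algebra.norm K y)) = ∏ i, ι i y := by
  classical
  let : Algebra K (AlgebraicClosure Ω) :=
    (((algebraMap Ω (AlgebraicClosure Ω)).comp (ι i0)).comp (algebraMap K L)).toAlgebra
  let σ : I → (L →ₐ[K] AlgebraicClosure Ω) := fun i =>
    { toRingHom := (algebraMap Ω (AlgebraicClosure Ω)).comp (ι i)
      commutes' := fun r => by
        show algebraMap Ω (AlgebraicClosure Ω) (ι i (algebraMap K L r)) =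
          algebraMap Ω (AlgebraicClosure Ω) (ι i0 (algebraMap K L r))
        rw [hagree i i0] }
  have hσ : Function.Injective σ := by
    intro i j hij
    apply hι
    ext x
    have h1 : σ i x = σ j x := by rw [hij]
    exact (algebraMap Ω (AlgebraicClosure Ω)).injective h1
  have hbij : Function.Bijective σ := by
    rw [Fintype.bijective_iff_injective_and_card]
    exact ⟨hσ, by rw [hcard, AlgHom.card]⟩
  have h := Algebra.norm_eq_prod_embeddings K (AlgebraicClosure Ω) y
  rw [← Fintype.prod_bijective σ hbij (fun i => σ i y) (fun τ => τ y) (fun _ => rfl)] at h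
  apply (algebraMap Ω (AlgebraicClosure Ω)).injective
  rw [map_prod]
  exact h

/-- The prime of `B` cut out by the `i`-th embedding. -/
def primeOf (hint : ∀ i (b : B), w (ι i (algebraMap B L b)) ≤ 1) (i : I) : Ideal B where
  carrier := {b | w (ι i (algebraMap B L b)) < 1}
  add_mem' := fun {a b} ha hb => by
    simp only [Set.mem_ofPred_eq, map_add] at *
    exact lt_of_le_of_lt (w.map_add _ _) (max_lt ha hb)
  zero_mem' := by simp
  smul_mem' := fun c {a} ha => by
    simp only [Set.mem_ofPred_eq, smul_eq_mul, map_mul] at *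
    calc w (ι i (algebraMap B L c)) * w (ι i (algebraMap B L a))
        ≤ 1 * w (ι i (algebraMap B L a)) := by gcongr; exact hint i c
      _ < 1 := by rwa [one_mul]

omit [IsDedekindDomain A] [IsFractionRing A K] [FiniteDimensional K L]
  [Algebra.IsSeparable K L] [IsDomain B] [Fintype I] [Algebra K L] [IsScalarTower A K L]
  [Field K] [Algebra A K] [IsIntegralClosure B A L] [Algebra A L] [IsScalarTower A B L]
  [Algebra A B] [CommRing A] in
theorem mem_primeOf (hint : ∀ i (b : B), w (ι i (algebraMap B L b)) ≤ 1) (i : I) (b : B) :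
    b ∈ primeOf w ι hint i ↔ w (ι i (algebraMap B L b)) < 1 := Iff.rfl

omit [IsDedekindDomain A] [IsFractionRing A K] [FiniteDimensional K L]
  [Algebra.IsSeparable K L] [IsDomain B] [Fintype I] [Algebra K L] [IsScalarTower A K L]
  [Field K] [Algebra A K] [IsIntegralClosure B A L] [Algebra A L] [IsScalarTower A B L]
  [Algebra A B] [CommRing A] in
theorem val_eq_one_of_notMem (hint : ∀ i (b : B), w (ι i (algebraMap B L b)) ≤ 1) (i : I) {b : B}
    (hb : b ∉ primeOf w ι hint i) : w (ι i (algebraMap B L b)) = 1 :=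
  le_antisymm (hint i b) (not_lt.mp hb)

omit [IsDedekindDomain A] [IsFractionRing A K] [FiniteDimensional K L]
  [Algebra.IsSeparable K L] [IsDomain B] [Fintype I] [Algebra K L] [IsScalarTower A K L]
  [Field K] [Algebra A K] [IsIntegralClosure B A L] [Algebra A L] [IsScalarTower A B L]
  [Algebra A B] [CommRing A] in
theorem primeOf_isPrime (hint : ∀ i (b : B), w (ι i (algebraMap B L b)) ≤ 1) (i : I) :
    (primeOf w ι hint i).IsPrime := by
  refine ⟨?_, ?_⟩
  · rw [Ideal.ne_top_iff_one, mem_primeOf]
    simp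
  · intro a b hab
    by_contra hcon
    push Not at hcon
    have ha := val_eq_one_of_notMem w ι hint i hcon.1
    have hb := val_eq_one_of_notMem w ι hint i hcon.2
    rw [mem_primeOf, map_mul, map_mul, map_mul, ha, hb, one_mul] at hab
    exact lt_irrefl _ hab

omit [IsFractionRing A K] [FiniteDimensional K L]
  [Algebra.IsSeparable K L] [IsDomain B] [Fintype I] [Algebra K L] [IsScalarTower A K L]
  [Field K] [Algebra A K] [IsIntegralClosure B A L] [IsDedekindDomain A] in
theorem primeOf_liesOver (hint : ∀ i (b : B), w (ι i (algebraMap B L b)) ≤ 1) (ϖ : A)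
    (hϖ : (Ideal.span {ϖ}).IsMaximal) (hw1 : ∀ i, w (ι i (algebraMap A L ϖ)) < 1) (i : I) :
    (primeOf w ι hint i).LiesOver (Ideal.span {ϖ}) := by
  constructor
  have hle : Ideal.span {ϖ} ≤ (primeOf w ι hint i).under A := by
    rw [Ideal.span_le, Set.singleton_subset_iff]
    show algebraMap A B ϖ ∈ primeOf w ι hint i
    rw [mem_primeOf, ← IsScalarTower.algebraMap_apply]
    exact hw1 i
  have hne : (primeOf w ι hint i).under A ≠ ⊤ := by
    have := primeOf_isPrime w ι hint i
    exact (Ideal.IsPrime.under A (primeOf w ι hint i)).ne_top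
  exact hϖ.eq_of_le hne hle

/-- Every prime of `B` over `(ϖ)` is cut out by one of the embeddings. -/
theorem exists_primeOf_eq (hint : ∀ i (b : B), w (ι i (algebraMap B L b)) ≤ 1)
    (hι : Function.Injective ι) (hcard : Fintype.card I = Module.finrank K L)
    (hagree : ∀ i j (y : K), ι i (algebraMap K L y) = ι j (algebraMap K L y))
    (ϖ : A) (hϖ0 : ϖ ≠ 0) (hw1 : ∀ i, w (ι i (algebraMap A L ϖ)) < 1)
    (P : Ideal B) [P.IsPrime] [P.LiesOver (Ideal.span {ϖ})] :
    ∃ i, primeOf w ι hint i = P := by
  classical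
  have hDed : IsDedekindDomain B := IsIntegralClosure.isDedekindDomain A K L B
  have hfin : Module.Finite A B := IsIntegralClosure.finite A K L B
  have hint' : Algebra.IsIntegral A B := IsIntegralClosure.isIntegral_algebra A L
  have hinj : Function.Injective (algebraMap A B) := by
    have h1 : Function.Injective (algebraMap A L) := by
      rw [IsScalarTower.algebraMap_eq A K L]
      exact (algebraMap K L).injective.comp (IsFractionRing.injective A K)
    rw [IsScalarTower.algebraMap_eq A B L] at h1
    exact Function.Injective.of_comp h1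
  have : FaithfulSMul A B := (faithfulSMul_iff_algebraMap_injective A B).mpr hinj
  have hn : 0 < Fintype.card I := by
    rw [hcard]
    exact Module.finrank_pos
  have hne : Nonempty I := Fintype.card_pos_iff.mp hn
  obtain ⟨i0⟩ := hne
  by_contra hcon
  push Not at hcon
  have hP0 : P ≠ ⊥ := by
    intro hbot
    have hover := (inferInstance : P.LiesOver (Ideal.span {ϖ})).over
    rw [hbot] at hover
    have h2 : ϖ ∈ (⊥ : Ideal B).under A := hover ▸ Ideal.mem_span_singleton_self ϖ
    rw [Ideal.under_def, Ideal.mem_comap, Ideal.mem_bot] at h2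
    exact hϖ0 (hinj (by rw [h2, map_zero]))
  have hPmax : P.IsMaximal := Ideal.IsPrime.isMaximal inferInstance hP0
  have hnot : ¬ ((P : Set B) ⊆ ⋃ i ∈ ((Finset.univ : Finset I) : Set I),
      (primeOf w ι hint i : Set B)) := by
    rw [Ideal.subset_union_prime i0 i0 (fun i _ _ _ => primeOf_isPrime w ι hint i)]
    rintro ⟨i, -, hi⟩
    exact hcon i (hPmax.eq_of_le (primeOf_isPrime w ι hint i).ne_top hi).symm
  rw [Set.not_subset] at hnot
  obtain ⟨f, hfP, hf⟩ := hnot
  have hf1 : ∀ i, w (ι i (algebraMap B L f)) = 1 := by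
    intro i
    apply val_eq_one_of_notMem w ι hint i
    intro hmem
    apply hf
    simp only [Finset.coe_univ, Set.mem_univ, Set.iUnion_true, Set.mem_iUnion, SetLike.mem_coe]
    exact ⟨i, hmem⟩
  -- the norm of `f`
  have hdvd : f ∣ algebraMap A B (Algebra.intNorm A B f) := Algebra.dvd_algebraMap_intNorm_self A B f
  have hmemP : algebraMap A B (Algebra.intNorm A B f) ∈ P := Ideal.mem_of_dvd P hdvd hfP
  have hmemp : Algebra.intNorm A B f ∈ Ideal.span {ϖ} := by
    rw [(inferInstance : P.LiesOver (Ideal.span {ϖ})).over, Ideal.under_def, Ideal.mem_comap]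
    exact hmemP
  obtain ⟨c, hc⟩ := Ideal.mem_span_singleton'.mp hmemp
  have hlt : w (ι i0 (algebraMap A L (Algebra.intNorm A B f))) < 1 := by
    rw [← hc, map_mul, map_mul, map_mul]
    calc w (ι i0 (algebraMap A L c)) * w (ι i0 (algebraMap A L ϖ))
        ≤ 1 * w (ι i0 (algebraMap A L ϖ)) := by
          gcongr
          rw [IsScalarTower.algebraMap_apply A B L]
          exact hint i0 _
      _ < 1 := by rw [one_mul]; exact hw1 i0
  have hnorm : algebraMap A L (Algebra.intNorm A B f) =
      algebraMap K L (Algebra.norm K (algebraMap B L f)) := by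
    rw [IsScalarTower.algebraMap_apply A K L, Algebra.algebraMap_intNorm (K := K) (L := L)]
  rw [hnorm, map_norm_eq_prod ι hι hcard hagree i0, map_prod] at hlt
  simp only [hf1, Finset.prod_const_one] at hlt
  exact lt_irrefl _ hlt

omit [IsDedekindDomain A] [IsDomain B] [Fintype I] [IsIntegralClosure B A L] [Algebra A L]
  [IsScalarTower A B L] [Algebra A B] [CommRing A] in
/-- If the `i`-th embedding cuts out the prime `v`, then `w ∘ ι i ≤ 1` on the valuation ring of
`v`. -/
theorem val_le_one_of_valuation_le_one [IsDedekindDomain B] [IsFractionRing B L]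
    (hint : ∀ i (b : B), w (ι i (algebraMap B L b)) ≤ 1) (i : I)
    (v : HeightOneSpectrum B) (hv : primeOf w ι hint i = v.asIdeal) (y : L)
    (hy : v.valuation L y ≤ 1) : w (ι i y) ≤ 1 := by
  obtain ⟨n, d, hnd⟩ := v.exists_primeCompl_mul_eq_of_integer y hy
  have hd : w (ι i (algebraMap B L d)) = 1 := by
    apply val_eq_one_of_notMem w ι hint i
    rw [hv]
    exact d.2
  have h := congrArg (fun z => w (ι i z)) hnd
  simp only [map_mul, hd, mul_one] at h
  rw [h]
  exact hint i n

omit [IsDedekindDomain A] [IsDomain B] [Fintype I] [IsIntegralClosure B A L] [Algebra A L]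
  [IsScalarTower A B L] [Algebra A B] [CommRing A] in
theorem val_eq_one_of_valuation_eq_one [IsDedekindDomain B] [IsFractionRing B L]
    (hint : ∀ i (b : B), w (ι i (algebraMap B L b)) ≤ 1) (i : I)
    (v : HeightOneSpectrum B) (hv : primeOf w ι hint i = v.asIdeal) (y : L)
    (hy : v.valuation L y = 1) : w (ι i y) = 1 := by
  have hy0 : y ≠ 0 := by
    rintro rfl
    simp at hy
  have h1 := val_le_one_of_valuation_le_one w ι hint i v hv y hy.le
  have h2 := val_le_one_of_valuation_le_one w ι hint i v hv y⁻¹ (by rw [map_inv₀, hy, inv_one])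
  rw [map_inv₀, map_inv₀] at h2
  have h0 : w (ι i y) ≠ 0 := by
    rw [Valuation.ne_zero_iff]
    exact (map_ne_zero _).mpr hy0
  have h3 : 1 ≤ w (ι i y) := by
    rwa [inv_le_one₀ (zero_lt_iff.mpr h0)] at h2
  exact le_antisymm h1 h3

omit [Fintype I] in
include K in
/-- If the `i`-th embedding cuts out the prime `P` over `(ϖ)`, `w (ι i ϖ) = exp (-e0)` and all
values of `w ∘ ι i` are divisible by `c`, then `e(P) * c ∣ e0`. -/
theorem ramificationIdx_mul_dvd
    (hint : ∀ i (b : B), w (ι i (algebraMap B L b)) ≤ 1)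
    (ϖ : A) (hϖ0 : ϖ ≠ 0) (e0 : ℕ) (i : I)
    (hw : w (ι i (algebraMap A L ϖ)) = exp (-(e0 : ℤ)))
    (P : Ideal B) [P.IsPrime] [P.LiesOver (Ideal.span {ϖ})] (hP : primeOf w ι hint i = P)
    (c : ℕ) (hdiv : ∀ y : L, y ≠ 0 → (c : ℤ) ∣ log (w (ι i y))) :
    P.ramificationIdx A * c ∣ e0 := by
  classical
  have hDed : IsDedekindDomain B := IsIntegralClosure.isDedekindDomain A K L B
  have hfrac : IsFractionRing B L := IsIntegralClosure.isFractionRing_of_finite_extension A K L B
  have hinjL : Function.Injective (algebraMap A L) := by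
    rw [IsScalarTower.algebraMap_eq A K L]
    exact (algebraMap K L).injective.comp (IsFractionRing.injective A K)
  have hinj : Function.Injective (algebraMap A B) := by
    have h1 := hinjL
    rw [IsScalarTower.algebraMap_eq A B L] at h1
    exact Function.Injective.of_comp h1
  have hP0 : P ≠ ⊥ := by
    intro hbot
    have hover := (inferInstance : P.LiesOver (Ideal.span {ϖ})).over
    rw [hbot] at hover
    have h2 : ϖ ∈ (⊥ : Ideal B).under A := hover ▸ Ideal.mem_span_singleton_self ϖ
    rw [Ideal.under_def, Ideal.mem_comap, Ideal.mem_bot] at h2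
    exact hϖ0 (hinj (by rw [h2, map_zero]))
  let v : HeightOneSpectrum B := ⟨P, inferInstance, hP0⟩
  obtain ⟨π, hπ⟩ := v.intValuation_exists_uniformizer
  have hπ0 : π ≠ 0 := by
    rintro rfl
    rw [map_zero] at hπ
    exact exp_ne_zero hπ.symm
  have hϖB : algebraMap A B ϖ ≠ 0 := fun h => hϖ0 (hinj (by rw [h, map_zero]))
  have hmapne : (Ideal.span {ϖ}).map (algebraMap A B) ≠ ⊥ := by
    rw [Ideal.map_span, Set.image_singleton, Ne, Ideal.span_singleton_eq_bot]
    exact hϖB
  have he : v.intValuation (algebraMap A B ϖ) = exp (-(P.ramificationIdx A : ℤ)) := by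
    rw [v.intValuation_eq_exp_neg_multiplicity hϖB,
      Ideal.IsDedekindDomain.ramificationIdx_eq_multiplicity (Ideal.span {ϖ}) P hmapne,
      Ideal.map_span, Set.image_singleton]
  set e := P.ramificationIdx A with he_def
  have hy : v.valuation L (algebraMap A L ϖ / (algebraMap B L π) ^ e) = 1 := by
    rw [map_div₀, map_pow, IsScalarTower.algebraMap_apply A B L,
      HeightOneSpectrum.valuation_of_algebraMap, HeightOneSpectrum.valuation_of_algebraMap, he, hπ,
      ← exp_nsmul, div_eq_one_iff_eq exp_ne_zero]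
    simp
  have h1 := val_eq_one_of_valuation_eq_one w ι hint i v hP _ hy
  have hπL : algebraMap B L π ≠ 0 := by
    intro h
    exact hπ0 (IsFractionRing.injective B L (by rw [h, map_zero]))
  have hwπ : w (ι i (algebraMap B L π)) ≠ 0 := by
    rw [Valuation.ne_zero_iff]
    exact (map_ne_zero _).mpr hπL
  rw [map_div₀, map_div₀, map_pow, map_pow, div_eq_one_iff_eq (pow_ne_zero _ hwπ), hw] at h1
  obtain ⟨k, hk⟩ := hdiv _ hπL
  have h2 := congrArg log h1
  rw [log_exp, log_pow, hk] at h2
  have h3 : (e0 : ℤ) = (e * c : ℕ) * (-k) := by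
    push_cast
    rw [nsmul_eq_mul] at h2
    linarith
  exact Int.natCast_dvd_natCast.mp ⟨-k, h3⟩


section Count

variable {G : Type*} [Group G] [MulAction G I]

omit [IsDedekindDomain A] [IsFractionRing A K] [FiniteDimensional K L]
  [Algebra.IsSeparable K L] [IsDomain B] [Fintype I] [Algebra K L] [IsScalarTower A K L]
  [Field K] [Algebra A K] [IsIntegralClosure B A L] [Algebra A L] [IsScalarTower A B L]
  [Algebra A B] [CommRing A] in
/-- The prime cut out by an embedding only depends on its orbit. -/
theorem primeOf_smul (hint : ∀ i (b : B), w (ι i (algebraMap B L b)) ≤ 1)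
    (hinv : ∀ (g : G) (i : I) (y : L), w (ι (g • i) y) = w (ι i y)) (g : G) (i : I) :
    primeOf w ι hint (g • i) = primeOf w ι hint i := by
  ext b
  rw [mem_primeOf, mem_primeOf, hinv]

include K in
/-- **Orbit theorem, structural form.**  Two embeddings cut out the same prime over `(ϖ)` iff they
are in the same `G`-orbit, and the ramification index of the prime is the size of the orbit. -/
theorem orbit_structure [Finite G]
    (hι : Function.Injective ι) (hcard : Fintype.card I = Module.finrank K L)
    (hagree : ∀ i j (y : K), ι i (algebraMap K L y) = ι j (algebraMap K L y))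
    (hA : ∀ i (a : A), w (ι i (algebraMap A L a)) ≤ 1)
    (ϖ : A) (hϖ : (Ideal.span {ϖ}).IsMaximal) (hϖ0 : ϖ ≠ 0)
    (e0 : ℕ) (he0 : 0 < e0) (hw : ∀ i, w (ι i (algebraMap A L ϖ)) = exp (-(e0 : ℤ)))
    (hf : ∀ P : Ideal B, P.IsPrime → P.LiesOver (Ideal.span {ϖ}) → P.inertiaDeg A = 1)
    (hinv : ∀ (g : G) (i : I) (y : L), w (ι (g • i) y) = w (ι i y))
    (hdiv : ∀ i : I, ∃ c : ℕ, e0 ∣ c * (MulAction.orbit G i).ncard ∧
      ∀ y : L, y ≠ 0 → (c : ℤ) ∣ log (w (ι i y))) :
    (∀ i j, primeOf w ι (val_le_one_of_mem (B := B) w ι hA) i = primeOf w ι (val_le_one_of_mem (B := B) w ι hA) j →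
      j ∈ MulAction.orbit G i) ∧
    (∀ i, (primeOf w ι (val_le_one_of_mem (B := B) w ι hA) i).ramificationIdx A =
      (MulAction.orbit G i).ncard) := by
  classical
  set hint := val_le_one_of_mem (B := B) w ι hA
  have hw1 : ∀ i, w (ι i (algebraMap A L ϖ)) < 1 := by
    intro i
    rw [hw i, ← exp_zero, exp_lt_exp]
    omega
  have hDed : IsDedekindDomain B := IsIntegralClosure.isDedekindDomain A K L B
  have hfin : Module.Finite A B := IsIntegralClosure.finite A K L B
  have hfrac : IsFractionRing B L := IsIntegralClosure.isFractionRing_of_finite_extension A K L B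
  have hinj : Function.Injective (algebraMap A B) := by
    have h1 : Function.Injective (algebraMap A L) := by
      rw [IsScalarTower.algebraMap_eq A K L]
      exact (algebraMap K L).injective.comp (IsFractionRing.injective A K)
    rw [IsScalarTower.algebraMap_eq A B L] at h1
    exact Function.Injective.of_comp h1
  have : FaithfulSMul A B := (faithfulSMul_iff_algebraMap_injective A B).mpr hinj
  have hpp : (Ideal.span {ϖ}).IsPrime := hϖ.isPrime
  have hΦ : ∀ i, primeOf w ι hint i ∈ (Ideal.span {ϖ}).primesOver B := fun i =>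
    ⟨primeOf_isPrime w ι hint i, primeOf_liesOver w ι hint ϖ hϖ hw1 i⟩
  let Φ : I → (Ideal.span {ϖ}).primesOver B := fun i => ⟨primeOf w ι hint i, hΦ i⟩
  have hsurj : Function.Surjective Φ := by
    rintro ⟨P, hP1, hP2⟩
    obtain ⟨i, hi⟩ := exists_primeOf_eq w ι hint hι hcard hagree ϖ hϖ0 hw1 P
    exact ⟨i, Subtype.ext hi⟩
  choose s hs using hsurj
  have hsum1 : ∑ q : (Ideal.span {ϖ}).primesOver B, q.1.ramificationIdx A = Fintype.card I := by
    have h := Ideal.sum_ramification_inertia_eq_finrank (Ideal.span {ϖ}) B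
    rw [← IsFractionRing.finrank_eq A K B L, ← hcard] at h
    rw [← h]
    apply Finset.sum_congr rfl
    intro q _
    rw [hf q.1 q.2.1 q.2.2, mul_one]
  have hsum2 : ∑ q : (Ideal.span {ϖ}).primesOver B,
      (Finset.univ.filter (fun i => Φ i = q)).card = Fintype.card I := by
    rw [← Finset.card_univ]
    exact (Finset.card_eq_sum_card_fiberwise (fun i _ => Finset.mem_univ _)).symm
  have hle1 : ∀ q : (Ideal.span {ϖ}).primesOver B,
      q.1.ramificationIdx A ∣ (MulAction.orbit G (s q)).ncard := by
    intro q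
    have := q.2.1
    have := q.2.2
    obtain ⟨c, hc1, hc2⟩ := hdiv (s q)
    have h := ramificationIdx_mul_dvd (K := K) w ι hint ϖ hϖ0 e0 (s q) (hw _) q.1
      (congrArg Subtype.val (hs q)) c hc2
    have hc0 : 0 < c := by
      rcases Nat.eq_zero_or_pos c with rfl | hc
      · rw [mul_zero, Nat.zero_dvd] at h
        omega
      · exact hc
    have h3 := h.trans hc1
    rw [mul_comm] at h3
    exact Nat.dvd_of_mul_dvd_mul_left hc0 h3
  have hsub : ∀ q, MulAction.orbit G (s q) ⊆ {i | Φ i = q} := by
    rintro q _ ⟨g, rfl⟩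
    have h1 : Φ (g • s q) = Φ (s q) := Subtype.ext (primeOf_smul w ι hint hinv g (s q))
    exact h1.trans (hs q)
  have hle2 : ∀ q, (MulAction.orbit G (s q)).ncard ≤
      (Finset.univ.filter (fun i => Φ i = q)).card := by
    intro q
    rw [← Set.ncard_coe_finset]
    apply Set.ncard_le_ncard
    · intro i hi
      simpa using hsub q hi
    · exact Set.toFinite _
  have hpos : ∀ q, 0 < (MulAction.orbit G (s q)).ncard := fun q =>
    (Set.ncard_pos (Set.toFinite _)).mpr (MulAction.nonempty_orbit (s q))
  have heq : ∀ q : (Ideal.span {ϖ}).primesOver B,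
      q.1.ramificationIdx A = (Finset.univ.filter (fun i => Φ i = q)).card := by
    have hle : ∀ q ∈ (Finset.univ : Finset ((Ideal.span {ϖ}).primesOver B)),
        q.1.ramificationIdx A ≤ (Finset.univ.filter (fun i => Φ i = q)).card := fun q _ =>
      (Nat.le_of_dvd (hpos q) (hle1 q)).trans (hle2 q)
    have := (Finset.sum_eq_sum_iff_of_le hle).mp (hsum1.trans hsum2.symm)
    exact fun q => this q (Finset.mem_univ q)
  have hcardorb : ∀ q : (Ideal.span {ϖ}).primesOver B,
      (MulAction.orbit G (s q)).ncard = (Finset.univ.filter (fun i => Φ i = q)).card := fun q =>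
    le_antisymm (hle2 q) ((heq q).symm.le.trans (Nat.le_of_dvd (hpos q) (hle1 q)))
  have horb : ∀ q, MulAction.orbit G (s q) = {i | Φ i = q} := by
    intro q
    apply Set.eq_of_subset_of_ncard_le (hsub q) _ (Set.toFinite _)
    rw [hcardorb q, ← Set.ncard_coe_finset]
    apply le_of_eq
    congr 1
    ext i
    simp
  have hmem : ∀ i, i ∈ MulAction.orbit G (s (Φ i)) := by
    intro i
    rw [horb]
    rfl
  constructor
  · intro i j hij
    have hj : j ∈ MulAction.orbit G (s (Φ i)) := by
      rw [horb]
      exact (Subtype.ext hij).symm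
    rw [MulAction.orbit_eq_iff.mpr (hmem i)]
    exact hj
  · intro i
    rw [MulAction.orbit_eq_iff.mpr (hmem i), hcardorb, ← heq]

include K in
/-- **Orbit theorem, counting form.**  The primes of `B` over `(ϖ)` are in bijection with the
`G`-orbits of embeddings. -/
theorem card_primesOver_eq_card_orbits [Finite G]
    (hι : Function.Injective ι) (hcard : Fintype.card I = Module.finrank K L)
    (hagree : ∀ i j (y : K), ι i (algebraMap K L y) = ι j (algebraMap K L y))
    (hA : ∀ i (a : A), w (ι i (algebraMap A L a)) ≤ 1)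
    (ϖ : A) (hϖ : (Ideal.span {ϖ}).IsMaximal) (hϖ0 : ϖ ≠ 0)
    (e0 : ℕ) (he0 : 0 < e0) (hw : ∀ i, w (ι i (algebraMap A L ϖ)) = exp (-(e0 : ℤ)))
    (hf : ∀ P : Ideal B, P.IsPrime → P.LiesOver (Ideal.span {ϖ}) → P.inertiaDeg A = 1)
    (hinv : ∀ (g : G) (i : I) (y : L), w (ι (g • i) y) = w (ι i y))
    (hdiv : ∀ i : I, ∃ c : ℕ, e0 ∣ c * (MulAction.orbit G i).ncard ∧
      ∀ y : L, y ≠ 0 → (c : ℤ) ∣ log (w (ι i y))) :
    Nat.card ((Ideal.span {ϖ}).primesOver B) = Nat.card (MulAction.orbitRel.Quotient G I) := by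
  classical
  obtain ⟨h1, -⟩ := orbit_structure (K := K) (B := B) w ι hι hcard hagree hA ϖ hϖ hϖ0 e0 he0 hw hf
    hinv hdiv
  set hint := val_le_one_of_mem (B := B) w ι hA
  have hw1 : ∀ i, w (ι i (algebraMap A L ϖ)) < 1 := by
    intro i
    rw [hw i, ← exp_zero, exp_lt_exp]
    omega
  have hΦ : ∀ i, primeOf w ι hint i ∈ (Ideal.span {ϖ}).primesOver B := fun i =>
    ⟨primeOf_isPrime w ι hint i, primeOf_liesOver w ι hint ϖ hϖ hw1 i⟩
  let Φ : I → (Ideal.span {ϖ}).primesOver B := fun i => ⟨primeOf w ι hint i, hΦ i⟩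
  have hresp : ∀ a b : I, MulAction.orbitRel G I a b → Φ a = Φ b := by
    intro a b hab
    rw [MulAction.orbitRel_apply] at hab
    obtain ⟨g, rfl⟩ := hab
    exact Subtype.ext (primeOf_smul w ι hint hinv g b)
  let Ψ : MulAction.orbitRel.Quotient G I → (Ideal.span {ϖ}).primesOver B :=
    Quotient.lift Φ hresp
  have hbij : Function.Bijective Ψ := by
    constructor
    · intro x y
      induction x using Quotient.inductionOn with
      | _ a =>
      induction y using Quotient.inductionOn with
      | _ b =>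
      intro hxy
      apply Quotient.sound
      show MulAction.orbitRel G I a b
      rw [MulAction.orbitRel_apply]
      exact h1 b a (congrArg Subtype.val hxy).symm
    · rintro ⟨P, hP1, hP2⟩
      obtain ⟨i, hi⟩ := exists_primeOf_eq w ι hint hι hcard hagree ϖ hϖ0 hw1 P
      exact ⟨Quotient.mk _ i, Subtype.ext hi⟩
  exact (Nat.card_eq_of_bijective Ψ hbij).symm

include K in
/-- The Riemann–Hurwitz contribution of the primes over `(ϖ)`:
`∑ (e - 1) = [L : K] - #orbits`. -/
theorem sum_ramificationIdx_sub_one [Finite G]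
    (hι : Function.Injective ι) (hcard : Fintype.card I = Module.finrank K L)
    (hagree : ∀ i j (y : K), ι i (algebraMap K L y) = ι j (algebraMap K L y))
    (hA : ∀ i (a : A), w (ι i (algebraMap A L a)) ≤ 1)
    (ϖ : A) (hϖ : (Ideal.span {ϖ}).IsMaximal) (hϖ0 : ϖ ≠ 0)
    (e0 : ℕ) (he0 : 0 < e0) (hw : ∀ i, w (ι i (algebraMap A L ϖ)) = exp (-(e0 : ℤ)))
    (hf : ∀ P : Ideal B, P.IsPrime → P.LiesOver (Ideal.span {ϖ}) → P.inertiaDeg A = 1)
    (hinv : ∀ (g : G) (i : I) (y : L), w (ι (g • i) y) = w (ι i y))
    (hdiv : ∀ i : I, ∃ c : ℕ, e0 ∣ c * (MulAction.orbit G i).ncard ∧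
      ∀ y : L, y ≠ 0 → (c : ℤ) ∣ log (w (ι i y)))
    [Fintype ((Ideal.span {ϖ}).primesOver B)] :
    ∑ q : (Ideal.span {ϖ}).primesOver B, ((q.1.ramificationIdx A : ℤ) - 1) =
      (Module.finrank K L : ℤ) - Nat.card (MulAction.orbitRel.Quotient G I) := by
  classical
  have hcnt := card_primesOver_eq_card_orbits (K := K) (B := B) w ι hι hcard hagree hA ϖ hϖ hϖ0 e0
    he0 hw hf hinv hdiv
  have hDed : IsDedekindDomain B := IsIntegralClosure.isDedekindDomain A K L B
  have hfin : Module.Finite A B := IsIntegralClosure.finite A K L B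
  have hfrac : IsFractionRing B L := IsIntegralClosure.isFractionRing_of_finite_extension A K L B
  have hinj : Function.Injective (algebraMap A B) := by
    have h1 : Function.Injective (algebraMap A L) := by
      rw [IsScalarTower.algebraMap_eq A K L]
      exact (algebraMap K L).injective.comp (IsFractionRing.injective A K)
    rw [IsScalarTower.algebraMap_eq A B L] at h1
    exact Function.Injective.of_comp h1
  have : FaithfulSMul A B := (faithfulSMul_iff_algebraMap_injective A B).mpr hinj
  have hpp : (Ideal.span {ϖ}).IsPrime := hϖ.isPrime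
  have hsum1 : ∑ q : (Ideal.span {ϖ}).primesOver B, q.1.ramificationIdx A =
      Module.finrank K L := by
    have h := Ideal.sum_ramification_inertia_eq_finrank (Ideal.span {ϖ}) B
    rw [← IsFractionRing.finrank_eq A K B L] at h
    rw [← h]
    apply Finset.sum_congr rfl
    intro q _
    rw [hf q.1 q.2.1 q.2.2, mul_one]
  rw [Finset.sum_sub_distrib, ← Nat.cast_sum, hsum1, ← hcnt, Nat.card_eq_fintype_card]
  simp

end Count

end Main

end Fermat.Agent.S24.Orbit
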