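import Mathlib
import Fermat.Prelude.Def_AlgebraicCurve_DivisorClassGroup
import Fermat.Agent.S24.Orbit

/-!
# S24: dictionary between Prelude places and primes of a Dedekind domain

`F` is a field over `K`, `R` a Dedekind domain containing `K` with fraction field `F`.  Nonzero
primes of `R` give places of `F / K` (`placeOf`), and a place whose valuation ring contains `R`
gives a prime of `R` (`primeUnder`); these are mutually inverse.
-/

set_option autoImplicit false

open AlgebraicCurve IsDedekindDomain WithZero Polynomial

namespace Fermat.Agent.S24.PlaceDict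

variable {K F : Type*} [Field K] [Field F] [Algebra K F]

/-- Membership in the valuation ring of a place in terms of its normalised valuation. -/
theorem mem_iff_adicValuation_le_one (v : Place K F) (f : F) :
    f ∈ v.toValuationSubring ↔ v.adicValuation f ≤ 1 := by
  constructor
  · intro hf
    exact v.heightOneSpectrum.valuation_le_one (K := F) (⟨f, hf⟩ : v.toValuationSubring)
  · intro h
    obtain ⟨a, ha⟩ := IsDiscreteValuationRing.exists_lift_of_le_one
      (A := v.toValuationSubring) (K := F) h
    rw [← ha]
    exact a.2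

theorem mem_nonunits_iff_adicValuation_lt_one (v : Place K F) (f : F) :
    f ∈ v.toValuationSubring.nonunits ↔ v.adicValuation f < 1 := by
  rw [ValuationSubring.mem_nonunits_iff_exists_mem_maximalIdeal]
  constructor
  · rintro ⟨hf, hm⟩
    exact (v.heightOneSpectrum.valuation_lt_one_iff_mem (K := F) ⟨f, hf⟩).mpr hm
  · intro h
    have hf := (mem_iff_adicValuation_le_one v f).mpr h.le
    exact ⟨hf, (v.heightOneSpectrum.valuation_lt_one_iff_mem (K := F) ⟨f, hf⟩).mp h⟩

theorem ord_pos_iff (v : Place K F) (f : F) :
    0 < v.ord f ↔ f ≠ 0 ∧ v.adicValuation f < 1 := by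
  unfold Place.ord
  constructor
  · intro h
    have hf : f ≠ 0 := by
      rintro rfl
      simp at h
    refine ⟨hf, ?_⟩
    have h0 := v.adicValuation_ne_zero hf
    rw [← WithZero.exp_log h0, ← WithZero.exp_zero, WithZero.exp_lt_exp]
    omega
  · rintro ⟨hf, h⟩
    have h0 := v.adicValuation_ne_zero hf
    rw [← WithZero.exp_log h0, ← WithZero.exp_zero, WithZero.exp_lt_exp] at h
    omega

theorem ord_pos_iff_mem_nonunits (v : Place K F) (f : F) :
    0 < v.ord f ↔ f ≠ 0 ∧ f ∈ v.toValuationSubring.nonunits := by
  rw [ord_pos_iff, mem_nonunits_iff_adicValuation_lt_one]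

section Dict

variable {R : Type*} [CommRing R] [IsDedekindDomain R] [Algebra R F] [IsFractionRing R F]
  [Algebra K R] [IsScalarTower K R F]

/-- The place of `F` attached to a nonzero prime of a Dedekind domain with fraction field `F`. -/
noncomputable def placeOf (P : HeightOneSpectrum R) : Place K F where
  toValuationSubring := (P.valuation F).valuationSubring
  algebraMap_mem' a := by
    rw [Valuation.mem_valuationSubring_iff, IsScalarTower.algebraMap_apply K R F]
    exact P.valuation_le_one _
  ne_top' := by
    rw [Ne, Valuation.valuationSubring_eq_top_iff, not_not]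
    infer_instance
  isPrincipalIdealRing' := by
    rw [← P.valuationSubringAtPrime_eq_valuationSubring]
    have := IsLocalization.AtPrime.isDiscreteValuationRing_of_dedekind_domain R P.ne_bot
      (P.valuationSubringAtPrime F)
    infer_instance

omit [IsDedekindDomain R] [IsFractionRing R F] [Algebra K R] [IsScalarTower K R F] in
/-- The ring hom `R → O_v` when `R ⊆ O_v`. -/
def toPlaceRing (v : Place K F) (hR : ∀ r : R, algebraMap R F r ∈ v.toValuationSubring) :
    R →+* v.toValuationSubring :=
  (algebraMap R F).codRestrict v.toValuationSubring.toSubring hR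

/-- The prime of `R` under a place whose valuation ring contains `R`. -/
def primeUnder (v : Place K F) (hR : ∀ r : R, algebraMap R F r ∈ v.toValuationSubring) :
    Ideal R :=
  (IsLocalRing.maximalIdeal v.toValuationSubring).comap (toPlaceRing v hR)

omit [IsDedekindDomain R] [IsFractionRing R F] [Algebra K R] [IsScalarTower K R F] in
theorem mem_primeUnder (v : Place K F) (hR : ∀ r : R, algebraMap R F r ∈ v.toValuationSubring)
    (r : R) : r ∈ primeUnder v hR ↔ algebraMap R F r ∈ v.toValuationSubring.nonunits := by
  rw [ValuationSubring.mem_nonunits_iff_exists_mem_maximalIdeal]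
  constructor
  · intro h
    exact ⟨hR r, h⟩
  · rintro ⟨_, h⟩
    exact h

omit [IsDedekindDomain R] [IsFractionRing R F] [Algebra K R] [IsScalarTower K R F] in
theorem primeUnder_isPrime (v : Place K F)
    (hR : ∀ r : R, algebraMap R F r ∈ v.toValuationSubring) : (primeUnder v hR).IsPrime :=
  Ideal.comap_isPrime _ _

omit [Algebra K R] [IsScalarTower K R F] in
/-- A place whose valuation ring contains `R` is the place of the prime under it. -/
theorem valuationSubring_eq (v : Place K F)
    (hR : ∀ r : R, algebraMap R F r ∈ v.toValuationSubring) (hne : primeUnder v hR ≠ ⊥) :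
    ((⟨primeUnder v hR, primeUnder_isPrime v hR, hne⟩ : HeightOneSpectrum R).valuation
      F).valuationSubring = v.toValuationSubring := by
  set P : HeightOneSpectrum R := ⟨primeUnder v hR, primeUnder_isPrime v hR, hne⟩ with hP
  rw [← P.valuationSubringAtPrime_eq_valuationSubring]
  apply ValuationSubring.eq_of_le_of_ne_top _ _ v.ne_top'
  intro x hx
  rw [P.valuationSubringAtPrime_eq_valuationSubring, Valuation.mem_valuationSubring_iff] at hx
  obtain ⟨n, d, hnd⟩ := P.exists_primeCompl_mul_eq_of_integer x hx
  have hd : algebraMap R F d ∉ v.toValuationSubring.nonunits := by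
    rw [← mem_primeUnder v hR]
    exact d.2
  have hd0 : algebraMap R F d ≠ 0 := by
    intro h0
    apply hd
    rw [h0, ValuationSubring.mem_nonunits_iff]
    simp
  have hdinv : (algebraMap R F d)⁻¹ ∈ v.toValuationSubring := by
    by_contra hcon
    apply hd
    rw [ValuationSubring.mem_nonunits_iff_or]
    exact Or.inr hcon
  have hx' : x = algebraMap R F n * (algebraMap R F d)⁻¹ := by
    rw [← hnd]
    field_simp
  rw [hx']
  exact v.toValuationSubring.mul_mem _ _ (hR n) hdinv

omit [Algebra K R] [IsScalarTower K R F] in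
theorem valuationSubring_eq' (v : Place K F)
    (hR : ∀ r : R, algebraMap R F r ∈ v.toValuationSubring) (P : HeightOneSpectrum R)
    (hP : P.asIdeal = primeUnder v hR) :
    (P.valuation F).valuationSubring = v.toValuationSubring := by
  obtain ⟨I, hI1, hI2⟩ := P
  change I = _ at hP
  subst hP
  exact valuationSubring_eq v hR hI2

theorem algebraMap_mem_placeOf (P : HeightOneSpectrum R) (r : R) :
    algebraMap R F r ∈ (placeOf (K := K) (F := F) P).toValuationSubring := by
  show algebraMap R F r ∈ (P.valuation F).valuationSubring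
  rw [Valuation.mem_valuationSubring_iff]
  exact P.valuation_le_one r

theorem primeUnder_placeOf (P : HeightOneSpectrum R) :
    primeUnder (placeOf (K := K) (F := F) P) (algebraMap_mem_placeOf P) = P.asIdeal := by
  ext r
  rw [mem_primeUnder, ValuationSubring.mem_nonunits_iff, ← P.valuation_lt_one_iff_mem (K := F)]
  exact ((Valuation.isEquiv_valuation_valuationSubring (P.valuation F)).lt_one_iff_lt_one).symm

end Dict

section Adjoin

open scoped IntermediateField
open scoped IntermediateField.algebraAdjoinAdjoin

variable (K : Type*) {F : Type*} [Field K] [Field F] [Algebra K F] (y : F)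

/-- The generator of `K[y]`. -/
def gen : Algebra.adjoin K {y} := ⟨y, Algebra.self_mem_adjoin_singleton K y⟩

theorem aeval_gen_surjective :
    Function.Surjective (aeval (R := K) (gen K y)) := by
  rintro ⟨a, ha⟩
  have ha' := ha
  rw [Algebra.adjoin_singleton_eq_range_aeval] at ha'
  obtain ⟨p, hp⟩ := ha'
  refine ⟨p, Subtype.ext ?_⟩
  show ((aeval (gen K y) p : Algebra.adjoin K {y}) : F) = a
  rw [← Subalgebra.aeval_coe]
  exact hp

theorem isPrincipalIdealRing_adjoin : IsPrincipalIdealRing (Algebra.adjoin K {y}) :=
  IsPrincipalIdealRing.of_surjective (aeval (R := K) (gen K y)).toRingHom (aeval_gen_surjective K y)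

/-- Every element of `K[y]` is congruent to a constant modulo `y`. -/
theorem exists_sub_mem_span_gen (a : Algebra.adjoin K {y}) :
    ∃ c : K, a - algebraMap K (Algebra.adjoin K {y}) c ∈ Ideal.span {gen K y} := by
  obtain ⟨p, rfl⟩ := aeval_gen_surjective K y a
  refine ⟨p.coeff 0, ?_⟩
  rw [Ideal.mem_span_singleton]
  refine ⟨aeval (gen K y) p.divX, ?_⟩
  have h : aeval (gen K y) p =
      aeval (gen K y) p.divX * gen K y + algebraMap K _ (p.coeff 0) := by
    conv_lhs => rw [← p.divX_mul_X_add]
    simp only [map_add, map_mul, aeval_X, aeval_C]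
  rw [h]
  ring

variable {K y}

theorem gen_ne_zero (hy : Transcendental K y) : gen K y ≠ 0 := by
  intro h
  apply hy
  have h0 : y = 0 := congrArg Subtype.val h
  rw [h0]
  exact isAlgebraic_zero

theorem not_isUnit_gen (hy : Transcendental K y) : ¬ IsUnit (gen K y) := by
  rintro ⟨u, hu⟩
  obtain ⟨q, hq⟩ := aeval_gen_surjective K y (u⁻¹ : (Algebra.adjoin K {y})ˣ)
  apply hy
  refine ⟨X * q - 1, ?_, ?_⟩
  · intro h
    have := congrArg (fun p => p.coeff 0) h
    simp at this
  · have h1 : gen K y * aeval (gen K y) q = 1 := by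
      rw [hq, ← hu]
      exact u.mul_inv
    have h2 := congrArg Subtype.val h1
    have h3 : aeval y q = ((aeval (gen K y) q : Algebra.adjoin K {y}) : F) :=
      Subalgebra.aeval_coe _ (gen K y) q
    rw [map_sub, map_mul, aeval_X, map_one, sub_eq_zero, h3]
    exact h2

theorem span_gen_isMaximal (hy : Transcendental K y) : (Ideal.span {gen K y}).IsMaximal := by
  rw [Ideal.isMaximal_iff]
  constructor
  · rw [Ideal.mem_span_singleton]
    intro h
    exact not_isUnit_gen hy (isUnit_of_dvd_one h)
  · intro J x hle hx hxJ
    obtain ⟨c, hc⟩ := exists_sub_mem_span_gen K y x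
    have hc0 : c ≠ 0 := by
      rintro rfl
      rw [map_zero, sub_zero] at hc
      exact hx hc
    have h1 : algebraMap K (Algebra.adjoin K {y}) c ∈ J := by
      have := J.sub_mem hxJ (hle hc)
      rwa [sub_sub_cancel] at this
    have h2 := J.mul_mem_left (algebraMap K (Algebra.adjoin K {y}) c⁻¹) h1
    rwa [← map_mul, inv_mul_cancel₀ hc0, map_one] at h2


/-- Over an algebraically closed constant field, primes of an integral extension lying over a
maximal ideal with residue field `K` have inertia degree one. -/
theorem inertiaDeg_eq_one {K A B : Type*} [Field K] [IsAlgClosed K] [CommRing A] [CommRing B]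
    [Algebra K A] [Algebra A B] [Algebra K B] [IsScalarTower K A B] [Algebra.IsIntegral A B]
    (p : Ideal A) [p.IsMaximal] (P : Ideal B) [P.IsPrime] [P.LiesOver p]
    (hp : ∀ a : A, ∃ c : K, a - algebraMap K A c ∈ p) : P.inertiaDeg A = 1 := by
  have hPmax : P.IsMaximal := Ideal.IsMaximal.of_liesOver_isMaximal P p
  rw [Ideal.inertiaDeg_eq_of_isMaximal p P]
  let _ := Ideal.Quotient.field p
  let _ := Ideal.Quotient.field P
  have hint : Algebra.IsIntegral K (B ⧸ P) := by
    have h1 : Algebra.IsIntegral K (A ⧸ p) := by
      apply Algebra.isIntegral_of_surjective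
      intro x
      obtain ⟨a, rfl⟩ := Ideal.Quotient.mk_surjective x
      obtain ⟨c, hc⟩ := hp a
      refine ⟨c, ?_⟩
      rw [IsScalarTower.algebraMap_apply K A (A ⧸ p), Ideal.Quotient.algebraMap_eq, eq_comm,
        Ideal.Quotient.eq]
      exact hc
    exact Algebra.IsIntegral.trans (A ⧸ p)
  have hsurj : Function.Surjective (algebraMap K (B ⧸ P)) :=
    (IsAlgClosed.algebraMap_bijective_of_isIntegral (k := K) (K := B ⧸ P)).2
  have hsurj' : Function.Surjective (algebraMap (A ⧸ p) (B ⧸ P)) := by
    intro x
    obtain ⟨c, rfl⟩ := hsurj x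
    exact ⟨algebraMap K (A ⧸ p) c, (IsScalarTower.algebraMap_apply K (A ⧸ p) (B ⧸ P) c).symm⟩
  have hbij : Function.Bijective (Algebra.linearMap (A ⧸ p) (B ⧸ P)) :=
    ⟨(algebraMap (A ⧸ p) (B ⧸ P)).injective, hsurj'⟩
  rw [← (LinearEquiv.ofBijective _ hbij).finrank_eq, Module.finrank_self]

end Adjoin

section Bij

open scoped IntermediateField
open scoped IntermediateField.algebraAdjoinAdjoin

variable {K : Type*} {F : Type*} [Field K] [Field F] [Algebra K F] {y : F}

/-- `K[y] ⊆ O_v` when `y ∈ O_v`. -/
theorem adjoin_mem_of_mem (v : Place K F) (hy : y ∈ v.toValuationSubring)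
    (a : Algebra.adjoin K {y}) : (a : F) ∈ v.toValuationSubring := by
  let S : Subalgebra K F :=
    { v.toValuationSubring.toSubring with algebraMap_mem' := v.algebraMap_mem' }
  have h : Algebra.adjoin K {y} ≤ S := Algebra.adjoin_le (by
    intro x hx
    rw [Set.mem_singleton_iff] at hx
    rw [hx]
    exact hy)
  exact h a.2

/-- The integral closure of `K[y]` is contained in `O_v` when `y ∈ O_v`. -/
theorem integralClosure_mem_of_mem (v : Place K F) (hy : y ∈ v.toValuationSubring)
    (b : integralClosure (Algebra.adjoin K {y}) F) :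
    algebraMap (integralClosure (Algebra.adjoin K {y}) F) F b ∈ v.toValuationSubring := by
  rw [mem_iff_adicValuation_le_one]
  refine Orbit.val_le_one_of_isIntegral v.adicValuation (algebraMap (Algebra.adjoin K {y}) F) ?_
    b.2
  intro a
  rw [← mem_iff_adicValuation_le_one]
  exact adjoin_mem_of_mem v hy a

theorem mem_of_ord_pos (v : Place K F) (hv : 0 < v.ord y) : y ∈ v.toValuationSubring := by
  rw [mem_iff_adicValuation_le_one]
  exact ((ord_pos_iff v y).mp hv).2.le

theorem algebraMap_gen_mem_primeUnder (v : Place K F) (hv : 0 < v.ord y)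
    (hB : ∀ b : integralClosure (Algebra.adjoin K {y}) F,
      algebraMap (integralClosure (Algebra.adjoin K {y}) F) F b ∈ v.toValuationSubring) :
    algebraMap (Algebra.adjoin K {y}) (integralClosure (Algebra.adjoin K {y}) F) (gen K y) ∈
      primeUnder v hB := by
  rw [mem_primeUnder]
  exact ((ord_pos_iff_mem_nonunits v y).mp hv).2

theorem primeUnder_liesOver (hy : Transcendental K y) (v : Place K F) (hv : 0 < v.ord y)
    (hB : ∀ b : integralClosure (Algebra.adjoin K {y}) F,
      algebraMap (integralClosure (Algebra.adjoin K {y}) F) F b ∈ v.toValuationSubring) :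
    (primeUnder v hB).LiesOver (Ideal.span {gen K y}) := by
  constructor
  have hle : Ideal.span {gen K y} ≤ (primeUnder v hB).under (Algebra.adjoin K {y}) := by
    rw [Ideal.span_le, Set.singleton_subset_iff]
    exact algebraMap_gen_mem_primeUnder v hv hB
  have hne : (primeUnder v hB).under (Algebra.adjoin K {y}) ≠ ⊤ := by
    have := primeUnder_isPrime v hB
    exact (Ideal.IsPrime.under (Algebra.adjoin K {y}) (primeUnder v hB)).ne_top
  exact (span_gen_isMaximal hy).eq_of_le hne hle

theorem algebraMap_gen_ne_zero (hy : Transcendental K y) :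
    algebraMap (Algebra.adjoin K {y}) (integralClosure (Algebra.adjoin K {y}) F) (gen K y) ≠ 0 := by
  intro h
  apply gen_ne_zero hy
  have h1 : (algebraMap (integralClosure (Algebra.adjoin K {y}) F) F)
      (algebraMap (Algebra.adjoin K {y}) (integralClosure (Algebra.adjoin K {y}) F) (gen K y)) =
      0 := by rw [h, map_zero]
  exact Subtype.ext h1

/-- **Dictionary.** The zeros of a transcendental `y` (as places) are in bijection with the primes
of the integral closure of `K[y]` lying over `(y)`. -/
theorem card_zeros_eq_card_primesOver (hy : Transcendental K y) [FiniteDimensional K⟮y⟯ F]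
    [Algebra.IsSeparable K⟮y⟯ F] :
    Nat.card {v : Place K F // 0 < v.ord y} =
      Nat.card ((Ideal.span {gen K y}).primesOver (integralClosure (Algebra.adjoin K {y}) F)) := by
  classical
  have hPIR : IsPrincipalIdealRing (Algebra.adjoin K {y}) := isPrincipalIdealRing_adjoin K y
  have hDed : IsDedekindDomain (integralClosure (Algebra.adjoin K {y}) F) :=
    IsIntegralClosure.isDedekindDomain (Algebra.adjoin K {y}) K⟮y⟯ F _
  have hfrac : IsFractionRing (integralClosure (Algebra.adjoin K {y}) F) F :=
    IsIntegralClosure.isFractionRing_of_finite_extension (Algebra.adjoin K {y}) K⟮y⟯ F _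
  have hyB : ∀ v : Place K F, 0 < v.ord y → ∀ b : integralClosure (Algebra.adjoin K {y}) F,
      algebraMap (integralClosure (Algebra.adjoin K {y}) F) F b ∈ v.toValuationSubring :=
    fun v hv b => integralClosure_mem_of_mem v (mem_of_ord_pos v hv) b
  let Φ : {v : Place K F // 0 < v.ord y} →
      (Ideal.span {gen K y}).primesOver (integralClosure (Algebra.adjoin K {y}) F) := fun v =>
    ⟨primeUnder v.1 (hyB v.1 v.2), primeUnder_isPrime _ _, primeUnder_liesOver hy v.1 v.2 _⟩
  apply Nat.card_eq_of_bijective Φ
  constructor
  · rintro ⟨v, hv⟩ ⟨v', hv'⟩ h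
    have h' : primeUnder v (hyB v hv) = primeUnder v' (hyB v' hv') := congrArg Subtype.val h
    have hne : primeUnder v (hyB v hv) ≠ ⊥ := fun h0 =>
      algebraMap_gen_ne_zero hy ((Ideal.mem_bot).mp (h0 ▸ algebraMap_gen_mem_primeUnder v hv _))
    have h1 := valuationSubring_eq' v (hyB v hv) ⟨_, primeUnder_isPrime _ _, hne⟩ rfl
    have h2 := valuationSubring_eq' v' (hyB v' hv') ⟨_, primeUnder_isPrime _ _, hne⟩ h'
    exact Subtype.ext (Place.ext (h1.symm.trans h2))
  · rintro ⟨P, hP1, hP2⟩
    have hmem : algebraMap (Algebra.adjoin K {y}) (integralClosure (Algebra.adjoin K {y}) F)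
        (gen K y) ∈ P := by
      have h1 : gen K y ∈ P.under (Algebra.adjoin K {y}) := by
        rw [← hP2.over]
        exact Ideal.mem_span_singleton_self _
      exact h1
    have hne : P ≠ ⊥ := fun h0 => algebraMap_gen_ne_zero hy ((Ideal.mem_bot).mp (h0 ▸ hmem))
    let vP : HeightOneSpectrum (integralClosure (Algebra.adjoin K {y}) F) := ⟨P, hP1, hne⟩
    have hpu := primeUnder_placeOf (K := K) (F := F) vP
    have hv : 0 < (placeOf (K := K) (F := F) vP).ord y := by
      rw [ord_pos_iff_mem_nonunits]
      refine ⟨fun h0 => hy (h0 ▸ isAlgebraic_zero), ?_⟩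
      have h3 : algebraMap (Algebra.adjoin K {y}) (integralClosure (Algebra.adjoin K {y}) F)
          (gen K y) ∈ primeUnder (placeOf (K := K) (F := F) vP) (algebraMap_mem_placeOf vP) := by
        rw [hpu]
        exact hmem
      rw [mem_primeUnder] at h3
      exact h3
    exact ⟨⟨placeOf (K := K) (F := F) vP, hv⟩, Subtype.ext hpu⟩

end Bij

end Fermat.Agent.S24.PlaceDict
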