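import Mathlib
import Fermat.Prelude.Def_ModularCurve_GenusNumerics
import Fermat.Agent.S24.CombBasic

/-!
# The number of `T`-orbits on `SL(2, ℤ) ⧸ Γ₀(N)` is `cuspCount N` (piece C3 of S24)

A `⟨T⟩`-orbit of the coset of `g` (first column `(a, c)`) is classified by `d = gcd(c, N)` and
the class of `a * (c / d)⁻¹` modulo `gcd(d, N / d)`.
-/

open CongruenceSubgroup
open scoped MatrixGroups

namespace Fermat.Agent.S24.Comb

variable {N : ℕ}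

theorem T_zpow_mul_apply_zero_zero (k : ℤ) (g : SL(2, ℤ)) :
    (ModularGroup.T ^ k * g) 0 0 = g 0 0 + k * g 1 0 := by
  rw [Matrix.SpecialLinearGroup.coe_mul, ModularGroup.coe_T_zpow]
  simp [Matrix.mul_apply, Fin.sum_univ_two]

theorem T_zpow_mul_apply_one_zero (k : ℤ) (g : SL(2, ℤ)) :
    (ModularGroup.T ^ k * g) 1 0 = g 1 0 := by
  rw [Matrix.SpecialLinearGroup.coe_mul, ModularGroup.coe_T_zpow]
  simp [Matrix.mul_apply, Fin.sum_univ_two]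

/-- The orbit space of `⟨T⟩` on `SL(2, ℤ) ⧸ Γ₀(N)` ("cusps"). -/
abbrev CuspSet (N : ℕ) : Type :=
  MulAction.orbitRel.Quotient (Subgroup.zpowers ModularGroup.T) (SL(2, ℤ) ⧸ Gamma0 N)

/-- The `⟨T⟩`-orbit of the coset of `g`. -/
def cuspMk (N : ℕ) (g : SL(2, ℤ)) : CuspSet N := Quotient.mk'' (g : SL(2, ℤ) ⧸ Gamma0 N)

theorem cuspMk_surjective (N : ℕ) : Function.Surjective (cuspMk N) := by
  intro ω
  induction ω using Quotient.inductionOn' with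
  | h x =>
    induction x using QuotientGroup.induction_on with
    | H g => exact ⟨g, rfl⟩

theorem cuspMk_eq_iff (g g' : SL(2, ℤ)) :
    cuspMk N g = cuspMk N g' ↔
      ∃ k : ℤ, (N : ℤ) ∣ (g' 0 0 + k * g' 1 0) * g 1 0 - g' 1 0 * g 0 0 := by
  unfold cuspMk
  rw [Quotient.eq'', MulAction.orbitRel_apply, MulAction.mem_orbit_iff]
  constructor
  · rintro ⟨⟨z, hz⟩, h⟩
    obtain ⟨k, rfl⟩ := Subgroup.mem_zpowers_iff.mp hz
    refine ⟨k, ?_⟩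
    have h' : ((ModularGroup.T ^ k * g' : SL(2, ℤ)) : SL(2, ℤ) ⧸ Gamma0 N) = g := h
    rw [mk_eq_mk_iff, T_zpow_mul_apply_zero_zero, T_zpow_mul_apply_one_zero,
      ZMod.intCast_zmod_eq_zero_iff_dvd] at h'
    exact h'
  · rintro ⟨k, hk⟩
    refine ⟨⟨ModularGroup.T ^ k, Subgroup.zpow_mem_zpowers _ k⟩, ?_⟩
    show ((ModularGroup.T ^ k * g' : SL(2, ℤ)) : SL(2, ℤ) ⧸ Gamma0 N) = g
    rw [mk_eq_mk_iff, T_zpow_mul_apply_zero_zero, T_zpow_mul_apply_one_zero,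
      ZMod.intCast_zmod_eq_zero_iff_dvd]
    exact hk

/-- The index set of the cusps: a divisor `d` of `N` and a unit modulo `gcd(d, N / d)`. -/
abbrev CuspIdx (N : ℕ) : Type :=
  Σ d : {d // d ∈ N.divisors}, (ZMod (Nat.gcd d (N / d)))ˣ

theorem card_cuspIdx (N : ℕ) : Nat.card (CuspIdx N) = ModularCurve.cuspCount N := by
  unfold ModularCurve.cuspCount
  rw [Nat.card_sigma, ← Finset.sum_coe_sort N.divisors (fun d => Nat.totient (Nat.gcd d (N / d)))]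
  refine Finset.sum_congr rfl fun d _ => ?_
  have : NeZero (Nat.gcd d (N / d)) :=
    ⟨Nat.gcd_ne_zero_left (Nat.pos_of_mem_divisors d.2).ne'⟩
  rw [Nat.card_eq_fintype_card, ZMod.card_units_eq_totient]

theorem exists_rep (N : ℕ) (x : CuspIdx N) :
    ∃ g : SL(2, ℤ), g 1 0 = ((x.1 : ℕ) : ℤ) ∧
      ((g 0 0 : ℤ) : ZMod (Nat.gcd x.1 (N / x.1))) = (x.2 : ZMod (Nat.gcd x.1 (N / x.1))) := by
  obtain ⟨⟨d, hd⟩, ε⟩ := x
  have hd0 : d ≠ 0 := (Nat.pos_of_mem_divisors hd).ne'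
  have : NeZero d := ⟨hd0⟩
  obtain ⟨u, hu⟩ := ZMod.unitsMap_surjective (Nat.gcd_dvd_left d (N / d)) ε
  have hcop : Nat.Coprime (u : ZMod d).val d := ZMod.val_coe_unit_coprime u
  have hcop' : IsCoprime (((u : ZMod d).val : ℤ)) (d : ℤ) := by
    rw [Int.isCoprime_iff_gcd_eq_one, Int.gcd_natCast_natCast]; exact hcop
  obtain ⟨s, t, hst⟩ := hcop'
  have hdet : Matrix.det !![((u : ZMod d).val : ℤ), -t; (d : ℤ), s] = 1 := by
    rw [Matrix.det_fin_two_of]; linear_combination hst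
  refine ⟨⟨!![((u : ZMod d).val : ℤ), -t; (d : ℤ), s], hdet⟩, rfl, ?_⟩
  show ((((u : ZMod d).val : ℤ)) : ZMod (Nat.gcd d (N / d))) = (ε : ZMod (Nat.gcd d (N / d)))
  rw [← hu, ZMod.unitsMap_val, Int.cast_natCast, ZMod.natCast_val]

/-- A chosen representative matrix for an index. -/
noncomputable def rep (N : ℕ) (x : CuspIdx N) : SL(2, ℤ) := (exists_rep N x).choose

theorem rep_apply_one_zero (N : ℕ) (x : CuspIdx N) : rep N x 1 0 = ((x.1 : ℕ) : ℤ) :=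
  (exists_rep N x).choose_spec.1

theorem rep_apply_zero_zero (N : ℕ) (x : CuspIdx N) :
    ((rep N x 0 0 : ℤ) : ZMod (Nat.gcd x.1 (N / x.1))) = (x.2 : ZMod (Nat.gcd x.1 (N / x.1))) :=
  (exists_rep N x).choose_spec.2

/-- The cusp attached to an index. -/
noncomputable def cuspOf (N : ℕ) (x : CuspIdx N) : CuspSet N := cuspMk N (rep N x)

theorem isCoprime_col (g : SL(2, ℤ)) : IsCoprime (g 0 0) (g 1 0) :=
  ⟨g 1 1, -g 0 1, by linear_combination det_eq_one' g⟩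

theorem inj_aux {N d d' : ℕ} (hd : d ∣ N) (hd0 : d ≠ 0) {a a' k : ℤ}
    (hcop : IsCoprime a (d : ℤ)) (hcop' : IsCoprime a' (d' : ℤ)) (hd' : d' ∣ N)
    (h : (N : ℤ) ∣ (a' + k * d') * d - d' * a) :
    d = d' ∧ ((Nat.gcd d (N / d) : ℕ) : ℤ) ∣ a' - a := by
  have h1 : (d' : ℤ) ∣ (d : ℤ) := by
    have h2 : (d' : ℤ) ∣ (a' + k * d') * d - d' * a :=
      (Int.natCast_dvd_natCast.mpr hd').trans h
    have h3 : (d' : ℤ) ∣ a' * d := by
      have h4 : (d' : ℤ) ∣ (a' + k * d') * d - d' * a - (d' * (k * d - a)) :=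
        dvd_sub h2 (dvd_mul_right _ _)
      have h5 : (a' + k * d') * d - d' * a - (d' * (k * d - a)) = a' * d := by ring
      rwa [h5] at h4
    exact hcop'.symm.dvd_of_dvd_mul_left h3
  have h2 : (d : ℤ) ∣ (d' : ℤ) := by
    have h2 : (d : ℤ) ∣ (a' + k * d') * d - d' * a :=
      (Int.natCast_dvd_natCast.mpr hd).trans h
    have h3 : (d : ℤ) ∣ a * d' := by
      have h4 : (d : ℤ) ∣ (a' + k * d') * d - ((a' + k * d') * d - d' * a) :=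
        dvd_sub (dvd_mul_left _ _) h2
      have h5 : (a' + k * d') * d - ((a' + k * d') * d - d' * a) = a * d' := by ring
      rwa [h5] at h4
    exact hcop.symm.dvd_of_dvd_mul_left h3
  have hdd : d = d' :=
    Nat.dvd_antisymm (Int.natCast_dvd_natCast.mp h2) (Int.natCast_dvd_natCast.mp h1)
  subst hdd
  refine ⟨rfl, ?_⟩
  obtain ⟨N1, rfl⟩ := hd
  have hN1 : d * N1 / d = N1 := Nat.mul_div_cancel_left N1 (Nat.pos_of_ne_zero hd0)
  rw [hN1]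
  have hd0' : (d : ℤ) ≠ 0 := by exact_mod_cast hd0
  have h3 : (N1 : ℤ) ∣ a' + k * d - a := by
    have h4 : ((d * N1 : ℕ) : ℤ) ∣ (d : ℤ) * (a' + k * d - a) := by
      have h5 : (d : ℤ) * (a' + k * d - a) = (a' + k * d) * d - d * a := by ring
      rw [h5]; exact h
    rw [Nat.cast_mul] at h4
    exact (mul_dvd_mul_iff_left hd0').mp h4
  have hg1 : ((Nat.gcd d N1 : ℕ) : ℤ) ∣ (d : ℤ) := Int.natCast_dvd_natCast.mpr (Nat.gcd_dvd_left _ _)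
  have hg2 : ((Nat.gcd d N1 : ℕ) : ℤ) ∣ (N1 : ℤ) := Int.natCast_dvd_natCast.mpr (Nat.gcd_dvd_right _ _)
  have h6 : ((Nat.gcd d N1 : ℕ) : ℤ) ∣ a' + k * d - a - k * d :=
    dvd_sub (hg2.trans h3) (Dvd.dvd.mul_left hg1 k)
  have h7 : a' + k * d - a - k * d = a' - a := by ring
  rwa [h7] at h6

theorem cuspOf_injective (N : ℕ) [NeZero N] : Function.Injective (cuspOf N) := by
  rintro ⟨⟨d, hd⟩, ε⟩ ⟨⟨d', hd'⟩, ε'⟩ h
  unfold cuspOf at h
  rw [cuspMk_eq_iff] at h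
  obtain ⟨k, hk⟩ := h
  have e1 := rep_apply_one_zero N ⟨⟨d, hd⟩, ε⟩
  have e2 := rep_apply_one_zero N ⟨⟨d', hd'⟩, ε'⟩
  have e3 := rep_apply_zero_zero N ⟨⟨d, hd⟩, ε⟩
  have e4 := rep_apply_zero_zero N ⟨⟨d', hd'⟩, ε'⟩
  have c1 := isCoprime_col (rep N ⟨⟨d, hd⟩, ε⟩)
  have c2 := isCoprime_col (rep N ⟨⟨d', hd'⟩, ε'⟩)
  simp only at e1 e2 e3 e4
  rw [e1] at c1 hk
  rw [e2] at c2 hk
  obtain ⟨hdd, hdiv⟩ := inj_aux (Nat.dvd_of_mem_divisors hd) (Nat.pos_of_mem_divisors hd).ne'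
    c1 c2 (Nat.dvd_of_mem_divisors hd') hk
  subst hdd
  have hε : ε = ε' := by
    apply Units.ext
    rw [← e3, ← e4]
    exact (ZMod.intCast_eq_intCast_iff_dvd_sub _ _ _).mpr hdiv
  rw [hε]

theorem surj_aux (d N1 c1 a a0 x y p q t m : ℤ) (hbez1 : c1 * x + N1 * y = 1)
    (hbez2 : m = d * p + N1 * q) (ht : a - c1 * a0 = m * t) :
    (a + (-p * x * t) * (d * c1)) * d - (d * c1) * a0 =
      (d * N1) * (t * (m * y + q - N1 * q * y)) := by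
  have ha : a = c1 * a0 + m * t := by linarith
  subst ha
  subst hbez2
  linear_combination (-(d ^ 2) * t * p) * hbez1

theorem cuspOf_surjective (N : ℕ) [NeZero N] : Function.Surjective (cuspOf N) := by
  intro ω
  obtain ⟨g, rfl⟩ := cuspMk_surjective N ω
  have hN0 : N ≠ 0 := NeZero.ne N
  have hdet : g 0 0 * g 1 1 - g 0 1 * g 1 0 = 1 := det_eq_one' g
  obtain ⟨x, y, hxy⟩ : ∃ x y : ℤ, ((Int.gcd (g 1 0) N : ℕ) : ℤ) = g 1 0 * x + N * y :=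
    ⟨_, _, Int.gcd_eq_gcd_ab (g 1 0) N⟩
  have hdN : Int.gcd (g 1 0) N ∣ N := Int.natCast_dvd_natCast.mp (Int.gcd_dvd_right (g 1 0) N)
  obtain ⟨c1, hc1⟩ : ((Int.gcd (g 1 0) N : ℕ) : ℤ) ∣ g 1 0 := Int.gcd_dvd_left (g 1 0) N
  generalize Int.gcd (g 1 0) N = d at hxy hdN hc1
  have hd0 : d ≠ 0 := fun h0 => hN0 (Nat.eq_zero_of_zero_dvd (h0 ▸ hdN))
  have hd0' : (d : ℤ) ≠ 0 := by exact_mod_cast hd0
  have hN1 : N = d * (N / d) := (Nat.mul_div_cancel' hdN).symm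
  have h3 : ((N : ℕ) : ℤ) = (d : ℤ) * ((N / d : ℕ) : ℤ) := by exact_mod_cast hN1
  have hbez1 : c1 * x + ((N / d : ℕ) : ℤ) * y = 1 := by
    have h2 : (d : ℤ) * (c1 * x + ((N / d : ℕ) : ℤ) * y) = (d : ℤ) * 1 := by
      linear_combination -hxy - x * hc1 - y * h3
    exact mul_left_cancel₀ hd0' h2
  have hbez2 : ((Nat.gcd d (N / d) : ℕ) : ℤ) =
      d * (Nat.gcdA d (N / d)) + ((N / d : ℕ) : ℤ) * (Nat.gcdB d (N / d)) :=
    Nat.gcd_eq_gcd_ab d (N / d)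
  have hmd : ((d : ℕ) : ZMod (Nat.gcd d (N / d))) = 0 :=
    (ZMod.natCast_eq_zero_iff d _).mpr (Nat.gcd_dvd_left d (N / d))
  have hmN1 : (((N / d : ℕ)) : ZMod (Nat.gcd d (N / d))) = 0 :=
    (ZMod.natCast_eq_zero_iff (N / d) _).mpr (Nat.gcd_dvd_right d (N / d))
  have hc1x : ((c1 : ℤ) : ZMod (Nat.gcd d (N / d))) * ((x : ℤ) : ZMod (Nat.gcd d (N / d))) = 1 := by
    have := congrArg (Int.cast : ℤ → ZMod (Nat.gcd d (N / d))) hbez1
    simp only [Int.cast_add, Int.cast_mul, Int.cast_one, Int.cast_natCast] at this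
    rw [hmN1, zero_mul, add_zero] at this
    exact this
  have hadel : ((g 0 0 : ℤ) : ZMod (Nat.gcd d (N / d))) *
      ((g 1 1 : ℤ) : ZMod (Nat.gcd d (N / d))) = 1 := by
    have := congrArg (Int.cast : ℤ → ZMod (Nat.gcd d (N / d))) hdet
    rw [hc1] at this
    simp only [Int.cast_sub, Int.cast_mul, Int.cast_one, Int.cast_natCast] at this
    rw [hmd] at this
    linear_combination this
  have hunit : ((g 0 0 : ℤ) : ZMod (Nat.gcd d (N / d))) * ((x : ℤ) : ZMod (Nat.gcd d (N / d))) *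
      (((g 1 1 : ℤ) : ZMod (Nat.gcd d (N / d))) * ((c1 : ℤ) : ZMod (Nat.gcd d (N / d)))) = 1 := by
    linear_combination ((c1 : ZMod (Nat.gcd d (N / d))) * (x : ZMod (Nat.gcd d (N / d)))) * hadel
      + hc1x
  have hmemd : d ∈ N.divisors := Nat.mem_divisors.mpr ⟨hdN, hN0⟩
  refine ⟨⟨⟨d, hmemd⟩, Units.mkOfMulEqOne _ _ hunit⟩, ?_⟩
  unfold cuspOf
  rw [cuspMk_eq_iff]
  have e1 := rep_apply_one_zero N ⟨⟨d, hmemd⟩, Units.mkOfMulEqOne _ _ hunit⟩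
  have e3 := rep_apply_zero_zero N ⟨⟨d, hmemd⟩, Units.mkOfMulEqOne _ _ hunit⟩
  simp only [Units.val_mkOfMulEqOne] at e1 e3
  generalize rep N ⟨⟨d, hmemd⟩, Units.mkOfMulEqOne _ _ hunit⟩ = g0 at e1 e3 ⊢
  have hmdiv : ((Nat.gcd d (N / d) : ℕ) : ℤ) ∣ g 0 0 - c1 * g0 0 0 := by
    rw [← ZMod.intCast_zmod_eq_zero_iff_dvd]
    simp only [Int.cast_sub, Int.cast_mul]
    rw [e3]
    linear_combination (-((g 0 0 : ℤ) : ZMod (Nat.gcd d (N / d)))) * hc1x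
  obtain ⟨t, ht⟩ := hmdiv
  refine ⟨-(Nat.gcdA d (N / d)) * x * t, ?_⟩
  rw [e1]
  refine ⟨t * (((Nat.gcd d (N / d) : ℕ) : ℤ) * y + (Nat.gcdB d (N / d))
    - ((N / d : ℕ) : ℤ) * (Nat.gcdB d (N / d)) * y), ?_⟩
  rw [h3, hc1]
  exact surj_aux d _ c1 _ _ x y _ _ t _ hbez1 hbez2 ht

/-- **C3**: the number of `⟨T⟩`-orbits on `SL(2, ℤ) ⧸ Γ₀(N)` is `cuspCount N`. -/
theorem card_orbits_T (N : ℕ) [NeZero N] :
    Nat.card (MulAction.orbitRel.Quotient (Subgroup.zpowers ModularGroup.T)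
      (SL(2, ℤ) ⧸ Gamma0 N)) = ModularCurve.cuspCount N := by
  rw [← card_cuspIdx]
  exact (Nat.card_congr (Equiv.ofBijective (cuspOf N)
    ⟨cuspOf_injective N, cuspOf_surjective N⟩)).symm

end Fermat.Agent.S24.Comb
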