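/-
S24, piece PERM: permutation combinatorics behind the genus formula.

* `scott`: Scott's lemma (linear algebra) for three operators with product one;
* `ree`: Ree's inequality for three permutations with product one generating a transitive group;
* `parity`: the parity statement coming from the sign character;
* `orb_of_prime_order`: orbit count of a permutation of prime order;
* `genus_arith`: the resulting evaluation of `(d + 2).toNat / 2`.
-/
import Mathlib

set_option autoImplicit false

namespace Fermat.Agent.S24.Perm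

open Equiv Module

section Scott

variable {K V : Type*} [Field K] [AddCommGroup V] [Module K V] [FiniteDimensional K V]

/-- Scott's lemma for three operators with product one. -/
theorem scott (A B C : V →ₗ[K] V) (h : A ∘ₗ B ∘ₗ C = LinearMap.id) :
    finrank K V +
        finrank K ↥(LinearMap.range (1 - A) ⊔ LinearMap.range (1 - B) ⊔ LinearMap.range (1 - C)) ≤
      finrank K (LinearMap.range (1 - A)) + finrank K (LinearMap.range (1 - B)) +
        finrank K (LinearMap.range (1 - C)) +
        finrank K ↥(LinearMap.ker (1 - A) ⊓ LinearMap.ker (1 - B) ⊓ LinearMap.ker (1 - C)) := by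
  set RA := LinearMap.range (1 - A) with hRA
  set RB := LinearMap.range (1 - B) with hRB
  set RC := LinearMap.range (1 - C) with hRC
  let β : V →ₗ[K] (RA × RB × RC) :=
    (1 - A).rangeRestrict.prod ((1 - B).rangeRestrict.prod (1 - C).rangeRestrict)
  let δ : (RA × RB × RC) →ₗ[K] V :=
    RA.subtype.coprod ((A ∘ₗ RB.subtype).coprod (A ∘ₗ B ∘ₗ RC.subtype))
  have hABC : ∀ v, A (B (C v)) = v := fun v => by
    have := LinearMap.congr_fun h v
    simpa using this
  have hβ1 : ∀ v, ((β v).1 : V) = v - A v := fun v => rfl
  have hβ2 : ∀ v, ((β v).2.1 : V) = v - B v := fun v => rfl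
  have hβ3 : ∀ v, ((β v).2.2 : V) = v - C v := fun v => rfl
  have hδ : ∀ p : RA × RB × RC, δ p = (p.1 : V) + (A (p.2.1 : V) + A (B (p.2.2 : V))) :=
    fun p => rfl
  have hker : LinearMap.ker β =
      LinearMap.ker (1 - A) ⊓ LinearMap.ker (1 - B) ⊓ LinearMap.ker (1 - C) := by
    ext v
    simp only [LinearMap.mem_ker, Submodule.mem_inf, LinearMap.sub_apply, Module.End.one_apply]
    constructor
    · intro hv
      refine ⟨⟨?_, ?_⟩, ?_⟩
      · rw [← hβ1, hv]; rfl
      · rw [← hβ2, hv]; rfl
      · rw [← hβ3, hv]; rfl
    · rintro ⟨⟨h1, h2⟩, h3⟩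
      refine Prod.ext (Subtype.ext ?_) (Prod.ext (Subtype.ext ?_) (Subtype.ext ?_))
      · rw [hβ1, h1]; rfl
      · rw [hβ2, h2]; rfl
      · rw [hβ3, h3]; rfl
  have hβδ : LinearMap.range β ≤ LinearMap.ker δ := by
    rintro _ ⟨v, rfl⟩
    rw [LinearMap.mem_ker, hδ, hβ1, hβ2, hβ3]
    simp only [map_sub]
    rw [hABC v]
    abel
  have hU : RA ⊔ RB ⊔ RC ≤ LinearMap.range δ := by
    refine sup_le (sup_le ?_ ?_) ?_
    · intro x hx
      refine ⟨(⟨x, hx⟩, 0, 0), ?_⟩
      rw [hδ]
      simp
    · intro y hy
      have hy' : y - A y ∈ RA := ⟨y, by simp⟩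
      refine ⟨(⟨y - A y, hy'⟩, ⟨y, hy⟩, 0), ?_⟩
      rw [hδ]
      simp
    · intro z hz
      have hz1 : z - A z ∈ RA := ⟨z, by simp⟩
      have hz2 : z - B z ∈ RB := ⟨z, by simp⟩
      refine ⟨(⟨z - A z, hz1⟩, ⟨z - B z, hz2⟩, ⟨z, hz⟩), ?_⟩
      rw [hδ]
      simp only [map_sub]
      abel
  have h1 := LinearMap.finrank_range_add_finrank_ker β
  have h2 := LinearMap.finrank_range_add_finrank_ker δ
  have h3 := Submodule.finrank_mono hβδ
  have h4 := Submodule.finrank_mono hU
  have h5 : finrank K (RA × RB × RC) = finrank K RA + (finrank K RB + finrank K RC) := by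
    rw [Module.finrank_prod, Module.finrank_prod]
  rw [hker] at h1
  omega

end Scott

section Permutation

variable {X : Type*}

/-- The operator `f ↦ f ∘ s` on the permutation module `X → ℚ`. -/
def op (s : Perm X) : (X → ℚ) →ₗ[ℚ] (X → ℚ) := LinearMap.funLeft ℚ ℚ s

theorem op_apply (s : Perm X) (f : X → ℚ) (x : X) : op s f x = f (s x) := rfl

theorem op_mul (s t : Perm X) : op (s * t) = op t ∘ₗ op s := by
  ext f x
  rfl

theorem op_one : op (1 : Perm X) = LinearMap.id := by
  ext f x
  rfl

theorem mem_ker_one_sub_op (s : Perm X) (f : X → ℚ) :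
    f ∈ LinearMap.ker (1 - op s) ↔ ∀ x, f (s x) = f x := by
  rw [LinearMap.mem_ker, LinearMap.sub_apply, Module.End.one_apply, sub_eq_zero]
  constructor
  · intro h x
    exact (congrFun h x).symm
  · intro h
    funext x
    exact (h x).symm

/-- The subgroup of permutations leaving a function invariant. -/
def invSubgroup (f : X → ℚ) : Subgroup (Perm X) where
  carrier := {g | ∀ x, f (g x) = f x}
  mul_mem' := fun {a b} ha hb x => by rw [Perm.mul_apply, ha, hb]
  one_mem' := fun x => rfl
  inv_mem' := fun {a} ha x => by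
    simpa using (ha (a⁻¹ x)).symm

theorem mem_invSubgroup (f : X → ℚ) (g : Perm X) : g ∈ invSubgroup f ↔ ∀ x, f (g x) = f x :=
  Iff.rfl

variable [Fintype X]

/-- Number of orbits of the cyclic group generated by `s`. -/
noncomputable def orb (s : Perm X) : ℕ :=
  Nat.card (Quotient (Perm.SameCycle.setoid s))

/-- Number of fixed points of `s`. -/
noncomputable def fix (s : Perm X) : ℕ := Nat.card {x : X // s x = x}

/-- The invariants of `op s` have dimension the number of orbits of `s`. -/
theorem finrank_ker_one_sub_op (s : Perm X) :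
    finrank ℚ (LinearMap.ker (1 - op s)) = orb s := by
  classical
  let Q := Quotient (Perm.SameCycle.setoid s)
  let π : X → Q := Quotient.mk (Perm.SameCycle.setoid s)
  have hπ : Function.Surjective π := Quotient.mk_surjective
  let L : (Q → ℚ) →ₗ[ℚ] (X → ℚ) := LinearMap.funLeft ℚ ℚ π
  have hL : Function.Injective L := LinearMap.funLeft_injective_of_surjective ℚ ℚ π hπ
  have hrange : LinearMap.range L = LinearMap.ker (1 - op s) := by
    ext f
    rw [mem_ker_one_sub_op]
    constructor
    · rintro ⟨g, rfl⟩ x
      show g (π (s x)) = g (π x)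
      congr 1
      apply Quotient.sound
      exact ⟨-1, by simp⟩
    · intro h
      have hinv : Subgroup.zpowers s ≤ invSubgroup f := by
        rw [Subgroup.zpowers_le]
        exact h
      refine ⟨Quotient.lift f ?_, ?_⟩
      · intro a b hab
        obtain ⟨k, rfl⟩ : ∃ k : ℤ, (s ^ k) a = b := hab
        exact (hinv (Subgroup.zpow_mem_zpowers s k) a).symm
      · funext x
        rfl
  have : Fintype Q := Fintype.ofFinite Q
  rw [← hrange, LinearMap.finrank_range_of_inj hL, Module.finrank_fintype_fun_eq_card, orb,
    Nat.card_eq_fintype_card]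

theorem finrank_range_one_sub_op (s : Perm X) :
    finrank ℚ (LinearMap.range (1 - op s)) + orb s = Fintype.card X := by
  have h := LinearMap.finrank_range_add_finrank_ker (1 - op s)
  rw [finrank_ker_one_sub_op, Module.finrank_fintype_fun_eq_card] at h
  exact h

omit [Fintype X] in
/-- `(1 - op s)` applied to a basis vector. -/
theorem one_sub_op_single [DecidableEq X] (s : Perm X) (z : X) :
    (1 - op s) (Pi.single z (1 : ℚ)) = Pi.single z (1 : ℚ) - Pi.single (s⁻¹ z) (1 : ℚ) := by
  funext x
  simp only [LinearMap.sub_apply, Module.End.one_apply, Pi.sub_apply, op_apply, Pi.single_apply]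
  by_cases h : s x = z
  · have h' : x = s⁻¹ z := by rw [← h]; simp
    rw [if_pos h, if_pos h']
  · have h' : x ≠ s⁻¹ z := fun hh => h (by rw [hh]; simp)
    rw [if_neg h, if_neg h']

/-- The subgroup of permutations `g` such that `e_y - e_{g y}` lies in a given submodule for
all `y`. -/
def diffSubgroup [DecidableEq X] (U : Submodule ℚ (X → ℚ)) : Subgroup (Perm X) where
  carrier := {g | ∀ y, Pi.single y (1 : ℚ) - Pi.single (g y) (1 : ℚ) ∈ U}
  mul_mem' := fun {g h} hg hh y => by
    have h1 := hh y
    have h2 := hg (h y)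
    have := U.add_mem h1 h2
    simpa [Perm.mul_apply] using this
  one_mem' := fun y => by simp
  inv_mem' := fun {g} hg y => by
    have h1 := hg (g⁻¹ y)
    have := U.neg_mem h1
    simpa using this

/-- Ree's inequality (genus is nonnegative) for three permutations with product one generating
a transitive group, in the form `orb a + orb b + orb c ≤ n + 2`. -/
theorem ree (a b c : Perm X) (h : a * b * c = 1)
    (htrans : ∀ x y : X, ∃ g ∈ Subgroup.closure ({a, b, c} : Set (Perm X)), g x = y) :
    orb a + orb b + orb c ≤ Fintype.card X + 2 := by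
  classical
  rcases isEmpty_or_nonempty X with hX | hX
  · have h0 : ∀ s : Perm X, orb s = 0 := by
      intro s
      have := finrank_range_one_sub_op s
      rw [Fintype.card_eq_zero] at this
      omega
    rw [h0, h0, h0]
    omega
  obtain ⟨x0⟩ := hX
  have hprod : op c ∘ₗ op b ∘ₗ op a = LinearMap.id := by
    rw [← op_mul, ← op_mul, h, op_one]
  have hS := scott (op c) (op b) (op a) hprod
  have ha := finrank_range_one_sub_op a
  have hb := finrank_range_one_sub_op b
  have hc := finrank_range_one_sub_op c
  have hV : finrank ℚ (X → ℚ) = Fintype.card X := Module.finrank_fintype_fun_eq_card ℚ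
  set U := LinearMap.range (1 - op c) ⊔ LinearMap.range (1 - op b) ⊔ LinearMap.range (1 - op a)
    with hUdef
  set W := LinearMap.ker (1 - op c) ⊓ LinearMap.ker (1 - op b) ⊓ LinearMap.ker (1 - op a)
    with hWdef
  -- the common invariants are the constants
  have hW : finrank ℚ W ≤ 1 := by
    have hle : W ≤ Submodule.span ℚ {(fun _ : X => (1 : ℚ))} := by
      intro f hf
      rw [hWdef, Submodule.mem_inf, Submodule.mem_inf, mem_ker_one_sub_op, mem_ker_one_sub_op,
        mem_ker_one_sub_op] at hf
      have hcl : Subgroup.closure ({a, b, c} : Set (Perm X)) ≤ invSubgroup f := by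
        rw [Subgroup.closure_le]
        rintro g (rfl | rfl | rfl)
        · exact hf.2
        · exact hf.1.2
        · exact hf.1.1
      rw [Submodule.mem_span_singleton]
      refine ⟨f x0, ?_⟩
      funext y
      obtain ⟨g, hg, hgy⟩ := htrans x0 y
      have := hcl hg x0
      rw [hgy] at this
      simp [this]
    have h1 : (fun _ : X => (1 : ℚ)) ≠ 0 := fun h0 => one_ne_zero (congrFun h0 x0)
    calc finrank ℚ W ≤ finrank ℚ (Submodule.span ℚ {(fun _ : X => (1 : ℚ))}) :=
          Submodule.finrank_mono hle
      _ = 1 := finrank_span_singleton h1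
  -- the span of the ranges has codimension at most one
  have hU : Fintype.card X ≤ finrank ℚ U + 1 := by
    have hinv : ∀ s : Perm X, LinearMap.range (1 - op s) ≤ U → s ∈ diffSubgroup U := by
      intro s hs
      have : s⁻¹ ∈ diffSubgroup U := by
        intro y
        have := hs (LinearMap.mem_range_self (1 - op s) (Pi.single y (1 : ℚ)))
        rwa [one_sub_op_single] at this
      simpa using (diffSubgroup U).inv_mem this
    have hcl : Subgroup.closure ({a, b, c} : Set (Perm X)) ≤ diffSubgroup U := by
      rw [Subgroup.closure_le]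
      rintro g (rfl | rfl | rfl)
      · exact hinv _ le_sup_right
      · exact hinv _ (le_sup_of_le_left le_sup_right)
      · exact hinv _ (le_sup_of_le_left le_sup_left)
    obtain ⟨e0, he0⟩ : ∃ e : X → ℚ, e = Pi.single x0 (1 : ℚ) := ⟨_, rfl⟩
    have htop : (⊤ : Submodule ℚ (X → ℚ)) ≤ U ⊔ Submodule.span ℚ {e0} := by
      rw [← (Pi.basisFun ℚ X).span_eq, Submodule.span_le]
      rintro _ ⟨y, rfl⟩
      rw [Pi.basisFun_apply]
      obtain ⟨g, hg, hgy⟩ := htrans y x0
      have h1 : (Pi.single y (1 : ℚ) : X → ℚ) - Pi.single (g y) (1 : ℚ) ∈ U := hcl hg y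
      rw [hgy, ← he0] at h1
      have h2 : e0 ∈ Submodule.span ℚ {e0} := Submodule.mem_span_singleton_self e0
      have h3 := Submodule.add_mem_sup h1 h2
      rw [sub_add_cancel] at h3
      exact h3
    have h1 : e0 ≠ 0 := by
      intro h0
      have := congrFun h0 x0
      rw [he0] at this
      simp at this
    have e1 : Fintype.card X = finrank ℚ (⊤ : Submodule ℚ (X → ℚ)) := by rw [finrank_top, hV]
    have e2 : finrank ℚ (⊤ : Submodule ℚ (X → ℚ)) ≤
        finrank ℚ ↥(U ⊔ Submodule.span ℚ {e0}) := Submodule.finrank_mono htop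
    have e3 : finrank ℚ ↥(U ⊔ Submodule.span ℚ {e0}) ≤
        finrank ℚ U + finrank ℚ (Submodule.span ℚ {e0}) :=
      Submodule.finrank_add_le_finrank_add_finrank _ _
    have e4 : finrank ℚ (Submodule.span ℚ {e0}) = 1 := finrank_span_singleton h1
    omega
  omega

omit [Fintype X] in
/-- The number of orbits can be computed on any quotient map whose fibres are the orbits. -/
theorem orb_eq_card_of_surjective {Y : Type*} (s : Perm X) (π : X → Y)
    (hsurj : Function.Surjective π) (hπ : ∀ x y, π x = π y ↔ ∃ k : ℤ, (s ^ k) x = y) :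
    orb s = Nat.card Y := by
  have hlift : ∀ a b : X, (Perm.SameCycle.setoid s).r a b → π a = π b := fun a b hab =>
    (hπ a b).mpr hab
  let φ : Quotient (Perm.SameCycle.setoid s) → Y := Quotient.lift π hlift
  have hφ : Function.Bijective φ := by
    constructor
    · intro q1 q2
      induction q1 using Quotient.inductionOn with
      | _ a =>
        induction q2 using Quotient.inductionOn with
        | _ b =>
          intro hab
          exact Quotient.sound ((hπ a b).mp hab)
    · intro y
      obtain ⟨x, rfl⟩ := hsurj y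
      exact ⟨Quotient.mk _ x, rfl⟩
  exact Nat.card_congr (Equiv.ofBijective φ hφ)

/-- The number of orbits is the number of cycles plus the number of fixed points. -/
theorem orb_eq_card_cycleType_add_fix [DecidableEq X] (s : Perm X) :
    orb s = Multiset.card s.cycleType + fix s := by
  classical
  let key : X → {c : Perm X // c ∈ s.cycleFactorsFinset} ⊕ {x : X // s x = x} := fun x =>
    if h : s x = x then Sum.inr ⟨x, h⟩
    else Sum.inl ⟨s.cycleOf x, Perm.cycleOf_mem_cycleFactorsFinset_iff.mpr (Perm.mem_support.mpr h)⟩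
  have hkey : ∀ x y, key x = key y ↔ ∃ k : ℤ, (s ^ k) x = y := by
    intro x y
    constructor
    · intro hxy
      by_cases hx : s x = x
      · by_cases hy : s y = y
        · simp only [key, dif_pos hx, dif_pos hy, Sum.inr.injEq, Subtype.mk.injEq] at hxy
          exact ⟨0, by simpa using hxy⟩
        · simp [key, dif_pos hx, dif_neg hy] at hxy
      · by_cases hy : s y = y
        · simp [key, dif_neg hx, dif_pos hy] at hxy
        · simp only [key, dif_neg hx, dif_neg hy, Sum.inl.injEq, Subtype.mk.injEq] at hxy
          exact (Perm.sameCycle_iff_cycleOf_eq_of_mem_support (Perm.mem_support.mpr hx)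
            (Perm.mem_support.mpr hy)).mpr hxy
    · intro hxy
      have hsc : s.SameCycle x y := hxy
      by_cases hx : s x = x
      · have hy : s y = y := by
          by_contra hy
          exact (hsc.mem_support_iff.mpr (Perm.mem_support.mpr hy) |> Perm.mem_support.mp) hx
        obtain ⟨k, hk⟩ := hxy
        have hxk : (s ^ k) x = x := by
          have : s ∈ MulAction.stabilizer (Perm X) x := hx
          exact (MulAction.stabilizer (Perm X) x).zpow_mem this k
        have hxy' : x = y := by rw [← hxk, hk]
        subst hxy'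
        rfl
      · have hy : s y ≠ y := by
          intro hy
          exact (hsc.mem_support_iff.mp (Perm.mem_support.mpr hx) |> Perm.mem_support.mp) hy
        simp only [key, dif_neg hx, dif_neg hy, Sum.inl.injEq, Subtype.mk.injEq]
        exact hsc.cycleOf_eq
  have hsurj : Function.Surjective key := by
    rintro (⟨c, hc⟩ | ⟨x, hx⟩)
    · obtain ⟨a, ha⟩ := Perm.IsCycle.nonempty_support (Perm.mem_cycleFactorsFinset_iff.mp hc).1
      have hsa : s a ≠ a :=
        Perm.mem_support.mp (Perm.mem_cycleFactorsFinset_support_le hc ha)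
      refine ⟨a, ?_⟩
      simp only [key, dif_neg hsa, Sum.inl.injEq, Subtype.mk.injEq]
      exact (Perm.cycle_is_cycleOf ha hc).symm
    · exact ⟨x, by simp [key, dif_pos hx]⟩
  rw [orb_eq_card_of_surjective s key hsurj hkey, Nat.card_sum, fix, Perm.cycleType_def,
    Multiset.card_map]
  congr 1
  rw [Nat.card_eq_fintype_card, Fintype.card_coe]
  rfl

/-- fixed points and the cycle type -/
theorem fix_add_sum_cycleType [DecidableEq X] (s : Perm X) :
    fix s + s.cycleType.sum = Fintype.card X := by
  have h1 := Perm.card_fixedPoints s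
  have h2 := Perm.sum_cycleType_le s
  have h3 : fix s = Fintype.card (Function.fixedPoints s) := by
    rw [fix, ← Nat.card_eq_fintype_card]
    rfl
  omega

/-- The sign of a permutation in terms of its number of orbits. -/
theorem sign_eq_neg_one_pow [DecidableEq X] (s : Perm X) :
    Perm.sign s = (-1) ^ (Fintype.card X + orb s) := by
  rw [Perm.sign_of_cycleType, orb_eq_card_cycleType_add_fix]
  have h := fix_add_sum_cycleType s
  have e : Fintype.card X + (Multiset.card s.cycleType + fix s) =
      (s.cycleType.sum + Multiset.card s.cycleType) + 2 * fix s := by omega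
  rw [e, pow_add _ _ (2 * fix s), pow_mul]
  simp

/-- Parity: for three permutations with product one, `n + orb a + orb b + orb c` is even. -/
theorem parity (a b c : Perm X) (h : a * b * c = 1) :
    Even (Fintype.card X + orb a + orb b + orb c) := by
  classical
  have hs : Perm.sign (a * b * c) = 1 := by rw [h, map_one]
  rw [map_mul, map_mul, sign_eq_neg_one_pow, sign_eq_neg_one_pow, sign_eq_neg_one_pow,
    ← pow_add, ← pow_add] at hs
  have hev : Even (Fintype.card X + orb a + (Fintype.card X + orb b) +
      (Fintype.card X + orb c)) := by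
    by_contra hodd
    rw [Nat.not_even_iff_odd] at hodd
    rw [hodd.neg_one_pow] at hs
    exact absurd hs (by decide)
  have e : Fintype.card X + orb a + (Fintype.card X + orb b) + (Fintype.card X + orb c) =
      (Fintype.card X + orb a + orb b + orb c) + 2 * Fintype.card X := by ring
  rw [e] at hev
  exact (Nat.even_add.mp hev).mpr (even_two_mul _)

/-- Orbit count of a permutation of prime order `p`:
`p * orb s + fix s = p * fix s + n`, i.e. `orb s = fix s + (n - fix s) / p`. -/
theorem orb_of_prime_order (s : Perm X) {p : ℕ} (hp : p.Prime) (hs : s ^ p = 1) :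
    p * orb s + fix s = p * fix s + Fintype.card X := by
  classical
  have : Fact p.Prime := ⟨hp⟩
  have hall : ∀ c ∈ s.cycleType, c = p := Perm.pow_prime_eq_one_iff.mp hs
  have hrep : s.cycleType = Multiset.replicate (Multiset.card s.cycleType) p :=
    Multiset.eq_replicate_card.mpr hall
  have hsum : s.cycleType.sum = Multiset.card s.cycleType * p := by
    conv_lhs => rw [hrep]
    rw [Multiset.sum_replicate, smul_eq_mul]
  have h1 := orb_eq_card_cycleType_add_fix s
  have h2 := fix_add_sum_cycleType s
  rw [h1, ← h2, hsum]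
  ring

/-- The arithmetic of the genus: for a transitive triple of permutations `a, b, c` with
`a * b * c = 1`, `a ^ 3 = 1`, `b ^ 2 = 1`, and `d = n - orb a - orb b - orb c`
(`= -2 n + ∑ (n - orb)`, the degree of a canonical divisor by Riemann-Hurwitz), the natural
number `(d + 2).toNat / 2` is given by the classical genus formula. -/
theorem genus_arith (a b c : Perm X) (h : a * b * c = 1)
    (htrans : ∀ x y : X, ∃ g ∈ Subgroup.closure ({a, b, c} : Set (Perm X)), g x = y)
    (ha : a ^ 3 = 1) (hb : b ^ 2 = 1) (d : ℤ)
    (hd : d = (Fintype.card X : ℤ) - orb a - orb b - orb c) :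
    (((d + 2).toNat / 2 : ℕ) : ℚ) =
      1 + (Fintype.card X : ℚ) / 12 - (fix b : ℚ) / 4 - (fix a : ℚ) / 3 - (orb c : ℚ) / 2 := by
  have hree := ree a b c h htrans
  obtain ⟨m, hm⟩ := parity a b c h
  have h3 := orb_of_prime_order a Nat.prime_three ha
  have h2 := orb_of_prime_order b Nat.prime_two hb
  have hnat : (d + 2).toNat / 2 = Fintype.card X + 1 - m := by
    have : (d + 2).toNat = 2 * (Fintype.card X + 1 - m) := by omega
    rw [this]
    omega
  have hm' : m ≤ Fintype.card X + 1 := by omega
  rw [hnat, Nat.cast_sub hm']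
  have hmQ : (Fintype.card X : ℚ) + orb a + orb b + orb c = 2 * m := by
    have := congrArg (Nat.cast : ℕ → ℚ) hm
    push_cast at this
    linarith
  have h3Q : (3 : ℚ) * orb a + fix a = 3 * fix a + Fintype.card X := by exact_mod_cast h3
  have h2Q : (2 : ℚ) * orb b + fix b = 2 * fix b + Fintype.card X := by exact_mod_cast h2
  push_cast
  linarith

end Permutation

section Action

variable {G X : Type*} [Group G] [MulAction G X]

theorem toPerm_zpow_apply (g : G) (k : ℤ) (x : X) :
    ((MulAction.toPerm g : Perm X) ^ k) x = (g ^ k) • x := by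
  have h : (MulAction.toPermHom G X) (g ^ k) = (MulAction.toPermHom G X g) ^ k :=
    map_zpow (MulAction.toPermHom G X) g k
  have h' : (MulAction.toPerm g : Perm X) ^ k = MulAction.toPerm (g ^ k) := h.symm
  rw [h']
  rfl

/-- `orb` of the permutation induced by a group element is the number of orbits of the cyclic
subgroup it generates. -/
theorem orb_toPerm (g : G) :
    orb (MulAction.toPerm g : Perm X) =
      Nat.card (MulAction.orbitRel.Quotient (Subgroup.zpowers g) X) := by
  refine orb_eq_card_of_surjective _
    (Quotient.mk'' : X → MulAction.orbitRel.Quotient (Subgroup.zpowers g) X)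
    Quotient.mk''_surjective ?_
  intro x y
  rw [Quotient.eq'', MulAction.orbitRel_apply, MulAction.mem_orbit_iff]
  constructor
  · rintro ⟨⟨h, hh⟩, hxy⟩
    obtain ⟨k, rfl⟩ := Subgroup.mem_zpowers_iff.mp hh
    refine ⟨-k, ?_⟩
    rw [toPerm_zpow_apply]
    have hxy' : (g ^ k) • y = x := hxy
    rw [← hxy', zpow_neg, inv_smul_smul]
  · rintro ⟨k, hk⟩
    rw [toPerm_zpow_apply] at hk
    refine ⟨⟨g ^ (-k), Subgroup.zpow_mem_zpowers g (-k)⟩, ?_⟩
    show (g ^ (-k)) • y = x
    rw [← hk, zpow_neg, inv_smul_smul]

/-- `fix` of the permutation induced by a group element. -/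
theorem fix_toPerm (g : G) :
    fix (MulAction.toPerm g : Perm X) = Nat.card (MulAction.fixedBy X g) := rfl

/-- `genus_arith` for a transitive action of a group generated by `a, b, c` with
`a * b * c = 1`, where `a ^ 3` and `b ^ 2` act trivially. -/
theorem genus_arith_action [Finite X] [MulAction.IsPretransitive G X] (a b c : G)
    (habc : a * b * c = 1) (hgen : Subgroup.closure ({a, b, c} : Set G) = ⊤)
    (ha : ∀ x : X, (a ^ 3) • x = x) (hb : ∀ x : X, (b ^ 2) • x = x) (d : ℤ)
    (hd : d = (Nat.card X : ℤ) -
      Nat.card (MulAction.orbitRel.Quotient (Subgroup.zpowers a) X) -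
      Nat.card (MulAction.orbitRel.Quotient (Subgroup.zpowers b) X) -
      Nat.card (MulAction.orbitRel.Quotient (Subgroup.zpowers c) X)) :
    (((d + 2).toNat / 2 : ℕ) : ℚ) =
      1 + (Nat.card X : ℚ) / 12 - (Nat.card (MulAction.fixedBy X b) : ℚ) / 4 -
        (Nat.card (MulAction.fixedBy X a) : ℚ) / 3 -
        (Nat.card (MulAction.orbitRel.Quotient (Subgroup.zpowers c) X) : ℚ) / 2 := by
  have : Fintype X := Fintype.ofFinite X
  let φ := MulAction.toPermHom G X
  have h1 : φ a * φ b * φ c = 1 := by rw [← map_mul, ← map_mul, habc, map_one]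
  have htrans : ∀ x y : X, ∃ g ∈ Subgroup.closure ({φ a, φ b, φ c} : Set (Perm X)), g x = y := by
    intro x y
    obtain ⟨g, hg⟩ := MulAction.exists_smul_eq G x y
    refine ⟨φ g, ?_, hg⟩
    have hmem : g ∈ Subgroup.closure ({a, b, c} : Set G) := by rw [hgen]; trivial
    have hmap : φ g ∈ (Subgroup.closure ({a, b, c} : Set G)).map φ := Subgroup.mem_map_of_mem φ hmem
    rw [MonoidHom.map_closure] at hmap
    have himg : (φ '' ({a, b, c} : Set G)) = {φ a, φ b, φ c} := by
      simp [Set.image_insert_eq]
    rwa [himg] at hmap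
  have ha' : φ a ^ 3 = 1 := by
    rw [← map_pow]
    ext x
    exact ha x
  have hb' : φ b ^ 2 = 1 := by
    rw [← map_pow]
    ext x
    exact hb x
  have key := genus_arith (φ a) (φ b) (φ c) h1 htrans ha' hb' d (by
    rw [hd, Nat.card_eq_fintype_card]
    show _ = (Fintype.card X : ℤ) - orb (MulAction.toPerm a : Perm X) -
      orb (MulAction.toPerm b : Perm X) - orb (MulAction.toPerm c : Perm X)
    rw [orb_toPerm, orb_toPerm, orb_toPerm])
  rw [key, Nat.card_eq_fintype_card]
  have e1 : fix (φ b) = Nat.card (MulAction.fixedBy X b) := fix_toPerm b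
  have e2 : fix (φ a) = Nat.card (MulAction.fixedBy X a) := fix_toPerm a
  have e3 : orb (φ c) = Nat.card (MulAction.orbitRel.Quotient (Subgroup.zpowers c) X) :=
    orb_toPerm c
  rw [e1, e2, e3]

end Action

end Fermat.Agent.S24.Perm
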