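/-
S24, piece GENUSNUM: the numerical end-game.  If `d` is the Riemann-Hurwitz expression
`ψ(N) - #orbits(S * T) - #orbits(S) - #orbits(T)` (orbits on `SL(2, ℤ) ⧸ Γ₀(N)`), then
`(d + 2).toNat / 2` is the classical genus formula (with the number of `T`-orbits in place of
the number of cusps).
-/
import Fermat.Agent.S24.Perm
import Fermat.Agent.S24.CombBasic
import Fermat.Agent.S24.CombIndex

set_option autoImplicit false

open CongruenceSubgroup
open scoped MatrixGroups

namespace Fermat.Agent.S24.GenusNum

theorem S_sq : ModularGroup.S ^ 2 = (-1 : SL(2, ℤ)) := by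
  ext i j
  fin_cases i <;> fin_cases j <;>
    simp [pow_two, ModularGroup.coe_S, Matrix.mul_apply, Fin.sum_univ_two]

theorem ST_cube : (ModularGroup.S * ModularGroup.T) ^ 3 = (-1 : SL(2, ℤ)) := by
  ext i j
  fin_cases i <;> fin_cases j <;>
    simp [pow_succ, ModularGroup.coe_S, ModularGroup.coe_T, Matrix.mul_apply, Fin.sum_univ_two]

variable (N : ℕ) [NeZero N]

/-- The coset space on which the monodromy acts. -/
abbrev X : Type := SL(2, ℤ) ⧸ Gamma0 N

theorem card_X : Nat.card (X N) = ModularCurve.dedekindPsi N := by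
  rw [← Comb.index_Gamma0 N]
  rfl

omit [NeZero N] in
/-- `-1` acts trivially on the cosets. -/
theorem neg_one_smul (x : X N) : (-1 : SL(2, ℤ)) • x = x := by
  induction x using QuotientGroup.induction_on with
  | H g =>
    have hmem : (-1 : SL(2, ℤ)) ∈ Gamma0 N := by
      rw [Gamma0_mem]
      simp
    have hcomm : (-1 : SL(2, ℤ)) * g = g * (-1) := by
      rw [neg_one_mul, mul_neg_one]
    rw [MulAction.Quotient.smul_mk, smul_eq_mul, hcomm]
    exact QuotientGroup.mk_mul_of_mem g hmem

/-- The Riemann-Hurwitz number gives the genus formula (with `T`-orbits for the cusps). -/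
theorem genus_num (d : ℤ)
    (hd : d = (ModularCurve.dedekindPsi N : ℤ) -
      Nat.card (MulAction.orbitRel.Quotient
        (Subgroup.zpowers (ModularGroup.S * ModularGroup.T)) (X N)) -
      Nat.card (MulAction.orbitRel.Quotient (Subgroup.zpowers ModularGroup.S) (X N)) -
      Nat.card (MulAction.orbitRel.Quotient (Subgroup.zpowers ModularGroup.T) (X N))) :
    (((d + 2).toNat / 2 : ℕ) : ℚ) =
      1 + (ModularCurve.dedekindPsi N : ℚ) / 12 - (ModularCurve.nuTwo N : ℚ) / 4 -
        (ModularCurve.nuThree N : ℚ) / 3 -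
        (Nat.card (MulAction.orbitRel.Quotient (Subgroup.zpowers ModularGroup.T) (X N)) : ℚ) /
          2 := by
  have habc : (ModularGroup.S * ModularGroup.T)⁻¹ * ModularGroup.S * ModularGroup.T = 1 := by
    rw [mul_assoc, inv_mul_cancel]
  have hgen : Subgroup.closure ({(ModularGroup.S * ModularGroup.T)⁻¹, ModularGroup.S,
      ModularGroup.T} : Set SL(2, ℤ)) = ⊤ := by
    rw [eq_top_iff, ← SpecialLinearGroup.SL2Z_generators]
    apply Subgroup.closure_mono
    intro g hg
    exact Set.mem_insert_of_mem _ hg
  have ha : ∀ x : X N, ((ModularGroup.S * ModularGroup.T)⁻¹ ^ 3) • x = x := by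
    intro x
    rw [inv_pow, ST_cube, inv_neg_one]
    exact neg_one_smul N x
  have hb : ∀ x : X N, (ModularGroup.S ^ 2) • x = x := by
    intro x
    rw [S_sq]
    exact neg_one_smul N x
  have key := Perm.genus_arith_action (X := X N) (ModularGroup.S * ModularGroup.T)⁻¹
    ModularGroup.S ModularGroup.T habc hgen ha hb d (by
      rw [hd, card_X, Subgroup.zpowers_inv]
      rfl)
  rw [key, card_X, MulAction.fixedBy_inv, Comb.card_fixedBy_S, Comb.card_fixedBy_ST]
  rfl

/-- The genus formula, given the count of `T`-orbits (piece C3). -/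
theorem genus_eq_genusFormula (d : ℤ)
    (hd : d = (ModularCurve.dedekindPsi N : ℤ) -
      Nat.card (MulAction.orbitRel.Quotient
        (Subgroup.zpowers (ModularGroup.S * ModularGroup.T)) (X N)) -
      Nat.card (MulAction.orbitRel.Quotient (Subgroup.zpowers ModularGroup.S) (X N)) -
      Nat.card (MulAction.orbitRel.Quotient (Subgroup.zpowers ModularGroup.T) (X N)))
    (hT : Nat.card (MulAction.orbitRel.Quotient (Subgroup.zpowers ModularGroup.T) (X N)) =
      ModularCurve.cuspCount N) :
    (((d + 2).toNat / 2 : ℕ) : ℚ) = ModularCurve.genusFormula N := by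
  rw [genus_num N d hd, hT, ModularCurve.genusFormula]

/-- Number of `S`-orbits on the cosets. -/
theorem two_mul_card_orbits_S :
    2 * Nat.card (MulAction.orbitRel.Quotient (Subgroup.zpowers ModularGroup.S) (X N)) =
      ModularCurve.dedekindPsi N + ModularCurve.nuTwo N := by
  have : Fintype (X N) := Fintype.ofFinite _
  have hs : (MulAction.toPerm ModularGroup.S : Equiv.Perm (X N)) ^ 2 = 1 := by
    ext x
    rw [Equiv.Perm.one_apply]
    have h := Perm.toPerm_zpow_apply (X := X N) ModularGroup.S 2 x
    rw [zpow_ofNat, zpow_ofNat] at h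
    rw [h, S_sq]
    exact neg_one_smul N x
  have h := Perm.orb_of_prime_order _ Nat.prime_two hs
  rw [Perm.orb_toPerm, Perm.fix_toPerm, Comb.card_fixedBy_S, ← Nat.card_eq_fintype_card,
    card_X] at h
  have h' : 2 * Nat.card (MulAction.orbitRel.Quotient (Subgroup.zpowers ModularGroup.S) (X N)) +
      ModularCurve.nuTwo N = 2 * ModularCurve.nuTwo N + ModularCurve.dedekindPsi N := h
  omega

/-- Number of `S * T`-orbits on the cosets. -/
theorem three_mul_card_orbits_ST :
    3 * Nat.card (MulAction.orbitRel.Quotient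
        (Subgroup.zpowers (ModularGroup.S * ModularGroup.T)) (X N)) =
      ModularCurve.dedekindPsi N + 2 * ModularCurve.nuThree N := by
  have : Fintype (X N) := Fintype.ofFinite _
  have hs : (MulAction.toPerm (ModularGroup.S * ModularGroup.T) : Equiv.Perm (X N)) ^ 3 = 1 := by
    ext x
    rw [Equiv.Perm.one_apply]
    have h := Perm.toPerm_zpow_apply (X := X N) (ModularGroup.S * ModularGroup.T) 3 x
    rw [zpow_ofNat, zpow_ofNat] at h
    rw [h, ST_cube]
    exact neg_one_smul N x
  have h := Perm.orb_of_prime_order _ Nat.prime_three hs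
  rw [Perm.orb_toPerm, Perm.fix_toPerm, Comb.card_fixedBy_ST, ← Nat.card_eq_fintype_card,
    card_X] at h
  have h' : 3 * Nat.card (MulAction.orbitRel.Quotient
      (Subgroup.zpowers (ModularGroup.S * ModularGroup.T)) (X N)) +
      ModularCurve.nuThree N = 3 * ModularCurve.nuThree N + ModularCurve.dedekindPsi N := h
  omega

end Fermat.Agent.S24.GenusNum
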