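/-
S24, piece JLOCAL: local behaviour of `j = E₄³/Δ` on the upper half plane.

* Ramanujan's identities for `E₄`, `E₆`, `Δ` (via Mathlib's Serre derivative),
* `j` is surjective `ℍ → ℂ`,
* the exact vanishing order of `j - j(z₀)` at `z₀`: `1` if `j(z₀) ∉ {0, 1728}`, `2` at `z₀ = i`,
  `3` at `z₀ = ρ`.
-/
import Mathlib
import Fermat.Agent.S23.JN

set_option autoImplicit false

noncomputable section

open UpperHalfPlane hiding I
open Filter Topology Function Complex
open scoped MatrixGroups ModularForm Manifold Real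

namespace Fermat.Agent.S24.JLocal

open Derivative ModularForm EisensteinSeries Fermat.Agent.S23

/-! ### Limits at `i∞` -/

/-- Cauchy estimate: if a holomorphic `F` on `ℍ` has a limit at `i∞`, then `D F → 0`. -/
theorem tendsto_D_zero {F : ℍ → ℂ} (hF : MDiff F) {L : ℂ} (hL : Tendsto F atImInfty (𝓝 L)) :
    Tendsto (D F) atImInfty (𝓝 0) := by
  rw [Metric.tendsto_nhds]
  intro ε hε
  have h1 : ∀ᶠ z in atImInfty, dist (F z) L < ε := (Metric.tendsto_nhds.mp hL) ε hε
  obtain ⟨A, hA⟩ := (UpperHalfPlane.atImInfty_mem _).mp h1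
  rw [Filter.eventually_iff, UpperHalfPlane.atImInfty_mem]
  refine ⟨max A 1 + 1, fun z hz => ?_⟩
  have hFd : DifferentiableOn ℂ (F ∘ ofComplex) upperHalfPlaneSet :=
    UpperHalfPlane.mdifferentiable_iff.mp hF
  have hsub : Metric.closedBall (z : ℂ) 1 ⊆ upperHalfPlaneSet := by
    intro w hw
    have h2 : |(w - z).im| ≤ 1 := (Complex.abs_im_le_norm _).trans (by simpa [dist_eq_norm] using hw)
    have h3 := abs_le.mp h2
    have h4 : max A 1 + 1 ≤ (z : ℂ).im := hz
    have h5 : (1 : ℝ) ≤ max A 1 := le_max_right _ _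
    show 0 < w.im
    simp only [Complex.sub_im] at h3
    linarith [h3.1]
  have hdc : DiffContOnCl ℂ (fun w => (F ∘ ofComplex) w - L) (Metric.ball (z : ℂ) 1) :=
    ((hFd.sub_const L).mono hsub).diffContOnCl_ball (le_refl _)
  have hbound : ∀ w ∈ Metric.sphere (z : ℂ) 1, ‖(F ∘ ofComplex) w - L‖ ≤ ε := by
    intro w hw
    have hw' : w ∈ Metric.closedBall (z : ℂ) 1 := Metric.sphere_subset_closedBall hw
    have hwim : 0 < w.im := hsub hw'
    have h2 : |(w - z).im| ≤ 1 := (Complex.abs_im_le_norm _).trans (by simpa [dist_eq_norm] using hw')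
    have h3 := abs_le.mp h2
    have h4 : max A 1 + 1 ≤ (z : ℂ).im := hz
    have h5 : A ≤ max A 1 := le_max_left _ _
    simp only [Complex.sub_im] at h3
    have hAw : A ≤ (⟨w, hwim⟩ : ℍ).im := by
      show A ≤ w.im
      linarith [h3.1]
    have := hA ⟨w, hwim⟩ hAw
    simp only [Set.mem_ofPred_eq, dist_eq_norm] at this
    simpa [Function.comp_apply, ofComplex_apply_of_im_pos hwim] using this.le
  have hC := Complex.norm_deriv_le_of_forall_mem_sphere_norm_le one_pos hdc hbound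
  have hderiv : deriv (fun w => (F ∘ ofComplex) w - L) (z : ℂ) = deriv (F ∘ ofComplex) (z : ℂ) :=
    deriv_sub_const (f := F ∘ ofComplex) (x := (z : ℂ)) L
  rw [hderiv, div_one] at hC
  have h2pi : ‖(2 * (π : ℂ) * I)‖ = 2 * π := by
    simp [abs_of_pos Real.pi_pos]
  simp only [Set.mem_ofPred_eq, dist_zero_right, normalizedDerivOfComplex]
  rw [norm_mul, norm_inv, h2pi]
  have hpi : (1 : ℝ) < 2 * π := by linarith [Real.pi_gt_three]
  calc (2 * π)⁻¹ * ‖deriv (F ∘ ofComplex) (z : ℂ)‖ ≤ (2 * π)⁻¹ * ε := by gcongr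
    _ < 1 * ε := by
        apply mul_lt_mul_of_pos_right _ hε
        exact inv_lt_one_of_one_lt₀ hpi
    _ = ε := one_mul ε


/-- A level one modular form tends to the constant term of its `q`-expansion at `i∞`. -/
theorem tendsto_modularForm {k : ℤ} (F : ModularForm 𝒮ℒ k) :
    Tendsto (fun z : ℍ => F z) atImInfty (𝓝 ((qExpansion 1 F).coeff 0)) := by
  have hper : Periodic (⇑F ∘ ofComplex) 1 :=
    SlashInvariantFormClass.periodic_comp_ofComplex F one_mem_strictPeriods_SL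
  have han : AnalyticAt ℂ (cuspFunction 1 F) 0 :=
    ModularFormClass.analyticAt_cuspFunction_zero F one_pos one_mem_strictPeriods_SL
  have := han.continuousAt.tendsto.comp (qParam_tendsto_atImInfty one_pos)
  rw [show cuspFunction 1 F 0 = (qExpansion 1 F).coeff 0 by simp [qExpansion_coeff]] at this
  refine this.congr ?_
  intro τ
  simpa using eq_cuspFunction τ one_ne_zero hper

theorem tendsto_E4 : Tendsto (fun z : ℍ => E₄ z) atImInfty (𝓝 1) := by
  have := tendsto_modularForm E₄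
  rwa [EisensteinSeries.E_qExpansion_coeff_zero (k := 4) (by norm_num) ⟨2, rfl⟩] at this

theorem tendsto_E6 : Tendsto (fun z : ℍ => E₆ z) atImInfty (𝓝 1) := by
  have := tendsto_modularForm E₆
  rwa [EisensteinSeries.E_qExpansion_coeff_zero (k := 6) (by norm_num) ⟨3, rfl⟩] at this

/-- The `q`-expansion coefficients of `E2`. -/
def cE2 (m : ℕ) : ℂ := if m = 0 then 1 else -24 * (ArithmeticFunction.sigma 1 m : ℂ)

theorem hasSum_E2 (τ : ℍ) :
    HasSum (fun m : ℕ ↦ cE2 m • Periodic.qParam 1 (τ : ℂ) ^ m) (E2 τ) := by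
  have := hasSum_qExpansion_E2 (z := τ)
  simpa only [cE2, Function.Periodic.qParam, ofReal_one, div_one] using this

theorem qParam_add_one (w : ℂ) : Periodic.qParam 1 (w + 1) = Periodic.qParam 1 w := by
  simp only [Periodic.qParam, ofReal_one, div_one]
  rw [mul_add, mul_one, Complex.exp_add, Complex.exp_two_pi_mul_I, mul_one]

theorem periodic_E2 : Periodic (E2 ∘ ofComplex) 1 := by
  intro w
  simp only [Function.comp_apply]
  by_cases hw : 0 < w.im
  · have hw1 : 0 < (w + 1).im := by simpa using hw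
    rw [ofComplex_apply_of_im_pos hw, ofComplex_apply_of_im_pos hw1]
    refine (hasSum_E2 ⟨w + 1, hw1⟩).unique ?_
    have h2 := hasSum_E2 ⟨w, hw⟩
    have hq : Periodic.qParam 1 (((⟨w + 1, hw1⟩ : ℍ) : ℂ)) = Periodic.qParam 1 (((⟨w, hw⟩ : ℍ) : ℂ)) :=
      qParam_add_one w
    rw [hq]
    exact h2
  · have hw' : w.im ≤ 0 := not_lt.mp hw
    have hw1 : (w + 1).im ≤ 0 := by simpa using hw'
    rw [ofComplex_apply_eq_of_im_nonpos hw1 hw']

theorem analyticAt_cuspFunction_E2 : AnalyticAt ℂ (cuspFunction 1 E2) 0 :=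
  analyticAt_cuspFunction_zero one_pos periodic_E2 E2_mdifferentiable isBoundedAtImInfty_E2

theorem cuspFunction_E2_zero : cuspFunction 1 E2 0 = 1 := by
  have h : cE2 0 = (qExpansion 1 E2).coeff 0 :=
    @UpperHalfPlane.qExpansion_coeff_unique (ℍ → ℂ) ⟨fun f => f, fun _ _ h => h⟩ 1 E2 cE2 one_pos
      analyticAt_cuspFunction_E2 hasSum_E2 0
  rw [qExpansion_coeff] at h
  simpa [cE2] using h.symm

theorem tendsto_E2 : Tendsto E2 atImInfty (𝓝 1) := by
  have := analyticAt_cuspFunction_E2.continuousAt.tendsto.comp (qParam_tendsto_atImInfty one_pos)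
  rw [cuspFunction_E2_zero] at this
  refine this.congr fun τ => ?_
  simpa using eq_cuspFunction τ one_ne_zero periodic_E2

/-! ### The Serre derivative of a level one modular form -/

theorem serre_slash {k : ℤ} (F : ModularForm 𝒮ℒ k) (γ : SL(2, ℤ)) :
    serreDerivative k F ∣[k + 2] γ = serreDerivative k F := by
  refine serreDerivative_slash_invariant (ModularFormClass.holo F) ?_
  rw [SL_slash]
  exact SlashInvariantFormClass.slash_action_eq F _ ⟨γ, rfl⟩

theorem tendsto_serre {k : ℤ} (F : ModularForm 𝒮ℒ k) :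
    Tendsto (serreDerivative k F) atImInfty
      (𝓝 (0 - (k : ℂ) * 12⁻¹ * 1 * (qExpansion 1 F).coeff 0)) := by
  have h1 := tendsto_D_zero (ModularFormClass.holo F) (tendsto_modularForm F)
  have h2 := ((tendsto_const_nhds (x := (k : ℂ) * 12⁻¹)).mul tendsto_E2).mul (tendsto_modularForm F)
  exact h1.sub h2

/-- The Serre derivative of a level one modular form, as a modular form of weight `k + 2`. -/
def serreMF {k : ℤ} (F : ModularForm 𝒮ℒ k) : ModularForm 𝒮ℒ (k + 2) where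
  toFun := serreDerivative k F
  slash_action_eq' := fun _ ⟨γ, hγ⟩ => hγ ▸ serre_slash F γ
  holo' := serreDerivative_mdifferentiable k (ModularFormClass.holo F)
  bdd_at_cusps' {c} hc := by
    rw [Subgroup.IsArithmetic.isCusp_iff_isCusp_SL2Z] at hc
    rw [OnePoint.isBoundedAt_iff_forall_SL2Z hc]
    intro γ _
    rw [serre_slash F γ]
    exact (tendsto_serre F).isBigO_one ℝ

theorem serreMF_apply {k : ℤ} (F : ModularForm 𝒮ℒ k) (z : ℍ) :
    serreMF F z = D F z - (k : ℂ) * 12⁻¹ * E2 z * F z := rfl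


/-! ### Ramanujan's identities -/

theorem serre_E4_eq : ∃ c : ℂ, ∀ z : ℍ, c * E₆ z = D E₄ z - (4 : ℂ) * 12⁻¹ * E2 z * E₄ z := by
  have hfin : Module.finrank ℂ (ModularForm 𝒮ℒ 6) = 1 :=
    Module.rank_eq_one_iff_finrank_eq_one.mp levelOne_weight_six_rank_one
  obtain ⟨c, hc⟩ : ∃ c : ℂ, c • E₆ =
      ModularForm.mcast (by norm_num : (4 : ℤ) + 2 = 6) (serreMF E₄) :=
    (finrank_eq_one_iff_of_nonzero' E₆ (E_ne_zero _ ⟨3, rfl⟩)).mp hfin _
  refine ⟨c, fun z => ?_⟩
  have := congrArg (fun f : ModularForm 𝒮ℒ 6 => f z) hc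
  simp only [_root_.smul_apply, smul_eq_mul, mcast_apply] at this
  rw [this, serreMF_apply]
  norm_num

/-- **Ramanujan's identity** for `E₄`: `D E₄ = (E₂ E₄ - E₆) / 3`. -/
theorem ramanujan_E4 (z : ℍ) : D E₄ z = (E2 z * E₄ z - E₆ z) / 3 := by
  obtain ⟨c, hc⟩ := serre_E4_eq
  have hlim1 : Tendsto (fun z : ℍ => c * E₆ z) atImInfty (𝓝 (c * 1)) := tendsto_E6.const_mul c
  have hlim2 := tendsto_serre E₄
  rw [EisensteinSeries.E_qExpansion_coeff_zero (k := 4) (by norm_num) ⟨2, rfl⟩] at hlim2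
  have heq : (fun z : ℍ => c * E₆ z) = serreDerivative ((4 : ℤ) : ℂ) E₄ := by
    funext z
    rw [hc z, serreDerivative_apply]
    norm_num
  rw [heq] at hlim1
  have hcval := tendsto_nhds_unique hlim1 hlim2
  have hc3 : c = -(1 / 3) := by
    have : c * 1 = 0 - ((4 : ℤ) : ℂ) * 12⁻¹ * 1 * 1 := hcval
    rw [mul_one] at this
    rw [this]
    norm_num
  have := hc z
  rw [hc3] at this
  linear_combination -this


/-- `E₄²` as a modular form of weight `8`. -/
def E4sq : ModularForm 𝒮ℒ 8 := ModularForm.mcast (by norm_num : (4 : ℤ) + 4 = 8) (E₄.mul E₄)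

theorem E4sq_apply (z : ℍ) : E4sq z = E₄ z * E₄ z := rfl

theorem E4sq_ne_zero : E4sq ≠ 0 := by
  intro h
  obtain ⟨z, hz⟩ := (tendsto_E4.eventually_ne one_ne_zero).exists
  have : E4sq z = 0 := by rw [h]; rfl
  rw [E4sq_apply] at this
  exact hz (by simpa using this)

theorem finrank_eight : Module.finrank ℂ (ModularForm 𝒮ℒ 8) = 1 := by
  have h := dimension_level_one 8 ⟨4, rfl⟩
  have h2 : Module.rank ℂ (ModularForm 𝒮ℒ ((8 : ℕ) : ℤ)) = 1 := by
    rw [h]
    simp [Nat.ModEq]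
  exact Module.rank_eq_one_iff_finrank_eq_one.mp h2

theorem serre_E6_eq :
    ∃ c : ℂ, ∀ z : ℍ, c * (E₄ z * E₄ z) = D E₆ z - (6 : ℂ) * 12⁻¹ * E2 z * E₆ z := by
  obtain ⟨c, hc⟩ : ∃ c : ℂ, c • E4sq =
      ModularForm.mcast (by norm_num : (6 : ℤ) + 2 = 8) (serreMF E₆) :=
    (finrank_eq_one_iff_of_nonzero' E4sq E4sq_ne_zero).mp finrank_eight _
  refine ⟨c, fun z => ?_⟩
  have := congrArg (fun f : ModularForm 𝒮ℒ 8 => f z) hc
  simp only [_root_.smul_apply, smul_eq_mul, mcast_apply, E4sq_apply] at this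
  rw [this, serreMF_apply]
  norm_num

/-- **Ramanujan's identity** for `E₆`: `D E₆ = (E₂ E₆ - E₄²) / 2`. -/
theorem ramanujan_E6 (z : ℍ) : D E₆ z = (E2 z * E₆ z - E₄ z ^ 2) / 2 := by
  obtain ⟨c, hc⟩ := serre_E6_eq
  have hlim1 : Tendsto (fun z : ℍ => c * (E₄ z * E₄ z)) atImInfty (𝓝 (c * (1 * 1))) :=
    (tendsto_E4.mul tendsto_E4).const_mul c
  have hlim2 := tendsto_serre E₆
  rw [EisensteinSeries.E_qExpansion_coeff_zero (k := 6) (by norm_num) ⟨3, rfl⟩] at hlim2
  have heq : (fun z : ℍ => c * (E₄ z * E₄ z)) = serreDerivative ((6 : ℤ) : ℂ) E₆ := by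
    funext z
    rw [hc z, serreDerivative_apply]
    norm_num
  rw [heq] at hlim1
  have hcval := tendsto_nhds_unique hlim1 hlim2
  have hc2 : c = -(1 / 2) := by
    have : c * (1 * 1) = 0 - ((6 : ℤ) : ℂ) * 12⁻¹ * 1 * 1 := hcval
    rw [mul_one, mul_one] at this
    rw [this]
    norm_num
  have := hc z
  rw [hc2] at this
  linear_combination -this

/-- **Ramanujan's identity** for the discriminant: `D Δ = E₂ Δ`. -/
theorem ramanujan_discriminant (z : ℍ) :
    D ModularForm.discriminant z = E2 z * ModularForm.discriminant z := by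
  have hz : (z : ℂ) ∈ upperHalfPlaneSet := z.2
  have heta : DifferentiableAt ℂ ModularForm.eta (z : ℂ) :=
    ModularForm.differentiableAt_eta_of_mem_upperHalfPlaneSet hz
  have hη0 : ModularForm.eta (z : ℂ) ≠ 0 := ModularForm.eta_ne_zero hz
  have hev : (ModularForm.discriminant ∘ ofComplex) =ᶠ[𝓝 (z : ℂ)]
      fun w => ModularForm.eta w ^ 24 := by
    filter_upwards [isOpen_upperHalfPlaneSet.mem_nhds hz] with w hw
    simp [ModularForm.discriminant, ofComplex_apply_of_im_pos hw]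
  have hlog := ModularForm.logDeriv_eta_eq_E2 z
  rw [logDeriv_apply, div_eq_iff hη0] at hlog
  simp only [normalizedDerivOfComplex]
  have hd : deriv (fun w => ModularForm.eta w ^ 24) (z : ℂ)
      = 24 * ModularForm.eta (z : ℂ) ^ 23 * deriv ModularForm.eta (z : ℂ) := by
    have h := (heta.hasDerivAt.pow 24).deriv
    rw [show (ModularForm.eta ^ 24 : ℂ → ℂ) = fun w => ModularForm.eta w ^ 24 from rfl] at h
    simpa using h
  rw [hev.deriv_eq, hd, hlog]
  have hΔ : ModularForm.discriminant z = ModularForm.eta (z : ℂ) ^ 24 := rfl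
  rw [hΔ]
  have hpi : (2 * (π : ℂ) * I) ≠ 0 := by
    simp [Real.pi_ne_zero, Complex.I_ne_zero]
  field_simp
  ring


/-! ### The derivative of `j` -/

local notation "Δ" => ModularForm.discriminant

theorem mdiff_discriminant : MDiff (Δ : ℍ → ℂ) :=
  ModularFormClass.holo CuspForm.discriminant

theorem jFun_eq (z : ℍ) : JN.jFun z = E₄ z ^ 3 / Δ z := rfl

/-- `j - 1728 = E₆² / Δ`. -/
theorem jFun_sub (z : ℍ) : JN.jFun z - 1728 = E₆ z ^ 2 / Δ z := by
  have hΔ := ModularForm.discriminant_ne_zero z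
  have h := ModularForm.discriminant_eq_E₄_cube_sub_E₆_sq z
  rw [jFun_eq]
  field_simp
  linear_combination (-1728 : ℂ) * h

theorem jFun_eq_zero_iff (z : ℍ) : JN.jFun z = 0 ↔ E₄ z = 0 := by
  have hΔ := ModularForm.discriminant_ne_zero z
  rw [jFun_eq, div_eq_zero_iff]
  constructor
  · rintro (h | h)
    · exact pow_eq_zero_iff (by norm_num) |>.mp h
    · exact absurd h hΔ
  · intro h
    left
    rw [h]
    norm_num

theorem jFun_eq_iff (z : ℍ) : JN.jFun z = 1728 ↔ E₆ z = 0 := by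
  have hΔ := ModularForm.discriminant_ne_zero z
  rw [← sub_eq_zero, jFun_sub, div_eq_zero_iff]
  constructor
  · rintro (h | h)
    · exact pow_eq_zero_iff (by norm_num) |>.mp h
    · exact absurd h hΔ
  · intro h
    left
    rw [h]
    norm_num

/-- The derivative of `j`: `D j = - E₄² E₆ / Δ`. -/
theorem D_jFun (z : ℍ) : D JN.jFun z = -(E₄ z ^ 2 * E₆ z) / Δ z := by
  have hΔ := ModularForm.discriminant_ne_zero z
  have hmul : JN.jFun * (Δ : ℍ → ℂ) = (⇑E₄ : ℍ → ℂ) ^ 3 := by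
    funext w
    simp [JN.jFun, div_mul_cancel₀ _ (ModularForm.discriminant_ne_zero w)]
  have hD := congrArg (fun f => D f z) hmul
  beta_reduce at hD
  rw [normalizedDerivOfComplex_mul _ _ JN.mdiff_jFun mdiff_discriminant,
    normalizedDerivOfComplex_pow _ 3 (ModularFormClass.holo E₄)] at hD
  simp only [Pi.add_apply, Pi.mul_apply, Pi.pow_apply, Nat.cast_ofNat,
    Nat.add_one_sub_one] at hD
  rw [ramanujan_discriminant, ramanujan_E4, jFun_eq] at hD
  have h3 : (3 : ℍ → ℂ) z = 3 := rfl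
  rw [h3] at hD
  field_simp
  field_simp at hD
  linear_combination hD

/-! ### Vanishing orders of `j - j(z₀)` -/

theorem analyticAt_comp_ofComplex {F : ℍ → ℂ} (hF : MDiff F) (z : ℍ) :
    AnalyticAt ℂ (F ∘ ofComplex) (z : ℂ) :=
  (UpperHalfPlane.mdifferentiable_iff.mp hF).analyticAt
    (isOpen_upperHalfPlaneSet.mem_nhds z.2)

theorem deriv_comp_ofComplex (F : ℍ → ℂ) (z : ℍ) :
    deriv (F ∘ ofComplex) (z : ℂ) = 2 * π * I * D F z := by
  have hpi : (2 * (π : ℂ) * I) ≠ 0 := by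
    simp [Real.pi_ne_zero, Complex.I_ne_zero]
  simp only [normalizedDerivOfComplex]
  field_simp

theorem two_pi_I_ne_zero : (2 * (π : ℂ) * I) ≠ 0 := by
  simp [Real.pi_ne_zero, Complex.I_ne_zero]

/-- If `j(z₀) ∉ {0, 1728}`, then `j - j(z₀)` has a simple zero at `z₀`. -/
theorem order_jFun_generic (z₀ : ℍ) (h0 : JN.jFun z₀ ≠ 0) (h1 : JN.jFun z₀ ≠ 1728) :
    analyticOrderAt (fun w : ℂ => JN.jFun (ofComplex w) - JN.jFun z₀) (z₀ : ℂ) = 1 := by
  have han := analyticAt_comp_ofComplex JN.mdiff_jFun z₀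
  have hd : deriv (JN.jFun ∘ ofComplex) (z₀ : ℂ) ≠ 0 := by
    rw [deriv_comp_ofComplex, D_jFun]
    have hΔ := ModularForm.discriminant_ne_zero z₀
    have h4 : E₄ z₀ ≠ 0 := fun h => h0 ((jFun_eq_zero_iff z₀).mpr h)
    have h6 : E₆ z₀ ≠ 0 := fun h => h1 ((jFun_eq_iff z₀).mpr h)
    refine mul_ne_zero two_pi_I_ne_zero (div_ne_zero (neg_ne_zero.mpr ?_) hΔ)
    exact mul_ne_zero (pow_ne_zero 2 h4) h6
  have := han.analyticOrderAt_sub_eq_one_of_deriv_ne_zero hd
  simpa [Function.comp_apply, ofComplex_apply] using this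

/-- At a zero of `E₆` (e.g. `z₀ = i`), `j - 1728` vanishes to order exactly `2`. -/
theorem order_jFun_of_E6_eq_zero (z₀ : ℍ) (h : E₆ z₀ = 0) :
    analyticOrderAt (fun w : ℂ => JN.jFun (ofComplex w) - 1728) (z₀ : ℂ) = 2 := by
  have hΔ := ModularForm.discriminant_ne_zero z₀
  have han6 := analyticAt_comp_ofComplex (ModularFormClass.holo E₆) z₀
  have hanΔ := analyticAt_comp_ofComplex mdiff_discriminant z₀
  have h4 : E₄ z₀ ≠ 0 := by
    intro h4
    have := ModularForm.discriminant_eq_E₄_cube_sub_E₆_sq z₀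
    rw [h, h4] at this
    exact hΔ (by rw [this]; norm_num)
  have hd : deriv (⇑E₆ ∘ ofComplex) (z₀ : ℂ) ≠ 0 := by
    rw [deriv_comp_ofComplex, ramanujan_E6, h]
    refine mul_ne_zero two_pi_I_ne_zero ?_
    have : E₄ z₀ ^ 2 ≠ 0 := pow_ne_zero 2 h4
    simpa using this
  have h6 : (⇑E₆ ∘ ofComplex) (z₀ : ℂ) = 0 := by simp [ofComplex_apply, h]
  have ho6 : analyticOrderAt (⇑E₆ ∘ ofComplex) (z₀ : ℂ) = 1 :=
    han6.analyticOrderAt_eq_one_of_zero_deriv_ne_zero h6 hd
  have hΔ0 : (Δ ∘ ofComplex) (z₀ : ℂ) ≠ 0 := by simpa [ofComplex_apply] using hΔ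
  have hoΔ : analyticOrderAt (Δ ∘ ofComplex)⁻¹ (z₀ : ℂ) = 0 := by
    rw [(hanΔ.inv hΔ0).analyticOrderAt_eq_zero]
    simpa using hΔ0
  have hcongr : (fun w : ℂ => JN.jFun (ofComplex w) - 1728) =ᶠ[𝓝 (z₀ : ℂ)]
      ((⇑E₆ ∘ ofComplex) ^ 2 * (Δ ∘ ofComplex)⁻¹) := by
    filter_upwards with w
    simp [jFun_sub, div_eq_mul_inv]
  rw [analyticOrderAt_congr hcongr, analyticOrderAt_mul (han6.pow 2) (hanΔ.inv hΔ0),
    analyticOrderAt_pow han6, ho6, hoΔ]
  norm_num

/-- At a zero of `E₄` (e.g. `z₀ = ρ`), `j` vanishes to order exactly `3`. -/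
theorem order_jFun_of_E4_eq_zero (z₀ : ℍ) (h : E₄ z₀ = 0) :
    analyticOrderAt (fun w : ℂ => JN.jFun (ofComplex w)) (z₀ : ℂ) = 3 := by
  have hΔ := ModularForm.discriminant_ne_zero z₀
  have han4 := analyticAt_comp_ofComplex (ModularFormClass.holo E₄) z₀
  have hanΔ := analyticAt_comp_ofComplex mdiff_discriminant z₀
  have h6 : E₆ z₀ ≠ 0 := by
    intro h6
    have := ModularForm.discriminant_eq_E₄_cube_sub_E₆_sq z₀
    rw [h, h6] at this
    exact hΔ (by rw [this]; norm_num)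
  have hd : deriv (⇑E₄ ∘ ofComplex) (z₀ : ℂ) ≠ 0 := by
    rw [deriv_comp_ofComplex, ramanujan_E4, h]
    refine mul_ne_zero two_pi_I_ne_zero ?_
    simpa using h6
  have h4 : (⇑E₄ ∘ ofComplex) (z₀ : ℂ) = 0 := by simp [ofComplex_apply, h]
  have ho4 : analyticOrderAt (⇑E₄ ∘ ofComplex) (z₀ : ℂ) = 1 :=
    han4.analyticOrderAt_eq_one_of_zero_deriv_ne_zero h4 hd
  have hΔ0 : (Δ ∘ ofComplex) (z₀ : ℂ) ≠ 0 := by simpa [ofComplex_apply] using hΔ
  have hoΔ : analyticOrderAt (Δ ∘ ofComplex)⁻¹ (z₀ : ℂ) = 0 := by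
    rw [(hanΔ.inv hΔ0).analyticOrderAt_eq_zero]
    simpa using hΔ0
  have hcongr : (fun w : ℂ => JN.jFun (ofComplex w)) =ᶠ[𝓝 (z₀ : ℂ)]
      ((⇑E₄ ∘ ofComplex) ^ 3 * (Δ ∘ ofComplex)⁻¹) := by
    filter_upwards with w
    simp [jFun_eq, div_eq_mul_inv]
  rw [analyticOrderAt_congr hcongr, analyticOrderAt_mul (han4.pow 3) (hanΔ.inv hΔ0),
    analyticOrderAt_pow han4, ho4, hoΔ]
  norm_num


/-! ### The special points `i` and `ρ` -/

/-- The point `ρ = e^{2πi/3} = -1/2 + (√3/2) i` of the upper half plane. -/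
def rho : ℍ := ⟨⟨-1 / 2, Real.sqrt 3 / 2⟩, by
  show (0 : ℝ) < Real.sqrt 3 / 2
  positivity⟩

theorem coe_rho : (rho : ℂ) = ⟨-1 / 2, Real.sqrt 3 / 2⟩ := rfl

theorem rho_sq_add : (rho : ℂ) ^ 2 + (rho : ℂ) + 1 = 0 := by
  have h3 : Real.sqrt 3 * Real.sqrt 3 = 3 := Real.mul_self_sqrt (by norm_num)
  rw [coe_rho]
  apply Complex.ext
  · simp [pow_two]
    nlinarith
  · simp [pow_two]
    ring

/-- The matrix `S * T = !![0, -1; 1, 1]`, acting by `z ↦ -1/(z+1)`; it fixes `ρ`. -/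
def gST : SL(2, ℤ) := ⟨!![0, -1; 1, 1], by simp [Matrix.det_fin_two_of]⟩

theorem gST_eq : gST = ModularGroup.S * ModularGroup.T := by
  ext i j
  fin_cases i <;> fin_cases j <;> rfl

theorem rho_add_one_ne_zero : (rho : ℂ) + 1 ≠ 0 := by
  intro h
  have := congrArg Complex.im h
  have h3 : (0 : ℝ) < Real.sqrt 3 := Real.sqrt_pos.mpr (by norm_num)
  simp [coe_rho] at this

theorem gST_smul_rho : gST • rho = rho := by
  ext1
  rw [UpperHalfPlane.coe_specialLinearGroup_apply]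
  simp only [gST]
  simp
  rw [div_eq_iff rho_add_one_ne_zero]
  linear_combination (-1 : ℂ) * rho_sq_add

theorem denom_gST_rho : denom gST rho = (rho : ℂ) + 1 := by
  rw [ModularGroup.denom_apply]
  simp [gST]

theorem E4_rho : E₄ rho = 0 := by
  have h4 : E₄ (gST • rho) = denom gST rho ^ (4 : ℤ) * E₄ rho :=
    SlashInvariantForm.slash_action_eqn'' (Γ := 𝒮ℒ) E₄
      (γ := Matrix.SpecialLinearGroup.mapGL ℝ gST) ⟨gST, rfl⟩ _
  rw [gST_smul_rho, denom_gST_rho] at h4
  have hpow : ((rho : ℂ) + 1) ^ (4 : ℤ) = (rho : ℂ) ^ 2 := by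
    have : ((rho : ℂ) + 1) ^ (4 : ℤ) = ((rho : ℂ) + 1) ^ (4 : ℕ) := by norm_cast
    rw [this]
    linear_combination ((rho : ℂ) ^ 2 + 3 * (rho : ℂ) + 1) * rho_sq_add
  rw [hpow] at h4
  have hne : (1 : ℂ) - (rho : ℂ) ^ 2 ≠ 0 := by
    intro h
    have h' : (rho : ℂ) + 2 = 0 := by linear_combination h + rho_sq_add
    have := congrArg Complex.im h'
    have h3 : (0 : ℝ) < Real.sqrt 3 := Real.sqrt_pos.mpr (by norm_num)
    simp [coe_rho] at this
  have : (1 - (rho : ℂ) ^ 2) * E₄ rho = 0 := by linear_combination h4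
  exact (mul_eq_zero.mp this).resolve_left hne

theorem jFun_rho : JN.jFun rho = 0 := (jFun_eq_zero_iff _).mpr E4_rho

/-- `j` vanishes to order exactly `3` at `ρ`. -/
theorem order_jFun_rho :
    analyticOrderAt (fun w : ℂ => JN.jFun (ofComplex w)) (rho : ℂ) = 3 :=
  order_jFun_of_E4_eq_zero rho E4_rho

theorem S_smul_I : ModularGroup.S • UpperHalfPlane.I = UpperHalfPlane.I := by
  rw [UpperHalfPlane.modular_S_smul]
  ext
  simp

theorem E6_I : E₆ UpperHalfPlane.I = 0 := by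
  have h6 : E₆ (ModularGroup.S • UpperHalfPlane.I)
      = denom ModularGroup.S UpperHalfPlane.I ^ (6 : ℤ) * E₆ UpperHalfPlane.I :=
    SlashInvariantForm.slash_action_eqn'' (Γ := 𝒮ℒ) E₆
      (γ := Matrix.SpecialLinearGroup.mapGL ℝ ModularGroup.S) ⟨ModularGroup.S, rfl⟩ _
  rw [S_smul_I, ModularGroup.denom_S] at h6
  have hI : ((UpperHalfPlane.I : ℍ) : ℂ) ^ (6 : ℤ) = -1 := by
    rw [UpperHalfPlane.coe_I]
    have : (I : ℂ) ^ (6 : ℤ) = I ^ (6 : ℕ) := by norm_cast
    rw [this, show (6 : ℕ) = 2 * 3 from rfl, pow_mul, I_sq]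
    norm_num
  rw [hI] at h6
  have : (2 : ℂ) * E₆ UpperHalfPlane.I = 0 := by linear_combination h6
  simpa using this

theorem jFun_I : JN.jFun UpperHalfPlane.I = 1728 := (jFun_eq_iff _).mpr E6_I

/-- `j - 1728` vanishes to order exactly `2` at `i`. -/
theorem order_jFun_I :
    analyticOrderAt (fun w : ℂ => JN.jFun (ofComplex w) - 1728) (I : ℂ) = 2 := by
  have := order_jFun_of_E6_eq_zero UpperHalfPlane.I E6_I
  rwa [UpperHalfPlane.coe_I] at this

/-! ### Surjectivity of `j` -/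

theorem range_jFun_eq_image : Set.range JN.jFun = (JN.jFun ∘ ofComplex) '' upperHalfPlaneSet := by
  ext b
  constructor
  · rintro ⟨z, rfl⟩
    exact ⟨(z : ℂ), z.2, by simp [ofComplex_apply]⟩
  · rintro ⟨w, hw, rfl⟩
    exact ⟨ofComplex w, rfl⟩

theorem isOpen_range_jFun : IsOpen (Set.range JN.jFun) := by
  have hg : AnalyticOnNhd ℂ (JN.jFun ∘ ofComplex) upperHalfPlaneSet :=
    (UpperHalfPlane.mdifferentiable_iff.mp JN.mdiff_jFun).analyticOnNhd isOpen_upperHalfPlaneSet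
  have hU : IsPreconnected upperHalfPlaneSet := (convex_halfSpace_im_gt 0).isPreconnected
  rcases hg.is_constant_or_isOpen hU with ⟨w, hw⟩ | h
  · exfalso
    have h1 := hw (UpperHalfPlane.I : ℂ) UpperHalfPlane.I.2
    have h2 := hw (rho : ℂ) rho.2
    simp only [Function.comp_apply, ofComplex_apply] at h1 h2
    rw [jFun_I] at h1
    rw [jFun_rho] at h2
    rw [← h2] at h1
    norm_num at h1
  · rw [range_jFun_eq_image]
    exact h _ (le_refl _) isOpen_upperHalfPlaneSet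

/-- Outside a compact part of the fundamental domain, `j` is large. -/
theorem exists_im_bound (R : ℝ) : ∃ A : ℝ, ∀ z : ℍ, A ≤ z.im → R < ‖JN.jFun z‖ := by
  have h := JN.tendsto_norm_jFun
  have h1 : ∀ᶠ z : ℍ in atImInfty, (1 / 2 : ℝ) < ‖JN.jFun z‖ * Real.exp (-2 * π * z.im) :=
    h.eventually (lt_mem_nhds (by norm_num))
  obtain ⟨A₀, hA₀⟩ := (UpperHalfPlane.atImInfty_mem _).mp h1
  refine ⟨max A₀ (max R 1), fun z hz => ?_⟩
  have hz0 : A₀ ≤ z.im := (le_max_left _ _).trans hz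
  have hzR : R ≤ z.im := ((le_max_left _ _).trans (le_max_right _ _)).trans hz
  have hz1 : 1 ≤ z.im := ((le_max_right _ _).trans (le_max_right _ _)).trans hz
  have h2 : (1 / 2 : ℝ) < ‖JN.jFun z‖ * Real.exp (-2 * π * z.im) := hA₀ z hz0
  have hexp : Real.exp (-2 * π * z.im) * Real.exp (2 * π * z.im) = 1 := by
    rw [← Real.exp_add]
    simp
  have hexp_pos : 0 < Real.exp (2 * π * z.im) := Real.exp_pos _
  have h3 : (1 / 2 : ℝ) * Real.exp (2 * π * z.im) < ‖JN.jFun z‖ := by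
    have := mul_lt_mul_of_pos_right h2 hexp_pos
    rwa [mul_assoc ‖JN.jFun z‖, hexp, mul_one] at this
  have h4 : 2 * π * z.im + 1 ≤ Real.exp (2 * π * z.im) := Real.add_one_le_exp _
  have hpi : (3 : ℝ) < π := Real.pi_gt_three
  nlinarith

theorem isClosed_range_jFun : IsClosed (Set.range JN.jFun) := by
  have hcont : ContinuousOn (JN.jFun ∘ ofComplex) upperHalfPlaneSet :=
    (UpperHalfPlane.mdifferentiable_iff.mp JN.mdiff_jFun).continuousOn
  -- bounded parts of the range are images of compact sets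
  have key : ∀ R : ℝ, IsClosed (Set.range JN.jFun ∩ Metric.closedBall 0 R) := by
    intro R
    obtain ⟨A, hA⟩ := exists_im_bound R
    set K : Set ℂ := Set.Icc (-(1 / 2 : ℝ)) (1 / 2) ×ℂ Set.Icc (1 / 2 : ℝ) A with hK
    have hKc : IsCompact K := isCompact_Icc.reProdIm isCompact_Icc
    have hKU : K ⊆ upperHalfPlaneSet := by
      intro w hw
      rw [hK, Complex.mem_reProdIm] at hw
      show 0 < w.im
      linarith [hw.2.1]
    have himg : IsCompact ((JN.jFun ∘ ofComplex) '' K) := hKc.image_of_continuousOn (hcont.mono hKU)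
    have heq : Set.range JN.jFun ∩ Metric.closedBall 0 R
        = ((JN.jFun ∘ ofComplex) '' K) ∩ Metric.closedBall 0 R := by
      ext b
      constructor
      · rintro ⟨⟨z, rfl⟩, hb⟩
        refine ⟨?_, hb⟩
        obtain ⟨γ, hγ⟩ := ModularGroup.exists_smul_mem_fd z
        set z' := γ • z with hz'
        have hj : JN.jFun z' = JN.jFun z := JN.jFun_smul γ z
        have hnorm : ‖JN.jFun z'‖ ≤ R := by
          rw [hj]
          simpa using hb
        have him : z'.im ≤ A := by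
          by_contra hcon
          exact absurd (hA z' (not_le.mp hcon).le) (not_lt.mpr hnorm)
        have hfd1 : 1 ≤ Complex.normSq (z' : ℂ) := hγ.1
        have hfd2 : |z'.re| ≤ 1 / 2 := hγ.2
        have hre := abs_le.mp hfd2
        have himpos : 0 < z'.im := z'.im_pos
        have him2 : 1 / 2 ≤ z'.im := by
          rw [Complex.normSq_apply] at hfd1
          have hre' : (z' : ℂ).re = z'.re := rfl
          have him' : (z' : ℂ).im = z'.im := rfl
          rw [hre', him'] at hfd1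
          nlinarith
        refine ⟨(z' : ℂ), ?_, ?_⟩
        · rw [hK, Complex.mem_reProdIm]
          exact ⟨⟨hre.1, hre.2⟩, ⟨him2, him⟩⟩
        · simp [ofComplex_apply, hj]
      · rintro ⟨⟨w, hw, rfl⟩, hb⟩
        exact ⟨⟨ofComplex w, rfl⟩, hb⟩
    rw [heq]
    exact himg.isClosed.inter Metric.isClosed_closedBall
  refine isClosed_of_closure_subset fun a ha => ?_
  have hopen : IsOpen (Metric.ball (0 : ℂ) (‖a‖ + 1)) := Metric.isOpen_ball
  have ha' : a ∈ Metric.ball (0 : ℂ) (‖a‖ + 1) ∩ closure (Set.range JN.jFun) :=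
    ⟨by simp, ha⟩
  have h1 := hopen.inter_closure ha'
  have h2 : Metric.ball (0 : ℂ) (‖a‖ + 1) ∩ Set.range JN.jFun
      ⊆ Set.range JN.jFun ∩ Metric.closedBall 0 (‖a‖ + 1) :=
    fun x hx => ⟨hx.2, Metric.ball_subset_closedBall hx.1⟩
  have h3 := closure_mono h2 h1
  rw [(key (‖a‖ + 1)).closure_eq] at h3
  exact h3.1

/-- The `j`-function is surjective `ℍ → ℂ`. -/
theorem jFun_surjective : Function.Surjective JN.jFun := by
  have hclopen : IsClopen (Set.range JN.jFun) := ⟨isClosed_range_jFun, isOpen_range_jFun⟩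
  have := hclopen.eq_univ (Set.range_nonempty _)
  exact Set.range_eq_univ.mp this

/-! ### Summary -/

/-- The exact vanishing order of `j - j(z₀)` at `z₀`: it is `3` if `j(z₀) = 0`, `2` if
`j(z₀) = 1728` and `1` otherwise. -/
theorem order_jFun (z₀ : ℍ) :
    analyticOrderAt (fun w : ℂ => JN.jFun (ofComplex w) - JN.jFun z₀) (z₀ : ℂ)
      = if JN.jFun z₀ = 0 then 3 else if JN.jFun z₀ = 1728 then 2 else 1 := by
  by_cases h0 : JN.jFun z₀ = 0
  · rw [if_pos h0, h0]
    simpa using order_jFun_of_E4_eq_zero z₀ ((jFun_eq_zero_iff z₀).mp h0)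
  · rw [if_neg h0]
    by_cases h1 : JN.jFun z₀ = 1728
    · rw [if_pos h1, h1]
      exact order_jFun_of_E6_eq_zero z₀ ((jFun_eq_iff z₀).mp h1)
    · rw [if_neg h1]
      exact order_jFun_generic z₀ h0 h1

/-- Every value `a ∉ {0, 1728}` is taken by `j` at a point where `j - a` has a simple zero. -/
theorem exists_simple_point (a : ℂ) (h0 : a ≠ 0) (h1 : a ≠ 1728) :
    ∃ z₀ : ℍ, JN.jFun z₀ = a ∧
      analyticOrderAt (fun w : ℂ => JN.jFun (ofComplex w) - a) (z₀ : ℂ) = 1 := by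
  obtain ⟨z₀, rfl⟩ := jFun_surjective a
  exact ⟨z₀, rfl, order_jFun_generic z₀ h0 h1⟩

end Fermat.Agent.S24.JLocal




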