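/-
S24, piece T2 ("MERO"), part 4: the valuation "order at the cusp in `q_N = exp (2 π i z / N)`" on
the fraction field of `Mero.ring N`, its invariance under `T`, the order of `j`, and divisibility
of the orders of elements fixed by powers of `T`.
-/
import Mathlib
import Fermat.Agent.S24.MeroOrd

set_option autoImplicit false

noncomputable section

open UpperHalfPlane Filter Topology Function
open scoped MatrixGroups ModularForm Manifold Real WithZero

namespace Fermat.Agent.S24.Mero

open Fermat.Agent.S23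

/-! ### The chart at the cusp -/

theorem periodic_of_mem {N : ℕ} (f : ring N) (z : ℍ) :
    (f : ℍ → ℂ) ((N : ℝ) +ᵥ z) = (f : ℍ → ℂ) z := by
  have := (f.2.2 1).1 z
  simpa using this

theorem tendsto_qParam_punctured (N : ℕ) [NeZero N] :
    Tendsto (fun z : ℍ => Function.Periodic.qParam N (z : ℂ)) atImInfty (𝓝[≠] 0) :=
  tendsto_nhdsWithin_of_tendsto_nhds_of_eventually_within _
    (qParam_tendsto_atImInfty (natCast_pos_real N))
    (Filter.Eventually.of_forall fun _ => Complex.exp_ne_zero _)

theorem eq_zero_of_eventually_atImInfty {N : ℕ} (f : ring N)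
    (h : ∀ᶠ z in atImInfty, (f : ℍ → ℂ) z = 0) : f = 0 := by
  obtain ⟨A, hA⟩ := (UpperHalfPlane.atImInfty_mem _).mp h
  have hpos : (0 : ℝ) < max A 0 + 1 := by positivity
  set w0 : ℍ := ⟨⟨0, max A 0 + 1⟩, hpos⟩ with hw0
  have hopen : IsOpen {z : ℂ | max A 0 < z.im} := isOpen_lt continuous_const Complex.continuous_im
  have hmem : (w0 : ℂ) ∈ {z : ℂ | max A 0 < z.im} := by
    show max A 0 < (w0 : ℂ).im
    simp [hw0]
  have hev : ∀ᶠ z in 𝓝 (w0 : ℂ), ((f : ℍ → ℂ) ∘ ofComplex) z = 0 := by
    filter_upwards [hopen.mem_nhds hmem] with z hz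
    have hz0 : 0 < z.im := lt_of_le_of_lt (le_max_right A 0) hz
    have hzA : A ≤ z.im := (le_max_left A 0).trans hz.le
    simp only [Function.comp_apply, ofComplex_apply_of_im_pos hz0]
    exact hA ⟨z, hz0⟩ hzA
  have han : AnalyticOnNhd ℂ ((f : ℍ → ℂ) ∘ ofComplex) {z : ℂ | 0 < z.im} :=
    (holo_of_mem f).analyticOnNhd (isOpen_lt continuous_const Complex.continuous_im)
  have hpre : IsPreconnected {z : ℂ | 0 < z.im} := (convex_halfSpace_im_gt 0).isPreconnected
  have h0 := han.eqOn_zero_of_preconnected_of_eventuallyEq_zero hpre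
    (show (w0 : ℂ) ∈ {z : ℂ | 0 < z.im} from w0.im_pos) hev
  apply Subtype.ext
  funext z
  have := h0 (show (z : ℂ) ∈ {z : ℂ | 0 < z.im} from z.im_pos)
  simpa using this

/-- The chart at the cusp. -/
theorem isChart_inf (N : ℕ) [NeZero N] : IsChart N (chartInf N) 0 where
  mero f := by
    have h1 := (f.2.2 1).2
    have h2 : cuspFn N (fun z => (f : ℍ → ℂ) ((1 : SL(2, ℤ)) • z)) = (f : ℍ → ℂ) ∘ chartInf N := by
      funext q
      simp [cuspFn]
    rwa [h2] at h1
  ne_top f hf htop := by
    apply hf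
    rw [meromorphicOrderAt_eq_top_iff] at htop
    apply eq_zero_of_eventually_atImInfty
    have h1 := (tendsto_qParam_punctured N).eventually htop
    filter_upwards [h1] with z hz
    have := cuspFn_qParam (f := (f : ℍ → ℂ)) (periodic_of_mem f) z
    rw [← this]
    exact hz

/-- The valuation "order at the cusp in `q_N`". -/
def valInf (N : ℕ) [NeZero N] : Valuation (Fld N) ℤᵐ⁰ := val (isChart_inf N)

/-- The order at the cusp (junk value `0` at `0`). -/
def ordInf (N : ℕ) [NeZero N] (y : Fld N) : ℤ := ord (isChart_inf N) y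

theorem valInf_const (N : ℕ) [NeZero N] {c : ℂ} (hc : c ≠ 0) :
    valInf N (algebraMap (ring N) (Fld N) (const N c)) = 1 := by
  rw [valInf, val_algebraMap, valRing_apply, ordRing_const c hc]
  rfl

theorem qParam_one_eq_pow (N : ℕ) [NeZero N] (w : ℂ) :
    Function.Periodic.qParam 1 w = Function.Periodic.qParam N w ^ N := by
  have hN : (N : ℂ) ≠ 0 := by exact_mod_cast NeZero.ne N
  simp only [Function.Periodic.qParam]
  rw [← Complex.exp_nat_mul]
  congr 1
  push_cast
  field_simp

theorem ordRing_inf_jElt (N : ℕ) [NeZero N] :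
    ordRing (chartInf N) 0 (jElt N) = ((-(N : ℤ) : ℤ) : WithTop ℤ) := by
  have hN : 0 < N := Nat.pos_of_ne_zero (NeZero.ne N)
  rw [ordRing, ← meromorphicOrderAt_J1_comp (c := 1) one_ne_zero hN]
  apply meromorphicOrderAt_congr
  filter_upwards [eventually_punctured_norm_lt_one] with q hq
  simp only [Function.comp_apply, jElt_apply, one_mul]
  rw [← J1_qParam, qParam_one_eq_pow N, qParam_chartInf hq.1 hq.2]

theorem jElt_ne_zero (N : ℕ) [NeZero N] : jElt N ≠ 0 := by
  intro h
  have := ordRing_inf_jElt N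
  rw [h, ordRing_zero] at this
  exact WithTop.top_ne_coe this

/-- `j` has a pole of order `N` at the cusp in the coordinate `q_N`. -/
theorem valInf_jElt (N : ℕ) [NeZero N] :
    valInf N (algebraMap (ring N) (Fld N) (jElt N)) = WithZero.exp (N : ℤ) := by
  rw [valInf, val_algebraMap, valRing_apply, ordRing_inf_jElt, toVal_coe, neg_neg]

theorem valInf_inv_jElt (N : ℕ) [NeZero N] :
    valInf N (algebraMap (ring N) (Fld N) (jElt N))⁻¹ = WithZero.exp (-(N : ℤ)) := by
  rw [map_inv₀, valInf_jElt, WithZero.exp_neg]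

/-! ### The translation `T` in the chart at the cusp -/

/-- The root of unity `exp (2 π i / N)`. -/
def zetaN (N : ℕ) : ℂ := Complex.exp (2 * π * Complex.I / N)

theorem isPrimitiveRoot_zetaN (N : ℕ) [NeZero N] : IsPrimitiveRoot (zetaN N) N :=
  Complex.isPrimitiveRoot_exp N (NeZero.ne N)

theorem qParam_vadd_one (N : ℕ) [NeZero N] (w : ℍ) :
    Function.Periodic.qParam N (((1 : ℝ) +ᵥ w : ℍ) : ℂ)
      = zetaN N * Function.Periodic.qParam N (w : ℂ) := by
  simp only [Function.Periodic.qParam, zetaN, coe_vadd]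
  rw [← Complex.exp_add]
  congr 1
  push_cast
  ring

/-- `T` is a symmetry of the chart at the cusp: it acts by `q ↦ ζ q`. -/
theorem isSym_inf (N : ℕ) [NeZero N] :
    IsSym N (chartInf N) 0 ModularGroup.T (fun q => zetaN N * q) (zetaN N) where
  fix := by simp
  hasDeriv := by simpa using (hasDerivAt_id (0 : ℂ)).const_mul (zetaN N)
  lam_ne := Complex.exp_ne_zero _
  compat f := by
    have hz : ‖zetaN N‖ = 1 := by
      have := (isPrimitiveRoot_zetaN N).norm'_eq_one (NeZero.ne N)
      simpa using this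
    filter_upwards [eventually_punctured_norm_lt_one] with q hq
    have h1 := cuspFn_qParam (f := (f : ℍ → ℂ)) (periodic_of_mem f) ((1 : ℝ) +ᵥ chartInf N q)
    rw [qParam_vadd_one, qParam_chartInf hq.1 hq.2] at h1
    simp only [Function.comp_apply, act_apply, modular_T_smul]
    rw [← h1]
    rfl

theorem valInf_actF_T (N : ℕ) [NeZero N] (y : Fld N) :
    valInf N (actF N ModularGroup.T y) = valInf N y :=
  val_actF (isChart_inf N) (isSym_inf N) (by fun_prop) y

/-- **Divisibility at the cusp.**  If `y ≠ 0` is fixed by `T ^ d`, then `N / gcd N d` divides the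
order of `y` at the cusp. -/
theorem dvd_ordInf_of_fixed (N : ℕ) [NeZero N] (d : ℕ) {y : Fld N} (hy : y ≠ 0)
    (hfix : actF N (ModularGroup.T ^ d) y = y) :
    ((N / Nat.gcd N d : ℕ) : ℤ) ∣ WithZero.log (valInf N y) := by
  have := dvd_ord_of_fixed (isChart_inf N) (isSym_inf N) (Nat.pos_of_ne_zero (NeZero.ne N))
    (isPrimitiveRoot_zetaN N) d hy hfix
  rw [ord] at this
  exact (dvd_neg).mp this

end Fermat.Agent.S24.Mero
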