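/-
S24, piece T2 ("MERO"), part 3: the valuation "order at a point `z₀` of the upper half plane" on
the fraction field of `Mero.ring N`, its invariance under the stabiliser of `z₀` in `SL(2, ℤ)`,
and divisibility of the orders of fixed elements.
-/
import Mathlib
import Fermat.Agent.S24.MeroOrd

set_option autoImplicit false

noncomputable section

open UpperHalfPlane Filter Topology Function
open scoped MatrixGroups ModularForm Manifold Real WithZero

namespace Fermat.Agent.S24.Mero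

open Fermat.Agent.S23

/-! ### The chart at a point -/

theorem isOpen_upper : IsOpen {z : ℂ | 0 < z.im} := isOpen_lt continuous_const Complex.continuous_im

theorem upper_mem_nhds (z0 : ℍ) : {z : ℂ | 0 < z.im} ∈ 𝓝 (z0 : ℂ) :=
  isOpen_upper.mem_nhds z0.im_pos

theorem analyticAt_comp_ofComplex {N : ℕ} (f : ring N) (z0 : ℍ) :
    AnalyticAt ℂ ((f : ℍ → ℂ) ∘ ofComplex) (z0 : ℂ) :=
  (holo_of_mem f).analyticAt (upper_mem_nhds z0)

/-- The identity chart at a point of the upper half plane. -/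
theorem isChart_point (N : ℕ) (z0 : ℍ) : IsChart N (⇑ofComplex) (z0 : ℂ) where
  mero f := (analyticAt_comp_ofComplex f z0).meromorphicAt
  ne_top f hf htop := by
    apply hf
    rw [meromorphicOrderAt_eq_top_iff] at htop
    have han : AnalyticOnNhd ℂ ((f : ℍ → ℂ) ∘ ofComplex) {z : ℂ | 0 < z.im} :=
      (holo_of_mem f).analyticOnNhd isOpen_upper
    have hpre : IsPreconnected {z : ℂ | 0 < z.im} := (convex_halfSpace_im_gt 0).isPreconnected
    have h0 := han.eqOn_zero_of_preconnected_of_frequently_eq_zero hpre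
      (show (z0 : ℂ) ∈ {z : ℂ | 0 < z.im} from z0.im_pos) htop.frequently
    apply Subtype.ext
    funext z
    have := h0 (show (z : ℂ) ∈ {z : ℂ | 0 < z.im} from z.im_pos)
    simpa using this

/-- The valuation "order at `z₀`". -/
def valAt (N : ℕ) (z0 : ℍ) : Valuation (Fld N) ℤᵐ⁰ := val (isChart_point N z0)

/-- The order at `z₀` (junk value `0` at `0`). -/
def ordAt (N : ℕ) (z0 : ℍ) (y : Fld N) : ℤ := ord (isChart_point N z0) y

theorem valAt_const (N : ℕ) (z0 : ℍ) {c : ℂ} (hc : c ≠ 0) :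
    valAt N z0 (algebraMap (ring N) (Fld N) (const N c)) = 1 := by
  rw [valAt, val_algebraMap, valRing_apply, ordRing_const c hc]
  rfl

/-- The valuation of `j - j z₀` at `z₀` is given by the analytic order. -/
theorem valAt_jElt_sub (N : ℕ) [NeZero N] (z0 : ℍ) {m : ℕ}
    (hm : analyticOrderAt (fun w : ℂ => JN.jFun (ofComplex w) - JN.jFun z0) (z0 : ℂ) = m) :
    valAt N z0 (algebraMap (ring N) (Fld N) (jElt N - const N (JN.jFun z0)))
      = WithZero.exp (-(m : ℤ)) := by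
  rw [valAt, val_algebraMap, valRing_apply, ordRing]
  have han := analyticAt_comp_ofComplex (jElt N - const N (JN.jFun z0)) z0
  have hfun : (((jElt N - const N (JN.jFun z0) : ring N) : ℍ → ℂ) ∘ ofComplex)
      = fun w : ℂ => JN.jFun (ofComplex w) - JN.jFun z0 := rfl
  rw [han.meromorphicOrderAt_eq, hfun, hm]
  rfl

/-! ### Möbius maps in the chart -/

/-- The Möbius transformation of `g` as a function on `ℂ`. -/
def moeb (g : SL(2, ℤ)) (z : ℂ) : ℂ :=
  ((g 0 0 : ℂ) * z + (g 0 1 : ℂ)) / ((g 1 0 : ℂ) * z + (g 1 1 : ℂ))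

theorem coe_smul_eq_moeb (g : SL(2, ℤ)) (z : ℍ) : ((g • z : ℍ) : ℂ) = moeb g z := by
  rw [coe_specialLinearGroup_apply]
  simp [moeb]

theorem moeb_denom_ne_zero (g : SL(2, ℤ)) (z : ℍ) : (g 1 0 : ℂ) * z + (g 1 1 : ℂ) ≠ 0 := by
  have h := denom_ne_zero (Matrix.SpecialLinearGroup.mapGL ℝ g) z
  intro h0
  apply h
  rw [denom]
  simpa using h0

theorem det_complex (g : SL(2, ℤ)) :
    (g 0 0 : ℂ) * (g 1 1 : ℂ) - (g 0 1 : ℂ) * (g 1 0 : ℂ) = 1 := by
  have := g.det_coe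
  rw [Matrix.det_fin_two] at this
  exact_mod_cast this

/-- The multiplier of `g` at `z₀`: the derivative `1 / (c z₀ + d) ^ 2` of the Möbius map. -/
def mult (g : SL(2, ℤ)) (z0 : ℍ) : ℂ := (((g 1 0 : ℂ) * z0 + (g 1 1 : ℂ)) ^ 2)⁻¹

theorem mult_ne_zero (g : SL(2, ℤ)) (z0 : ℍ) : mult g z0 ≠ 0 :=
  inv_ne_zero (pow_ne_zero _ (moeb_denom_ne_zero g z0))

theorem hasDerivAt_moeb (g : SL(2, ℤ)) (z0 : ℍ) : HasDerivAt (moeb g) (mult g z0) (z0 : ℂ) := by
  have hd := moeb_denom_ne_zero g z0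
  have h1 : HasDerivAt (fun z : ℂ => (g 0 0 : ℂ) * z + (g 0 1 : ℂ)) (g 0 0 : ℂ) (z0 : ℂ) := by
    simpa using ((hasDerivAt_id (z0 : ℂ)).const_mul (g 0 0 : ℂ)).add_const (g 0 1 : ℂ)
  have h2 : HasDerivAt (fun z : ℂ => (g 1 0 : ℂ) * z + (g 1 1 : ℂ)) (g 1 0 : ℂ) (z0 : ℂ) := by
    simpa using ((hasDerivAt_id (z0 : ℂ)).const_mul (g 1 0 : ℂ)).add_const (g 1 1 : ℂ)
  have h3 := h1.div h2 hd
  have e : ((g 0 0 : ℂ) * ((g 1 0 : ℂ) * z0 + (g 1 1 : ℂ))
      - ((g 0 0 : ℂ) * z0 + (g 0 1 : ℂ)) * (g 1 0 : ℂ)) / ((g 1 0 : ℂ) * z0 + (g 1 1 : ℂ)) ^ 2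
      = mult g z0 := by
    rw [mult]
    have hdet := det_complex g
    field_simp
    linear_combination hdet
  rw [← e]
  exact h3

/-- An element of `SL(2, ℤ)` fixing `z₀` is a symmetry of the chart at `z₀`. -/
theorem isSym_point (N : ℕ) {z0 : ℍ} {g : SL(2, ℤ)} (hg : g • z0 = z0) :
    IsSym N (⇑ofComplex) (z0 : ℂ) g (moeb g) (mult g z0) where
  fix := by rw [← coe_smul_eq_moeb, hg]
  hasDeriv := hasDerivAt_moeb g z0
  lam_ne := mult_ne_zero g z0
  compat f := by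
    have h1 : ∀ᶠ z in 𝓝[≠] (z0 : ℂ), z ∈ {z : ℂ | 0 < z.im} :=
      eventually_nhdsWithin_of_eventually_nhds (upper_mem_nhds z0)
    filter_upwards [h1] with z hz
    have e1 : ofComplex z = ⟨z, hz⟩ := ofComplex_apply_of_im_pos hz
    have e2 : ofComplex (moeb g z) = g • (⟨z, hz⟩ : ℍ) := by
      have := coe_smul_eq_moeb g ⟨z, hz⟩
      rw [← UpperHalfPlane.ofComplex_apply (g • (⟨z, hz⟩ : ℍ)), this]
    simp only [Function.comp_apply, act_apply, e1, e2]

theorem analyticAt_moeb (g : SL(2, ℤ)) (z0 : ℍ) : AnalyticAt ℂ (moeb g) (z0 : ℂ) := by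
  have hd := moeb_denom_ne_zero g z0
  unfold moeb
  fun_prop (disch := exact hd)

/-- The order at `z₀` is invariant under the stabiliser of `z₀`. -/
theorem valAt_actF (N : ℕ) {z0 : ℍ} {g : SL(2, ℤ)} (hg : g • z0 = z0) (y : Fld N) :
    valAt N z0 (actF N g y) = valAt N z0 y :=
  val_actF (isChart_point N z0) (isSym_point N hg) (analyticAt_moeb g z0) y

/-- **Divisibility at a point.**  If the multiplier of `g` (fixing `z₀`) is a primitive `m`-th
root of unity and `y ≠ 0` is fixed by `g ^ d`, then `m / gcd m d` divides the order of `y`. -/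
theorem dvd_ordAt_of_fixed (N : ℕ) {z0 : ℍ} {g : SL(2, ℤ)} (hg : g • z0 = z0) {m : ℕ}
    (hm : 0 < m) (hprim : IsPrimitiveRoot (mult g z0) m) (d : ℕ) {y : Fld N} (hy : y ≠ 0)
    (hfix : actF N (g ^ d) y = y) :
    ((m / Nat.gcd m d : ℕ) : ℤ) ∣ WithZero.log (valAt N z0 y) := by
  have := dvd_ord_of_fixed (isChart_point N z0) (isSym_point N hg) hm hprim d hy hfix
  rw [ord] at this
  exact (dvd_neg).mp this

/-! ### The multipliers at the elliptic points -/

theorem mult_one (z0 : ℍ) : mult 1 z0 = 1 := by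
  simp [mult]

theorem mult_S (z0 : ℍ) (h : (z0 : ℂ) = Complex.I) : mult ModularGroup.S z0 = -1 := by
  simp [mult, ModularGroup.S, h]

theorem isPrimitiveRoot_mult_S (z0 : ℍ) (h : (z0 : ℂ) = Complex.I) :
    IsPrimitiveRoot (mult ModularGroup.S z0) 2 := by
  rw [mult_S z0 h]
  exact IsPrimitiveRoot.neg_one 0 (by norm_num)

theorem isPrimitiveRoot_mult_ST (z0 : ℍ) (h : (z0 : ℂ) ^ 2 + (z0 : ℂ) + 1 = 0) :
    IsPrimitiveRoot (mult (ModularGroup.S * ModularGroup.T) z0) 3 := by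
  have h1 : mult (ModularGroup.S * ModularGroup.T) z0 = (z0 : ℂ)⁻¹ := by
    have e : ((z0 : ℂ) + 1) ^ 2 = (z0 : ℂ) := by linear_combination h
    have e10 : ((ModularGroup.S * ModularGroup.T : SL(2, ℤ)) 1 0 : ℤ) = 1 := by decide
    have e11 : ((ModularGroup.S * ModularGroup.T : SL(2, ℤ)) 1 1 : ℤ) = 1 := by decide
    rw [mult, e10, e11]
    simp [e]
  rw [h1]
  have hz3 : (z0 : ℂ) ^ 3 = 1 := by linear_combination ((z0 : ℂ) - 1) * h
  have hz1 : (z0 : ℂ) ≠ 1 := by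
    intro h1'
    rw [h1'] at h
    norm_num at h
  have hprim : IsPrimitiveRoot (z0 : ℂ) 3 := by
    refine IsPrimitiveRoot.mk_of_lt _ (by norm_num) hz3 ?_
    intro l hl0 hl3
    interval_cases l
    · simpa using hz1
    · intro h2
      have : (z0 : ℂ) = 1 := by
        have h3 : (z0 : ℂ) ^ 3 = (z0 : ℂ) ^ 2 * z0 := by ring
        rw [h2, one_mul] at h3
        rw [← h3, hz3]
      exact hz1 this
  exact hprim.inv

end Fermat.Agent.S24.Mero
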