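/-
S24: assembly.  Degree of the canonical divisor of the function field of `X₀(N)` over an
algebraically closed field `L` of characteristic zero embedded in ℂ (`L = ℚ̄` or `L = ℂ`).
-/
import Fermat.Agent.S24.Alg.RH
import Fermat.Agent.S24.Mod.Data
import Fermat.Agent.S24.Mod.Degree
import Fermat.Agent.S24.Comb.Count

set_option autoImplicit false

noncomputable section

open scoped MatrixGroups
open ModularCurve AlgebraicCurve KaehlerDifferential

namespace Fermat.Agent.S24.Main

variable {L : Type*} [Field L] [Algebra ℚ L] [IsAlgClosed L]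

/-- Riemann–Hurwitz for `X₀(N) → X(1)`, in terms of cycle counts on `SL(2, ℤ) ⧸ Γ₀(N)`. -/
theorem degree_eq_cyc (ι : L →+* ℂ) (N : ℕ) [NeZero N] :
    (∃ ω : Ω[↥(FF L N)⁄L], ω ≠ 0) ∧
    ∀ ω : Ω[↥(FF L N)⁄L], ω ≠ 0 → ∀ D : Divisor L ↥(FF L N),
      (∀ v : Place L ↥(FF L N), D v = v.ordDifferential ω) →
      Divisor.degree D = (dedekindPsi N : ℤ)
        - cyc (cosetPerm N (ModularGroup.S * ModularGroup.T))
        - cyc (cosetPerm N ModularGroup.S) - cyc (cosetPerm N ModularGroup.T) := by
  classical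
  haveI : CharZero L := algebraRat.charZero L
  haveI : Finite (SL(2, ℤ) ⧸ CongruenceSubgroup.Gamma0 N) :=
    Subgroup.finite_quotient_of_finiteIndex
  haveI := Degree.finiteDimensional ι N
  obtain ⟨Ω, _, w, winf, hgen, h0, h1728', hinf⟩ := Data.exists_valDatum ι N
  let σ : L → Equiv.Perm (SL(2, ℤ) ⧸ CongruenceSubgroup.Gamma0 N) := fun a =>
    if a = 0 then cosetPerm N (ModularGroup.S * ModularGroup.T)⁻¹
    else if a = 1728 then cosetPerm N ModularGroup.S⁻¹ else 1
  let m : L → ℕ := fun a => if a = 0 then 3 else if a = 1728 then 2 else 1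
  have h1728 : (1728 : L) ≠ 0 := by norm_num
  have dat : ∀ a : L, Nonempty (ValDatum L (w a)
      (jElt L N - algebraMap L ↥(FF L N) a) (σ a) (m a)) := by
    intro a
    by_cases ha0 : a = 0
    · subst ha0
      simpa [σ, m] using h0
    by_cases ha1 : a = 1728
    · subst ha1
      simpa [σ, m, h1728] using h1728'
    · simpa [σ, m, ha0, ha1] using hgen a ha0 ha1
  have hm : ∀ a : L, a ∉ ({0, 1728} : Finset L) → m a = 1 := by
    intro a ha
    simp only [Finset.mem_insert, Finset.mem_singleton, not_or] at ha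
    simp [m, ha.1, ha.2]
  obtain ⟨hex, hdeg⟩ := RH.riemannHurwitz (jElt L N) (Degree.finrank_le ι N) {0, 1728} σ m hm
    w dat (cosetPerm N ModularGroup.T⁻¹) N winf hinf
  refine ⟨hex, fun ω hω D hD => ?_⟩
  have h := hdeg ω hω D hD
  rw [Finset.sum_pair h1728.symm] at h
  simp only [σ, if_true, if_neg h1728, Comb.cosetPerm_inv, Comb.cyc_inv] at h
  rw [h, Comb.card_coset N]
  ring

/-- The (natural number) genus attached to any canonical divisor is the genus formula. -/
theorem genus_eq (ι : L →+* ℂ) (N : ℕ) [NeZero N] (ω : Ω[↥(FF L N)⁄L]) (hω : ω ≠ 0)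
    (D : Divisor L ↥(FF L N)) (hD : ∀ v : Place L ↥(FF L N), D v = v.ordDifferential ω) :
    (((Divisor.degree D + 2).toNat / 2 : ℕ) : ℚ) = genusFormula N ∧
    (Divisor.degree D : ℚ) = 2 * genusFormula N - 2 := by
  have hdeg := (degree_eq_cyc ι N).2 ω hω D hD
  have hS := Comb.cyc_S N
  have hST := Comb.cyc_ST N
  have hT := Comb.cyc_T N
  obtain ⟨hle, hev⟩ := Comb.ree N
  rw [Comb.card_coset N] at hle hev
  set cS := cyc (cosetPerm N ModularGroup.S) with hcS
  set cT := cyc (cosetPerm N ModularGroup.T) with hcT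
  set cST := cyc (cosetPerm N (ModularGroup.S * ModularGroup.T)) with hcST
  set d := Divisor.degree D with hd
  have hk : (d + 2).toNat + (cS + cT + cST) = dedekindPsi N + 2 := by
    have : d + 2 = ((dedekindPsi N + 2 - (cS + cT + cST) : ℕ) : ℤ) := by
      rw [Nat.cast_sub hle]; push_cast; rw [hdeg]; ring
    rw [this, Int.toNat_natCast]; omega
  have hev2 : Even (d + 2).toNat := by
    have h2 : Even ((d + 2).toNat + 2 * (cS + cT + cST)) := by
      have : (d + 2).toNat + 2 * (cS + cT + cST) = dedekindPsi N + cS + cT + cST + 2 := by omega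
      rw [this]; exact hev.add even_two
    exact (Nat.even_add.mp h2).mpr (even_two_mul _)
  obtain ⟨r, hr⟩ := hev2
  have hr2 : (d + 2).toNat / 2 = r := by omega
  have e1 : (dedekindPsi N : ℚ) + 2 = 2 * r + (cS + cT + cST) := by
    have := congrArg (fun n : ℕ => (n : ℚ)) hk
    simp only [Nat.cast_add, Nat.cast_ofNat] at this
    rw [hr] at this; push_cast at this; linarith
  have e2 : (2 : ℚ) * cS = dedekindPsi N + nuTwo N := by exact_mod_cast hS
  have e3 : (3 : ℚ) * cST = dedekindPsi N + 2 * nuThree N := by exact_mod_cast hST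
  have e4 : (cT : ℚ) = cuspCount N := by exact_mod_cast hT
  have e5 : (d : ℚ) = dedekindPsi N - cST - cS - cT := by
    rw [hdeg]; push_cast; ring
  refine ⟨?_, ?_⟩
  · rw [hr2]; unfold genusFormula; rw [← e4]; linarith
  · rw [e5]; unfold genusFormula; rw [← e4]; linarith

end Fermat.Agent.S24.Main

end
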